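/-
PT-L (local class field theory) — INTERFACE FILE (definitions and statements only).
Project PT = Poitou–Tate campaign for S55 (captain helper55), sub-captain for PT-L: helper57.
Plan, proofs on paper and piece table: NOTES/PT-L-plan.md.

A "local field" here is a TYPE `F : Type` with `[Field F] [Algebra ℚ_[q] F] [FiniteDimensional ℚ_[q] F]`.
An extension is `F' : Type` with `[Field F'] [Algebra F F'] [Algebra ℚ_[q] F'] [IsScalarTower ℚ_[q] F F']`
(so that `F'` is again a local field; `FiniteDimensional ℚ_[q] F'` follows from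
`[FiniteDimensional F F']`).
-/
import Mathlib

set_option autoImplicit false

namespace Fermat.Agent.PT.L

open CategoryTheory groupCohomology

/-! ## The unnormalised valuation -/

/-- The UNNORMALISED valuation `w(x) = v_q(N_{F/ℚ_q} x)` of a local field (`w 0 = 0`).
It is `f_F` times the normalised valuation; `N_{F'/F}` preserves it (`w_F (N y) = w_{F'} y`) and
on `F ⊂ F'` it is multiplied by `[F' : F]`. -/
noncomputable def wv (q : ℕ) [Fact q.Prime] {F : Type} [Field F] [Algebra ℚ_[q] F] (x : F) : ℤ :=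
  Padic.valuation (Algebra.norm ℚ_[q] x)

/-- `x` is a unit of the valuation ring. -/
def IsU (q : ℕ) [Fact q.Prime] {F : Type} [Field F] [Algebra ℚ_[q] F] (x : F) : Prop :=
  x ≠ 0 ∧ wv q x = 0

/-- `x` lies in the valuation ring. -/
def IsInt (q : ℕ) [Fact q.Prime] {F : Type} [Field F] [Algebra ℚ_[q] F] (x : F) : Prop :=
  x = 0 ∨ 0 ≤ wv q x

/-- `x ≡ y` modulo `{w ≥ k}`. -/
def Close (q : ℕ) [Fact q.Prime] {F : Type} [Field F] [Algebra ℚ_[q] F] (k : ℤ) (x y : F) :
    Prop :=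
  x = y ∨ k ≤ wv q (x - y)

/-- The subgroup of norms `N_{F'/F}(F'ˣ) ≤ Fˣ`. -/
noncomputable def normSubgroup (F F' : Type) [Field F] [Field F'] [Algebra F F'] : Subgroup Fˣ :=
  (Units.map (Algebra.norm F : F' →* F)).range

/-- `F'/F` is unramified: every value of `w` on `F'` is taken on `F`. -/
def IsUnram (q : ℕ) [Fact q.Prime] (F F' : Type) [Field F] [Field F'] [Algebra F F']
    [Algebra ℚ_[q] F'] : Prop :=
  ∀ y : F', y ≠ 0 → ∃ x : F, x ≠ 0 ∧ wv q (algebraMap F F' x) = wv q y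

/-! ## L0: foundations (the elementary API of a local field) -/

/-- L0-add: `w` is ultrametric. -/
def StmtWAdd : Prop :=
  ∀ (q : ℕ) [Fact q.Prime] (F : Type) [Field F] [Algebra ℚ_[q] F] [FiniteDimensional ℚ_[q] F]
    (x y : F), x ≠ 0 → y ≠ 0 → x + y ≠ 0 → min (wv q x) (wv q y) ≤ wv q (x + y)

/-- L0-int: the valuation ring is the integral closure of `ℤ_q`. -/
def StmtWInt : Prop :=
  ∀ (q : ℕ) [Fact q.Prime] (F : Type) [Field F] [Algebra ℚ_[q] F] [FiniteDimensional ℚ_[q] F]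
    (x : F), IsInt q x ↔
      ((algebraMap ℚ_[q] F).comp (PadicInt.Coe.ringHom (p := q))).IsIntegralElem x

/-- L0-unif: a uniformiser exists. -/
def StmtWUnif : Prop :=
  ∀ (q : ℕ) [Fact q.Prime] (F : Type) [Field F] [Algebra ℚ_[q] F] [FiniteDimensional ℚ_[q] F],
    ∃ π : F, π ≠ 0 ∧ 0 < wv q π ∧ ∀ x : F, x ≠ 0 → wv q π ∣ wv q x

/-- L0-complete: sequences with `s (k+1) ≡ s k mod {w ≥ k}` converge. -/
def StmtWComplete : Prop :=
  ∀ (q : ℕ) [Fact q.Prime] (F : Type) [Field F] [Algebra ℚ_[q] F] [FiniteDimensional ℚ_[q] F]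
    (s : ℕ → F), (∀ k : ℕ, Close q (k : ℤ) (s (k + 1)) (s k)) →
      ∃ y : F, ∀ k : ℕ, Close q (k : ℤ) y (s k)

/-- L0-fin: the valuation ring modulo `{w ≥ k}` is finite. -/
def StmtWFinite : Prop :=
  ∀ (q : ℕ) [Fact q.Prime] (F : Type) [Field F] [Algebra ℚ_[q] F] [FiniteDimensional ℚ_[q] F]
    (k : ℕ), ∃ R : Finset F, ∀ x : F, IsInt q x → ∃ r ∈ R, Close q (k : ℤ) x r

/-! ## L-HQ: Herbrand's lemma (abstract; a cyclic group `⟨σ⟩`, `σ ^ n = 1`, on abelian groups) -/

section HQ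

variable {M : Type*} [AddCommGroup M]

/-- `∑_{i<n} σ^i`. -/
def hqNorm (σ : AddMonoid.End M) (n : ℕ) : M →+ M :=
  (∑ i ∈ Finset.range n, σ ^ i : AddMonoid.End M)

/-- `σ - 1`. -/
def hqDelta (σ : AddMonoid.End M) : M →+ M := (σ - 1 : AddMonoid.End M)

/-- `|Ĥ⁰| = [ker (σ - 1) : im N]` (`0` if infinite). -/
noncomputable def hq0 (σ : AddMonoid.End M) (n : ℕ) : ℕ :=
  (hqNorm σ n).range.relIndex (hqDelta σ).ker

/-- `|H¹| = [ker N : im (σ - 1)]` (`0` if infinite). -/
noncomputable def hq1 (σ : AddMonoid.End M) (n : ℕ) : ℕ :=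
  (hqDelta σ).range.relIndex (hqNorm σ n).ker

end HQ

/-- L-HQ: Herbrand's lemma for a short exact sequence `0 → A → M → C → 0` of `⟨σ⟩`-modules:
if the indices of `A` and `C` are finite, so are those of `M`, and
`h⁰(M) h¹(A) h¹(C) = h¹(M) h⁰(A) h⁰(C)`. -/
def StmtHerbrand : Prop :=
  ∀ (A M C : Type) [AddCommGroup A] [AddCommGroup M] [AddCommGroup C]
    (σA : AddMonoid.End A) (σM : AddMonoid.End M) (σC : AddMonoid.End C) (n : ℕ) (i : A →+ M) (π : M →+ C),
    0 < n → σA ^ n = 1 → σM ^ n = 1 → σC ^ n = 1 →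
    Function.Injective i → Function.Surjective π → i.range = π.ker →
    (∀ a, i (σA a) = σM (i a)) → (∀ m, π (σM m) = σC (π m)) →
    hq0 σA n ≠ 0 → hq1 σA n ≠ 0 → hq0 σC n ≠ 0 → hq1 σC n ≠ 0 →
      hq0 σM n ≠ 0 ∧ hq1 σM n ≠ 0 ∧
      hq0 σM n * hq1 σA n * hq1 σC n = hq1 σM n * hq0 σA n * hq0 σC n

/-- L-HQ-fin: a finite module has Herbrand quotient `1`. -/
def StmtHerbrandFinite : Prop :=
  ∀ (M : Type) [AddCommGroup M] [Finite M] (σ : AddMonoid.End M) (n : ℕ), 0 < n → σ ^ n = 1 →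
    hq0 σ n ≠ 0 ∧ hq0 σ n = hq1 σ n

/-! ## L1: the units of a cyclic extension have an open cohomologically trivial subgroup -/

/-- L1: for `F'/F` cyclic with generator `σ` there is a `σ`-stable subgroup `V` of finite index in
the unit group of `F'` such that every `σ`-fixed element of `V` is the norm of an element of `V`
and every element of `V` of norm `1` is `σ y / y` with `y ∈ V`. -/
def StmtUnitsTrivial : Prop :=
  ∀ (q : ℕ) [Fact q.Prime] (F F' : Type) [Field F] [Field F'] [Algebra ℚ_[q] F]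
    [FiniteDimensional ℚ_[q] F] [Algebra F F'] [Algebra ℚ_[q] F'] [IsScalarTower ℚ_[q] F F']
    [FiniteDimensional F F'] [IsGalois F F'] (σ : F' ≃ₐ[F] F'),
    (∀ τ : F' ≃ₐ[F] F', τ ∈ Subgroup.zpowers σ) →
    ∃ V : Subgroup F'ˣ,
      (∀ u ∈ V, wv q (u : F') = 0) ∧
      (∀ u ∈ V, Units.map (σ : F' →* F') u ∈ V) ∧
      (∃ R : Finset F'ˣ, ∀ u : F'ˣ, wv q (u : F') = 0 → ∃ r ∈ R, u / r ∈ V) ∧
      (∀ u ∈ V, σ (u : F') = u →
        ∃ y ∈ V, algebraMap F F' (Algebra.norm F (y : F')) = u) ∧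
      (∀ u ∈ V, Algebra.norm F (u : F') = 1 → ∃ y ∈ V, (u : F') = σ (y : F') / y)

/-! ## L2, L3: norm index of a cyclic extension, unramified extensions -/

/-- L2 = (Lc), first half: `[Fˣ : N F'ˣ] = [F' : F]` for a cyclic extension of local fields. -/
def StmtNormIndex : Prop :=
  ∀ (q : ℕ) [Fact q.Prime] (F F' : Type) [Field F] [Field F'] [Algebra ℚ_[q] F]
    [FiniteDimensional ℚ_[q] F] [Algebra F F'] [FiniteDimensional F F'] [IsGalois F F'],
    IsCyclic (F' ≃ₐ[F] F') → (normSubgroup F F').index = Module.finrank F F'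

/-- L3-ex: the unramified extension of every degree `m ≥ 1` exists and is cyclic. -/
def StmtUnramExists : Prop :=
  ∀ (q : ℕ) [Fact q.Prime] (F : Type) [Field F] [Algebra ℚ_[q] F] [FiniteDimensional ℚ_[q] F]
    (m : ℕ), 0 < m →
    ∃ (E : Type) (_ : Field E) (_ : Algebra F E) (_ : Algebra ℚ_[q] E)
      (_ : IsScalarTower ℚ_[q] F E), FiniteDimensional F E ∧ IsGalois F E ∧
        Module.finrank F E = m ∧ IsCyclic (E ≃ₐ[F] E) ∧ IsUnram q F E

/-- L3-norm = (Lc), second half: in a cyclic unramified extension every unit is the norm of a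
unit. -/
def StmtUnitNorm : Prop :=
  ∀ (q : ℕ) [Fact q.Prime] (F F' : Type) [Field F] [Field F'] [Algebra ℚ_[q] F]
    [FiniteDimensional ℚ_[q] F] [Algebra F F'] [Algebra ℚ_[q] F'] [IsScalarTower ℚ_[q] F F']
    [FiniteDimensional F F'] [IsGalois F F'],
    IsCyclic (F' ≃ₐ[F] F') → IsUnram q F F' →
      ∀ u : F, IsU q u → ∃ y : F', IsU q y ∧ Algebra.norm F y = u

/-! ## L4–L6: `H²(F'/F, F'ˣ)` -/

/-- Inflation `H²(F'/F) → H²(F''/F)` for a tower `F ⊂ F' ⊂ F''` with `F'/F` normal. -/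
noncomputable def infl (F F' F'' : Type) [Field F] [Field F'] [Field F''] [Algebra F F']
    [Algebra F F''] [Algebra F' F''] [IsScalarTower F F' F''] [Normal F F'] :
    H2 (Rep.ofAlgebraAutOnUnits F F') ⟶ H2 (Rep.ofAlgebraAutOnUnits F F'') :=
  groupCohomology.map (AlgEquiv.restrictNormalHom (F := F) (K₁ := F'') F')
    (Rep.ofHom
      { toLinearMap := (Units.map (algebraMap F' F'' : F' →* F'')).toAdditive.toIntLinearMap
        isIntertwining' := fun g => by
          ext x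
          show algebraMap F' F'' ((AlgEquiv.restrictNormalHom F' g) ((Additive.toMul x : F'ˣ) : F')) =
            g (algebraMap F' F'' ((Additive.toMul x : F'ˣ) : F'))
          exact AlgEquiv.restrictNormal_commutes g F' _ }) 2

/-- Restriction `H²(F''/F) → H²(F''/F')` for a tower `F ⊂ F' ⊂ F''`. -/
noncomputable def resF (F F' F'' : Type) [Field F] [Field F'] [Field F''] [Algebra F F']
    [Algebra F F''] [Algebra F' F''] [IsScalarTower F F' F''] :
    H2 (Rep.ofAlgebraAutOnUnits F F'') ⟶ H2 (Rep.ofAlgebraAutOnUnits F' F'') :=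
  groupCohomology.map (AlgEquiv.restrictScalarsHom F : (F'' ≃ₐ[F'] F'') →* (F'' ≃ₐ[F] F''))
    (Rep.ofHom
      { toLinearMap := LinearMap.id
        isIntertwining' := fun _ => rfl }) 2

/-- L4b: inflation–restriction for fields: a class of `H²(F''/F)` that dies in `H²(F''/F')`
is inflated from `H²(F'/F)`. -/
def StmtInfResField : Prop :=
  ∀ (F F' F'' : Type) [Field F] [Field F'] [Field F''] [Algebra F F'] [Algebra F F'']
    [Algebra F' F''] [IsScalarTower F F' F''] [FiniteDimensional F F''] [IsGalois F F']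
    [IsGalois F F''] (x : H2 (Rep.ofAlgebraAutOnUnits F F'')),
    (resF F F' F'').hom x = 0 → ∃ y, (infl F F' F'').hom y = x

/-- (U): let `En/F` be cyclic unramified of degree `[F' : F]`, `F'/F` Galois and `E = F' En`.
Then every element of `F` is a norm from `E` to `F'` (`E/F'` is unramified of degree
`e(F'/F)`). -/
def StmtCompositumNorm : Prop :=
  ∀ (q : ℕ) [Fact q.Prime] (F F' En E : Type) [Field F] [Field F'] [Field En] [Field E]
    [Algebra ℚ_[q] F] [FiniteDimensional ℚ_[q] F] [Algebra F F'] [Algebra F En] [Algebra F E]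
    [Algebra F' E] [Algebra En E] [IsScalarTower F F' E] [IsScalarTower F En E]
    [Algebra ℚ_[q] En] [IsScalarTower ℚ_[q] F En] [FiniteDimensional F F']
    [FiniteDimensional F En] [FiniteDimensional F E] [IsGalois F F'] [IsGalois F En],
    IsCyclic (En ≃ₐ[F] En) → IsUnram q F En → Module.finrank F En = Module.finrank F F' →
    (IsScalarTower.toAlgHom F F' E).fieldRange ⊔ (IsScalarTower.toAlgHom F En E).fieldRange = ⊤ →
    ∀ x : F, ∃ y : E, Algebra.norm F' y = algebraMap F F' x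

/-- L5: the upper bound `|H²(F'/F, F'ˣ)| ≤ [F' : F]` for `p`-extensions. -/
def StmtH2Le : Prop :=
  ∀ (q : ℕ) [Fact q.Prime] (p : ℕ) [Fact p.Prime] (k : ℕ) (F F' : Type) [Field F] [Field F']
    [Algebra ℚ_[q] F] [FiniteDimensional ℚ_[q] F] [Algebra F F'] [FiniteDimensional F F']
    [IsGalois F F'], Module.finrank F F' = p ^ k →
      Finite (H2 (Rep.ofAlgebraAutOnUnits F F')) ∧
      Nat.card (H2 (Rep.ofAlgebraAutOnUnits F F')) ≤ p ^ k

/-- (Ld): inflation is injective (Hilbert 90 + inflation–restriction). -/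
def StmtLd : Prop :=
  ∀ (F F' F'' : Type) [Field F] [Field F'] [Field F''] [Algebra F F'] [Algebra F F'']
    [Algebra F' F''] [IsScalarTower F F' F''] [FiniteDimensional F F''] [IsGalois F F']
    [IsGalois F F''], Function.Injective (infl F F' F'').hom

/-- **(La)**: for a Galois extension `F'/F` of local fields of degree `p ^ k`, the group
`H²(Gal(F'/F), F'ˣ)` is cyclic of order `[F' : F]`. -/
def StmtLa : Prop :=
  ∀ (q : ℕ) [Fact q.Prime] (p : ℕ) [Fact p.Prime] (k : ℕ) (F F' : Type) [Field F] [Field F']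
    [Algebra ℚ_[q] F] [FiniteDimensional ℚ_[q] F] [Algebra F F'] [FiniteDimensional F F']
    [IsGalois F F'], Module.finrank F F' = p ^ k →
      IsAddCyclic (H2 (Rep.ofAlgebraAutOnUnits F F')) ∧
      Nat.card (H2 (Rep.ofAlgebraAutOnUnits F F')) = Module.finrank F F'

/-! ## L7, L8: existence mod `p` -/

/-- L7-fin: `Fˣ / Fˣᵖ` is finite. -/
def StmtPowFinite : Prop :=
  ∀ (q : ℕ) [Fact q.Prime] (p : ℕ) [Fact p.Prime] (F : Type) [Field F] [Algebra ℚ_[q] F]
    [FiniteDimensional ℚ_[q] F], (powMonoidHom p : Fˣ →* Fˣ).range.FiniteIndex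

/-- L7-kum: if `μ_p ⊂ F`, the maximal abelian extension of exponent `p` is finite of degree
`[Fˣ : Fˣᵖ]`, abelian of exponent `p`. -/
def StmtKummerMax : Prop :=
  ∀ (q : ℕ) [Fact q.Prime] (p : ℕ) [Fact p.Prime] (F : Type) [Field F] [Algebra ℚ_[q] F]
    [FiniteDimensional ℚ_[q] F] (ζ : F), IsPrimitiveRoot ζ p →
    ∃ (E : Type) (_ : Field E) (_ : Algebra F E), FiniteDimensional F E ∧ IsGalois F E ∧
      Module.finrank F E = (powMonoidHom p : Fˣ →* Fˣ).range.index ∧
      (∀ g h : E ≃ₐ[F] E, g * h = h * g) ∧ (∀ g : E ≃ₐ[F] E, g ^ p = 1)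

/-- **(Lb)**: local existence mod `p`: if `μ_p ⊂ F` there is a finite Galois `F'/F` all of whose
norms are `p`-th powers. -/
def StmtLb : Prop :=
  ∀ (q : ℕ) [Fact q.Prime] (p : ℕ) [Fact p.Prime] (F : Type) [Field F] [Algebra ℚ_[q] F]
    [FiniteDimensional ℚ_[q] F] (ζ : F), IsPrimitiveRoot ζ p →
    ∃ (E : Type) (_ : Field E) (_ : Algebra F E), FiniteDimensional F E ∧ IsGalois F E ∧
      ∀ y : E, ∃ x : F, Algebra.norm F y = x ^ p

end Fermat.Agent.PT.L
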