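/-
PT-L (local class field theory) — INTERFACE FILE, part 2 (definitions and statements only).
Additions requested after `Plan.lean` was landed. Plan: NOTES/PT-L-plan.md (sub-captain helper57).
-/
import Fermat.Agent.PT.L.Plan
import Fermat.Agent.PT.A.Plan2

set_option autoImplicit false

namespace Fermat.Agent.PT.L

open CategoryTheory groupCohomology

/-- L7c (requested by PT-X, helper69): the count `[Fˣ : Fˣᵖ] ≤ p ^ (2 + [F : ℚ_q]·[q = p])` when
`μ_p ⊂ F` (equality holds). -/
def StmtPowCard : Prop :=
  ∀ (q p : ℕ) [Fact q.Prime] [Fact p.Prime] (F : Type) [Field F] [Algebra ℚ_[q] F]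
    [FiniteDimensional ℚ_[q] F] (ζ : F), IsPrimitiveRoot ζ p →
    (powMonoidHom p : Fˣ →* Fˣ).range.index ≤
      p ^ (2 + if q = p then Module.finrank ℚ_[q] F else 0)

/-- L6a: for EVERY finite Galois extension `F'/F` of local fields (any degree `n`) the group
`H²(Gal(F'/F), F'ˣ)` contains a class of order exactly `n` (the unramified class). -/
def StmtLaGen : Prop :=
  ∀ (q : ℕ) [Fact q.Prime] (F F' : Type) [Field F] [Field F'] [Algebra ℚ_[q] F]
    [FiniteDimensional ℚ_[q] F] [Algebra F F'] [FiniteDimensional F F'] [IsGalois F F'],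
    ∃ κ : H2 (Rep.ofAlgebraAutOnUnits F F'), addOrderOf κ = Module.finrank F F'

/-- L9 = (CM-loc), type-level form: for every finite Galois extension `F'/F` of local fields and
every prime `p`, `F'ˣ` has a `p`-fundamental class. -/
def StmtFundClass : Prop :=
  ∀ (q : ℕ) [Fact q.Prime] (p : ℕ) [Fact p.Prime] (F F' : Type) [Field F] [Field F']
    [Algebra ℚ_[q] F] [FiniteDimensional ℚ_[q] F] [Algebra F F'] [FiniteDimensional F F']
    [IsGalois F F'],
    ∃ u : H2 (Rep.ofAlgebraAutOnUnits F F'),
      Fermat.Agent.PT.IsPFundClass p (Rep.ofAlgebraAutOnUnits F F') u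

end Fermat.Agent.PT.L
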