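import Fermat.Agent.PT.L.Plan
import Fermat.Agent.PT.G1.Hexagon
import Fermat.Agent.PT.G1.Finite

/-!
# PT-L, piece LHQ: Herbrand's lemma in the form of `PT/L/Plan.lean`, from PT-G1's hexagon

`stmtHerbrand : StmtHerbrand` and `stmtHerbrandFinite : StmtHerbrandFinite`.
-/

set_option autoImplicit false

namespace Fermat.Agent.PT.L

open Fermat.Agent.PT.G1

section

variable {M : Type} [AddCommGroup M]

/-- `σ - 1` as a `ℤ`-linear map. -/
def lhqD (σ : AddMonoid.End M) : Module.End ℤ M := (hqDelta σ).toIntLinearMap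

/-- `∑ σ^i` as a `ℤ`-linear map. -/
def lhqN (σ : AddMonoid.End M) (n : ℕ) : Module.End ℤ M := (hqNorm σ n).toIntLinearMap

lemma lhq_hq0 (σ : AddMonoid.End M) (n : ℕ) : hq0 σ n = hqCard (lhqD σ) (lhqN σ n) := rfl

lemma lhq_hq1 (σ : AddMonoid.End M) (n : ℕ) : hq1 σ n = hqCard (lhqN σ n) (lhqD σ) := rfl

lemma lhq_mul_comm (σ : AddMonoid.End M) (k : ℕ) : σ * σ ^ k = σ ^ k * σ :=
  (Commute.self_pow σ k).eq

lemma lhq_delta_norm (σ : AddMonoid.End M) (n : ℕ) :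
    ((σ - 1) * ∑ i ∈ Finset.range n, σ ^ i : AddMonoid.End M) = σ ^ n - 1 := by
  have := (Commute.one_right σ).mul_geom_sum₂ n
  simpa using this

lemma lhq_norm_delta (σ : AddMonoid.End M) (n : ℕ) :
    ((∑ i ∈ Finset.range n, σ ^ i) * (σ - 1) : AddMonoid.End M) = σ ^ n - 1 := by
  have := (Commute.one_right σ).geom_sum₂_mul n
  simpa using this

lemma lhq_DN (σ : AddMonoid.End M) (n : ℕ) (h : σ ^ n = 1) : lhqD σ * lhqN σ n = 0 := by
  apply LinearMap.ext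
  intro x
  have := congrArg (fun f : AddMonoid.End M => f x) (lhq_delta_norm σ n)
  rw [h, sub_self] at this
  exact this

lemma lhq_ND (σ : AddMonoid.End M) (n : ℕ) (h : σ ^ n = 1) : lhqN σ n * lhqD σ = 0 := by
  apply LinearMap.ext
  intro x
  have := congrArg (fun f : AddMonoid.End M => f x) (lhq_norm_delta σ n)
  rw [h, sub_self] at this
  exact this

end

section Comm

variable {A B : Type} [AddCommGroup A] [AddCommGroup B]

lemma lhq_pow_comm (σA : AddMonoid.End A) (σB : AddMonoid.End B) (f : A →+ B)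
    (hf : ∀ a, f (σA a) = σB (f a)) (k : ℕ) (a : A) : f ((σA ^ k) a) = (σB ^ k) (f a) := by
  induction k generalizing a with
  | zero => rfl
  | succ k ih =>
    rw [pow_succ, pow_succ]
    show f ((σA ^ k) (σA a)) = (σB ^ k) (σB (f a))
    rw [ih, hf]

lemma lhq_hqNorm_apply (σ : AddMonoid.End A) (n : ℕ) (x : A) :
    hqNorm σ n x = ∑ i ∈ Finset.range n, (σ ^ i) x := by
  unfold hqNorm
  induction n with
  | zero =>
    simp only [Finset.range_zero, Finset.sum_empty]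
    rfl
  | succ k ih =>
    rw [Finset.sum_range_succ, Finset.sum_range_succ, ← ih]
    rfl

lemma lhq_comm_D (σA : AddMonoid.End A) (σB : AddMonoid.End B) (f : A →+ B)
    (hf : ∀ a, f (σA a) = σB (f a)) :
    f.toIntLinearMap ∘ₗ lhqD σA = lhqD σB ∘ₗ f.toIntLinearMap := by
  apply LinearMap.ext
  intro a
  show f (σA a - a) = σB (f a) - f a
  rw [map_sub, hf]

lemma lhq_comm_N (σA : AddMonoid.End A) (σB : AddMonoid.End B) (f : A →+ B)
    (hf : ∀ a, f (σA a) = σB (f a)) (n : ℕ) :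
    f.toIntLinearMap ∘ₗ lhqN σA n = lhqN σB n ∘ₗ f.toIntLinearMap := by
  apply LinearMap.ext
  intro a
  show f (hqNorm σA n a) = hqNorm σB n (f a)
  rw [lhq_hqNorm_apply, lhq_hqNorm_apply, map_sum]
  exact Finset.sum_congr rfl fun i _ => lhq_pow_comm σA σB f hf i a

end Comm

/-- **LHQ**: Herbrand's lemma. -/
theorem stmtHerbrand : StmtHerbrand := by
  intro A M C _ _ _ σA σM σC n i π hn hσA hσM hσC hi hπ hrange hiσ hπσ h0A h1A h0C h1C
  have hex := stmtHexagon A M C (lhqD σA) (lhqN σA n) (lhqD σM) (lhqN σM n) (lhqD σC) (lhqN σC n)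
    i.toIntLinearMap π.toIntLinearMap (lhq_DN σA n hσA) (lhq_ND σA n hσA) (lhq_DN σM n hσM)
    (lhq_ND σM n hσM) (lhq_DN σC n hσC) (lhq_ND σC n hσC) hi hπ
    (by
      ext x
      constructor
      · rintro ⟨y, rfl⟩
        have : i y ∈ π.ker := hrange ▸ (⟨y, rfl⟩ : i y ∈ i.range)
        exact this
      · intro hx
        have : x ∈ i.range := hrange.symm ▸ (hx : x ∈ π.ker)
        obtain ⟨y, hy⟩ := this
        exact ⟨y, hy⟩)
    (lhq_comm_D σA σM i hiσ) (lhq_comm_N σA σM i hiσ n) (lhq_comm_D σM σC π hπσ)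
    (lhq_comm_N σM σC π hπσ n)
    ((hq0 σA n : ℚ) / hq1 σA n) 0 ((hq0 σC n : ℚ) / hq1 σC n)
  have h1A' : (hq1 σA n : ℚ) ≠ 0 := by exact_mod_cast h1A
  have h1C' : (hq1 σC n : ℚ) ≠ 0 := by exact_mod_cast h1C
  have hA : HasHQ (lhqD σA) (lhqN σA n) ((hq0 σA n : ℚ) / hq1 σA n) := by
    refine ⟨h0A, h1A, ?_⟩
    show (hq0 σA n : ℚ) = (hq0 σA n : ℚ) / hq1 σA n * hq1 σA n
    field_simp
  have hC : HasHQ (lhqD σC) (lhqN σC n) ((hq0 σC n : ℚ) / hq1 σC n) := by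
    refine ⟨h0C, h1C, ?_⟩
    show (hq0 σC n : ℚ) = (hq0 σC n : ℚ) / hq1 σC n * hq1 σC n
    field_simp
  obtain ⟨hM0, hM1, hMeq⟩ := hex.1 hA hC
  refine ⟨hM0, hM1, ?_⟩
  have hMeq' : (hq0 σM n : ℚ) =
      (hq0 σA n : ℚ) / hq1 σA n * ((hq0 σC n : ℚ) / hq1 σC n) * hq1 σM n := hMeq
  have : ((hq0 σM n * hq1 σA n * hq1 σC n : ℕ) : ℚ) = ((hq1 σM n * hq0 σA n * hq0 σC n : ℕ) : ℚ) := by
    push_cast
    rw [hMeq']
    field_simp
  exact_mod_cast this

/-- **LHQ-fin**: a finite module has Herbrand quotient `1`. -/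
theorem stmtHerbrandFinite : StmtHerbrandFinite := by
  intro M _ _ σ n _ hσ
  obtain ⟨h0, _, heq⟩ := stmtFinite M (lhqD σ) (lhqN σ n) (lhq_DN σ n hσ) (lhq_ND σ n hσ)
  refine ⟨h0, ?_⟩
  have heq' : (hq0 σ n : ℚ) = 1 * (hq1 σ n : ℚ) := heq
  rw [one_mul] at heq'
  exact_mod_cast heq'

end Fermat.Agent.PT.L
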