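import Fermat.Agent.PT.L.NormIndex
import Fermat.Agent.PT.L.HerbrandOfG1

/-!
# PT-L, piece L2 (final form): `StmtUnitsTrivial → StmtNormIndex`
-/

set_option autoImplicit false

namespace Fermat.Agent.PT.L

/-- **L2**: the norm index of a cyclic extension of local fields is its degree
(Herbrand's lemma is supplied by PT-G1's hexagon). -/
theorem stmtNormIndex_of_units (hU : StmtUnitsTrivial) : StmtNormIndex :=
  stmtNormIndex hU stmtHerbrand stmtHerbrandFinite

end Fermat.Agent.PT.L
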