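import Fermat.Agent.PT.L.NormIndex

/-!
# PT-L, piece L3b: in a cyclic unramified extension every unit is the norm of a unit
(`StmtUnitNorm`), from the norm index (`StmtNormIndex`).
-/

set_option autoImplicit false
set_option linter.unusedSectionVars false
set_option linter.style.haveILetI false

namespace Fermat.Agent.PT.L

open Additive

section

variable (q : ℕ) [Fact q.Prime] {F F' : Type} [Field F] [Field F'] [Algebra ℚ_[q] F]
  [FiniteDimensional ℚ_[q] F] [Algebra F F'] [Algebra ℚ_[q] F'] [IsScalarTower ℚ_[q] F F']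
  [FiniteDimensional F F']

lemma l3b_wv_norm (y : F') : wv q (Algebra.norm F y) = wv q y := by
  unfold wv
  rw [Algebra.norm_norm]

lemma l3b_wv_algebraMap (x : F) :
    wv q (algebraMap F F' x) = Module.finrank F F' * wv q x := by
  rw [← l3b_wv_norm q (F := F), Algebra.norm_algebraMap, l0b_wv_pow]

end

/-- **L3b**. -/
theorem stmtUnitNorm (hN : StmtNormIndex) : StmtUnitNorm := by
  intro q _ F F' _ _ _ _ _ _ _ _ _ hcyc hunr u hu
  classical
  have hfd : FiniteDimensional ℚ_[q] F' := FiniteDimensional.trans ℚ_[q] F F'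
  obtain ⟨π, hπ0, hπpos, hπdvd⟩ := stmtWUnif q F
  have hn : 0 < Module.finrank F F' := Module.finrank_pos
  have hidx : (normSubgroup F F').index = Module.finrank F F' := hN q F F' hcyc
  -- the subgroup `H = {x : n ∣ ord x}`
  let ordF : Additive Fˣ →+ ℤ := l2Ord q (wv q π) hπdvd
  have hordsurj : Function.Surjective ordF := l2Ord_surjective q _ hπdvd hπpos π hπ0 rfl
  let H : AddSubgroup (Additive Fˣ) :=
    (AddSubgroup.zmultiples ((Module.finrank F F' : ℕ) : ℤ)).comap ordF
  have hHidx : H.index = Module.finrank F F' := by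
    show ((AddSubgroup.zmultiples ((Module.finrank F F' : ℕ) : ℤ)).comap ordF).index = _
    rw [AddSubgroup.index_comap_of_surjective _ hordsurj, Int.index_zmultiples]
    simp
  have hle : Subgroup.toAddSubgroup (normSubgroup F F') ≤ H := by
    intro x hx
    obtain ⟨y, hy⟩ := hx
    show ordF x ∈ AddSubgroup.zmultiples ((Module.finrank F F' : ℕ) : ℤ)
    rw [AddSubgroup.mem_zmultiples_iff]
    -- wv x = wv y = n * wv x₀
    have hxy : ((x.toMul : Fˣ) : F) = Algebra.norm F (y : F') := by
      rw [← hy]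
      rfl
    obtain ⟨x₀, hx₀, hx₀y⟩ := hunr (y : F') y.ne_zero
    have hwv : wv q ((x.toMul : Fˣ) : F) = Module.finrank F F' * wv q x₀ := by
      rw [hxy, l3b_wv_norm, ← hx₀y, l3b_wv_algebraMap]
    obtain ⟨c, hc⟩ := hπdvd x₀ hx₀
    refine ⟨c, ?_⟩
    show c • ((Module.finrank F F' : ℕ) : ℤ) = wv q ((x.toMul : Fˣ) : F) / wv q π
    rw [hwv, hc, smul_eq_mul]
    rw [show ((Module.finrank F F' : ℕ) : ℤ) * (wv q π * c) = wv q π * (c * Module.finrank F F')
      by ring, Int.mul_ediv_cancel_left _ hπpos.ne']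
  have hrel : (Subgroup.toAddSubgroup (normSubgroup F F')).relIndex H = 1 := by
    have h1 := AddSubgroup.relIndex_mul_index hle
    rw [hHidx] at h1
    have h2 : (Subgroup.toAddSubgroup (normSubgroup F F')).index = Module.finrank F F' := hidx
    rw [h2] at h1
    exact Nat.eq_of_mul_eq_mul_right hn (by rw [h1, one_mul])
  have hHle : H ≤ Subgroup.toAddSubgroup (normSubgroup F F') :=
    AddSubgroup.relIndex_eq_one.mp hrel
  -- `u` lies in `H`
  obtain ⟨hu0, huwv⟩ := hu
  have huH : ofMul (Units.mk0 u hu0) ∈ H := by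
    show ordF (ofMul (Units.mk0 u hu0)) ∈ AddSubgroup.zmultiples ((Module.finrank F F' : ℕ) : ℤ)
    have : ordF (ofMul (Units.mk0 u hu0)) = 0 :=
      (l2Ord_eq_zero_iff q _ hπdvd hπpos _).mpr huwv
    rw [this]
    exact AddSubgroup.zero_mem _
  obtain ⟨y, hy⟩ := hHle huH
  have hyu : Algebra.norm F (y : F') = u := by
    have := congrArg (fun z : Fˣ => (z : F)) hy
    exact this
  refine ⟨(y : F'), ⟨y.ne_zero, ?_⟩, hyu⟩
  rw [← l3b_wv_norm q (F := F), hyu, huwv]

end Fermat.Agent.PT.L
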