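/-
PT-L (local class field theory) — INTERFACE FILE, part 3: the sub-pieces of L1
(`StmtUnitsTrivial`). Definitions and statements only. Plan: NOTES/PT-L-plan.md (helper57).

L1a `StmtCohTrivial`   : abstract successive approximation (no valuations).
L1b `StmtLattice`      : coordinates of integral elements have bounded denominators.
L1c `StmtNormalLattice`: the filtration `1 + q^j Λ`, `Λ` = `𝓞_F`-span of a normal basis.
L1d wiring             : `StmtCohTrivial → StmtNormalLattice → StmtWFinite → StmtUnitsTrivial`.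
-/
import Fermat.Agent.PT.L.Plan

set_option autoImplicit false

namespace Fermat.Agent.PT.L

/-- A complete, separated, multiplicative filtration `Λ 0 ⊇ Λ 1 ⊇ …` of a field `K` by additive
subgroups, stable under the automorphism `σ`, such that every graded piece `Λ j / Λ (j+1)` is
cohomologically trivial for `⟨σ⟩` (`n` = order of `σ`): `h0` says "fixed ⇒ trace", `h1` says
"trace zero ⇒ `(σ - 1)`-image", both modulo the next step. -/
structure CohFiltration (K : Type) [Field K] (σ : K ≃+* K) (n : ℕ) where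
  /-- the filtration -/
  Λ : ℕ → AddSubgroup K
  anti : ∀ j, Λ (j + 1) ≤ Λ j
  stable : ∀ j x, x ∈ Λ j → σ x ∈ Λ j
  mul : ∀ i j x y, x ∈ Λ i → y ∈ Λ j → x * y ∈ Λ (i + j)
  sep : ∀ x, (∀ j, x ∈ Λ j) → x = 0
  complete : ∀ s : ℕ → K, (∀ k, s (k + 1) - s k ∈ Λ (k + 1)) → ∃ y, ∀ k, y - s k ∈ Λ (k + 1)
  h0 : ∀ j x, x ∈ Λ j → σ x - x ∈ Λ (j + 1) →
    ∃ z ∈ Λ j, x - ∑ i ∈ Finset.range n, (⇑σ)^[i] z ∈ Λ (j + 1)
  h1 : ∀ j x, x ∈ Λ j → ∑ i ∈ Finset.range n, (⇑σ)^[i] x ∈ Λ (j + 1) →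
    ∃ z ∈ Λ j, x - (σ z - z) ∈ Λ (j + 1)

/-- L1a (abstract): for a `CohFiltration`, `V = 1 + Λ 1` is a group (`u ≠ 0`, `u⁻¹ ∈ V`), every
`σ`-fixed element of `V` is the norm `∏_{i<n} σ^i y` of some `y ∈ V`, and every element of `V` of
norm `1` is `σ y / y` with `y ∈ V`. -/
def StmtCohTrivial : Prop :=
  ∀ (K : Type) [Field K] (σ : K ≃+* K) (n : ℕ) (Φ : CohFiltration K σ n),
    0 < n → (∀ x : K, (⇑σ)^[n] x = x) →
    (∀ u : K, u - 1 ∈ Φ.Λ 1 → u ≠ 0 ∧ u⁻¹ - 1 ∈ Φ.Λ 1) ∧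
    (∀ u : K, u - 1 ∈ Φ.Λ 1 → σ u = u →
      ∃ y : K, y - 1 ∈ Φ.Λ 1 ∧ ∏ i ∈ Finset.range n, (⇑σ)^[i] y = u) ∧
    (∀ u : K, u - 1 ∈ Φ.Λ 1 → ∏ i ∈ Finset.range n, (⇑σ)^[i] u = 1 →
      ∃ y : K, y - 1 ∈ Φ.Λ 1 ∧ u = σ y / y)

/-- L1b: for an `F`-basis `b` of `F'` there is `K` such that `q ^ K` times every coordinate of
every integral element of `F'` is integral (`𝓞_{F'} ⊂ q^{-K} · ⊕ 𝓞_F b_i`). -/
def StmtLattice : Prop :=
  ∀ (q : ℕ) [Fact q.Prime] (F F' : Type) [Field F] [Field F'] [Algebra ℚ_[q] F]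
    [FiniteDimensional ℚ_[q] F] [Algebra F F'] [Algebra ℚ_[q] F'] [IsScalarTower ℚ_[q] F F']
    [FiniteDimensional F F'] (ι : Type) [Fintype ι] (b : Module.Basis ι F F'),
    ∃ K : ℕ, ∀ x : F', IsInt q x →
      ∀ i, IsInt q (algebraMap ℚ_[q] F (q : ℚ_[q]) ^ K * b.repr x i)

/-- L1c: a cyclic extension `F'/F` of local fields with generator `σ` carries a `CohFiltration`
(`Λ j = q^{j+c}·(⊕_τ 𝓞_F τθ)`, `θ` a normal basis generator) which is cofinal with the valuation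
filtration: `Λ 1 ⊂ {w > 0}` and `{w ≥ k} ⊂ Λ 1` for some `k`. -/
def StmtNormalLattice : Prop :=
  ∀ (q : ℕ) [Fact q.Prime] (F F' : Type) [Field F] [Field F'] [Algebra ℚ_[q] F]
    [FiniteDimensional ℚ_[q] F] [Algebra F F'] [Algebra ℚ_[q] F'] [IsScalarTower ℚ_[q] F F']
    [FiniteDimensional F F'] [IsGalois F F'] (σ : F' ≃ₐ[F] F'),
    (∀ τ : F' ≃ₐ[F] F', τ ∈ Subgroup.zpowers σ) →
    ∃ Φ : CohFiltration F' (σ : F' ≃+* F') (Module.finrank F F'),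
      (∀ x ∈ Φ.Λ 1, x = 0 ∨ 0 < wv q x) ∧
      (∃ k : ℕ, ∀ x : F', x ≠ 0 → (k : ℤ) ≤ wv q x → x ∈ Φ.Λ 1)

end Fermat.Agent.PT.L
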