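/-
PT-L piece L1a (helper60): `stmtCohTrivial : StmtCohTrivial`.

Abstract successive approximation for a `CohFiltration`: `V = 1 + Λ 1` is a group, `σ`-fixed
elements of `V` are norms from `V`, elements of `V` of norm one are of the form `σ y / y`.
Plan: NOTES/PT-L-plan.md, § L1a.
-/
import Fermat.Agent.PT.L.Plan3

set_option autoImplicit false

namespace Fermat.Agent.PT.L

section L1a

variable {K : Type} [Field K] {σ : K ≃+* K} {n : ℕ} (Φ : CohFiltration K σ n)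

/-- Recursive construction of a sequence with invariants. -/
theorem l1a_exists_seq {α : Type} (I : ℕ → α → Prop) (R : ℕ → α → α → Prop) (a₀ : α)
    (h₀ : I 0 a₀) (step : ∀ k a, I k a → ∃ b, I (k + 1) b ∧ R k a b) :
    ∃ s : ℕ → α, s 0 = a₀ ∧ (∀ k, I k (s k)) ∧ ∀ k, R k (s k) (s (k + 1)) := by
  classical
  have : Nonempty α := ⟨a₀⟩
  choose! f hf using step
  let s : ℕ → α := fun k => Nat.rec a₀ (fun k a => f k a) k
  have hs : ∀ k, I k (s k) := by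
    intro k
    induction k with
    | zero => exact h₀
    | succ k ih => exact (hf k _ ih).1
  exact ⟨s, rfl, hs, fun k => (hf k _ (hs k)).2⟩

include Φ in
lemma l1a_anti_le {i j : ℕ} (h : i ≤ j) : Φ.Λ j ≤ Φ.Λ i := by
  induction h with
  | refl => exact le_refl _
  | step _ ih => exact (Φ.anti _).trans ih

lemma l1a_mul_mem {i j : ℕ} {x y : K} (hx : x ∈ Φ.Λ i) (hy : y ∈ Φ.Λ j) : x * y ∈ Φ.Λ j :=
  l1a_anti_le Φ (Nat.le_add_left j i) (Φ.mul i j x y hx hy)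

lemma l1a_mul_mem' {i j : ℕ} {x y : K} (hx : x ∈ Φ.Λ i) (hy : y ∈ Φ.Λ j) : x * y ∈ Φ.Λ i :=
  l1a_anti_le Φ (Nat.le_add_right i j) (Φ.mul i j x y hx hy)

/-- `(1 + Λ i) · Λ j ⊆ Λ j`. -/
lemma l1a_unit_mul_mem {i j : ℕ} {u y : K} (hu : u - 1 ∈ Φ.Λ i) (hy : y ∈ Φ.Λ j) :
    u * y ∈ Φ.Λ j := by
  have h : u * y = y + (u - 1) * y := by ring
  rw [h]
  exact (Φ.Λ j).add_mem hy (l1a_mul_mem Φ hu hy)

/-- `1 + Λ j` is closed under multiplication. -/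
lemma l1a_V_mul {j : ℕ} {u v : K} (hu : u - 1 ∈ Φ.Λ j) (hv : v - 1 ∈ Φ.Λ j) :
    u * v - 1 ∈ Φ.Λ j := by
  have h : u * v - 1 = (u - 1) + u * (v - 1) := by ring
  rw [h]
  exact (Φ.Λ j).add_mem hu (l1a_unit_mul_mem Φ hu hv)

lemma l1a_V_one (j : ℕ) : (1 : K) - 1 ∈ Φ.Λ j := by
  rw [sub_self]; exact (Φ.Λ j).zero_mem

lemma l1a_pow_mem {x : K} (hx : x ∈ Φ.Λ 1) (m : ℕ) : x ^ (m + 1) ∈ Φ.Λ (m + 1) := by
  induction m with
  | zero => simpa using hx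
  | succ m ih =>
    rw [pow_succ]
    exact Φ.mul (m + 1) 1 _ _ ih hx

/-- Part 1: elements of `1 + Λ 1` are invertible with inverse in `1 + Λ 1`. -/
theorem l1a_inv {u : K} (hu : u - 1 ∈ Φ.Λ 1) : u ≠ 0 ∧ u⁻¹ - 1 ∈ Φ.Λ 1 := by
  set x : K := u - 1 with hx
  have hnx : -x ∈ Φ.Λ 1 := (Φ.Λ 1).neg_mem hu
  set s : ℕ → K := fun k => ∑ l ∈ Finset.range (k + 1), (-x) ^ l with hs
  have hstep : ∀ k, s (k + 1) - s k ∈ Φ.Λ (k + 1) := by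
    intro k
    have h : s (k + 1) - s k = (-x) ^ (k + 1) := by
      simp only [hs]
      rw [Finset.sum_range_succ _ (k + 1)]
      ring
    rw [h]
    exact l1a_pow_mem Φ hnx k
  obtain ⟨y, hy⟩ := Φ.complete s hstep
  have hgeom : ∀ k, u * s k - 1 = -((-x) ^ (k + 1)) := by
    intro k
    have h := mul_neg_geom_sum (-x) (k + 1)
    -- (1 - (-x)) * ∑ = 1 - (-x)^(k+1)
    have hu' : u = 1 - -x := by rw [hx]; ring
    simp only [hs]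
    rw [hu', h]
    ring
  have hall : ∀ k, u * y - 1 ∈ Φ.Λ (k + 1) := by
    intro k
    have h : u * y - 1 = u * (y - s k) + (u * s k - 1) := by ring
    rw [h, hgeom k]
    exact (Φ.Λ (k + 1)).add_mem (l1a_unit_mul_mem Φ hu (hy k))
      ((Φ.Λ (k + 1)).neg_mem (l1a_pow_mem Φ hnx k))
  have hzero : u * y - 1 = 0 := by
    apply Φ.sep
    intro j
    cases j with
    | zero => exact Φ.anti 0 (hall 0)
    | succ j => exact hall j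
  have huy : u * y = 1 := sub_eq_zero.mp hzero
  have hu0 : u ≠ 0 := by
    intro h0
    rw [h0, zero_mul] at huy
    exact zero_ne_one huy
  refine ⟨hu0, ?_⟩
  have hinv : u⁻¹ = y := by
    rw [← mul_one u⁻¹, ← huy, ← mul_assoc, inv_mul_cancel₀ hu0, one_mul]
  rw [hinv]
  have h0 := hy 0
  have hs0 : s 0 = 1 := by simp [hs]
  rwa [hs0] at h0

lemma l1a_ne_zero {u : K} (hu : u - 1 ∈ Φ.Λ 1) : u ≠ 0 := (l1a_inv Φ hu).1

/-- `1 + Λ j` (`j ≥ 1`) is closed under inversion. -/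
theorem l1a_inv_j {j : ℕ} (hj : 1 ≤ j) {u : K} (hu : u - 1 ∈ Φ.Λ j) : u⁻¹ - 1 ∈ Φ.Λ j := by
  have hu1 : u - 1 ∈ Φ.Λ 1 := l1a_anti_le Φ hj hu
  obtain ⟨hu0, hinv⟩ := l1a_inv Φ hu1
  have h : u⁻¹ - 1 = -(u⁻¹ * (u - 1)) := by
    field_simp
    ring
  rw [h]
  exact (Φ.Λ j).neg_mem (l1a_unit_mul_mem Φ hinv hu)

lemma l1a_V_div {j : ℕ} (hj : 1 ≤ j) {u v : K} (hu : u - 1 ∈ Φ.Λ j) (hv : v - 1 ∈ Φ.Λ j) :
    u * v⁻¹ - 1 ∈ Φ.Λ j :=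
  l1a_V_mul Φ hu (l1a_inv_j Φ hj hv)

lemma l1a_iter_mem {j : ℕ} {x : K} (hx : x ∈ Φ.Λ j) (i : ℕ) : (⇑σ)^[i] x ∈ Φ.Λ j := by
  induction i with
  | zero => simpa using hx
  | succ i ih =>
    rw [Function.iterate_succ_apply']
    exact Φ.stable j _ ih

lemma l1a_iter_V {j : ℕ} {u : K} (hu : u - 1 ∈ Φ.Λ j) (i : ℕ) : (⇑σ)^[i] u - 1 ∈ Φ.Λ j := by
  have h := l1a_iter_mem Φ hu i
  rwa [iterate_map_sub, iterate_map_one] at h

/-- `∏ (1 + x_i) - 1 - ∑ x_i ∈ Λ (j + j)` for `x_i ∈ Λ j`. -/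
lemma l1a_prod_one_add {j : ℕ} (f : ℕ → K) (hf : ∀ i, f i ∈ Φ.Λ j) (m : ℕ) :
    (∏ i ∈ Finset.range m, (1 + f i) - 1 - ∑ i ∈ Finset.range m, f i ∈ Φ.Λ (j + j)) ∧
      (∏ i ∈ Finset.range m, (1 + f i) - 1 ∈ Φ.Λ j) := by
  induction m with
  | zero => simp [(Φ.Λ _).zero_mem]
  | succ m ih =>
    obtain ⟨ih1, ih2⟩ := ih
    have h1 : ∏ i ∈ Finset.range (m + 1), (1 + f i) - 1 - ∑ i ∈ Finset.range (m + 1), f i =
        (∏ i ∈ Finset.range m, (1 + f i) - 1 - ∑ i ∈ Finset.range m, f i) +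
          (∏ i ∈ Finset.range m, (1 + f i) - 1) * f m := by
      rw [Finset.prod_range_succ, Finset.sum_range_succ]
      ring
    have h2 : ∏ i ∈ Finset.range (m + 1), (1 + f i) - 1 =
        (∏ i ∈ Finset.range m, (1 + f i) - 1) + (∏ i ∈ Finset.range m, (1 + f i)) * f m := by
      rw [Finset.prod_range_succ]
      ring
    refine ⟨?_, ?_⟩
    · rw [h1]
      exact (Φ.Λ _).add_mem ih1 (Φ.mul j j _ _ ih2 (hf m))
    · rw [h2]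
      exact (Φ.Λ _).add_mem ih2 (l1a_unit_mul_mem Φ ih2 (hf m))

/-- Part A: `N (1 + z) - 1 - Tr z ∈ Λ (j + 1)` for `z ∈ Λ j`, `j ≥ 1`. -/
lemma l1a_norm_one_add {j : ℕ} (hj : 1 ≤ j) {z : K} (hz : z ∈ Φ.Λ j) :
    ∏ i ∈ Finset.range n, (⇑σ)^[i] (1 + z) - 1 - ∑ i ∈ Finset.range n, (⇑σ)^[i] z ∈
      Φ.Λ (j + 1) := by
  have h := (l1a_prod_one_add Φ (fun i => (⇑σ)^[i] z) (fun i => l1a_iter_mem Φ hz i) n).1
  have h2 : ∀ i, (⇑σ)^[i] (1 + z) = 1 + (⇑σ)^[i] z := fun i => by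
    rw [iterate_map_add, iterate_map_one]
  simp only [h2]
  exact l1a_anti_le Φ (by omega) h

/-- The norm maps `1 + Λ j` to itself. -/
lemma l1a_norm_V {j : ℕ} {u : K} (hu : u - 1 ∈ Φ.Λ j) :
    ∏ i ∈ Finset.range n, (⇑σ)^[i] u - 1 ∈ Φ.Λ j := by
  have h := (l1a_prod_one_add Φ (fun i => (⇑σ)^[i] (u - 1)) (fun i => l1a_iter_mem Φ hu i) n).2
  have h2 : ∀ i, 1 + (⇑σ)^[i] (u - 1) = (⇑σ)^[i] u := fun i => by
    rw [iterate_map_sub, iterate_map_one]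
    ring
  simpa only [h2] using h

omit Φ in
lemma l1a_norm_mul (a b : K) :
    ∏ i ∈ Finset.range n, (⇑σ)^[i] (a * b) =
      (∏ i ∈ Finset.range n, (⇑σ)^[i] a) * ∏ i ∈ Finset.range n, (⇑σ)^[i] b := by
  rw [← Finset.prod_mul_distrib]
  exact Finset.prod_congr rfl fun i _ => iterate_map_mul σ i a b

omit Φ in
lemma l1a_iter_inv (a : K) (i : ℕ) : (⇑σ)^[i] a⁻¹ = ((⇑σ)^[i] a)⁻¹ := by
  induction i with
  | zero => rfl
  | succ i ih => rw [Function.iterate_succ_apply', Function.iterate_succ_apply', ih, map_inv₀]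

omit Φ in
lemma l1a_norm_inv (a : K) :
    ∏ i ∈ Finset.range n, (⇑σ)^[i] a⁻¹ = (∏ i ∈ Finset.range n, (⇑σ)^[i] a)⁻¹ := by
  rw [← Finset.prod_inv_distrib]
  exact Finset.prod_congr rfl fun i _ => l1a_iter_inv a i

omit Φ in
lemma l1a_norm_one : ∏ i ∈ Finset.range n, (⇑σ)^[i] (1 : K) = 1 := by
  simp [iterate_map_one]

omit Φ in
/-- `σ (N y) = N y = N (σ y)` when `σ ^ n = 1`. -/
lemma l1a_sigma_norm (hn : 0 < n) (hσ : ∀ x : K, (⇑σ)^[n] x = x) (y : K) :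
    σ (∏ i ∈ Finset.range n, (⇑σ)^[i] y) = ∏ i ∈ Finset.range n, (⇑σ)^[i] y := by
  obtain ⟨m, rfl⟩ : ∃ m, n = m + 1 := ⟨n - 1, by omega⟩
  rw [map_prod]
  have h1 : ∀ i, σ ((⇑σ)^[i] y) = (⇑σ)^[i + 1] y := fun i =>
    (Function.iterate_succ_apply' _ _ _).symm
  simp only [h1]
  rw [Finset.prod_range_succ (fun i => (⇑σ)^[i + 1] y) m,
    Finset.prod_range_succ' (fun i => (⇑σ)^[i] y) m, hσ y]
  rfl

omit Φ in
lemma l1a_norm_sigma (hn : 0 < n) (hσ : ∀ x : K, (⇑σ)^[n] x = x) (y : K) :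
    ∏ i ∈ Finset.range n, (⇑σ)^[i] (σ y) = ∏ i ∈ Finset.range n, (⇑σ)^[i] y := by
  rw [← l1a_sigma_norm hn hσ y, map_prod]
  refine Finset.prod_congr rfl fun i _ => ?_
  rw [← Function.iterate_succ_apply, Function.iterate_succ_apply']

/-- STEP of part B. -/
lemma l1a_stepB {j : ℕ} (hj : 1 ≤ j) {u : K} (hu : u - 1 ∈ Φ.Λ j) (hfix : σ u = u) :
    ∃ y : K, y - 1 ∈ Φ.Λ j ∧ u * (∏ i ∈ Finset.range n, (⇑σ)^[i] y)⁻¹ - 1 ∈ Φ.Λ (j + 1) := by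
  have h0 : σ (u - 1) - (u - 1) ∈ Φ.Λ (j + 1) := by
    rw [map_sub, map_one, hfix, sub_self]
    exact (Φ.Λ _).zero_mem
  obtain ⟨z, hz, hz2⟩ := Φ.h0 j (u - 1) hu h0
  refine ⟨1 + z, by simpa using hz, ?_⟩
  have hA := l1a_norm_one_add Φ hj hz
  set Ny : K := ∏ i ∈ Finset.range n, (⇑σ)^[i] (1 + z) with hNy
  have hNyV : Ny - 1 ∈ Φ.Λ j := l1a_norm_V Φ (by simpa using hz)
  have hNy1 : Ny - 1 ∈ Φ.Λ 1 := l1a_anti_le Φ hj hNyV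
  have hNy0 : Ny ≠ 0 := l1a_ne_zero Φ hNy1
  have hdiff : u - Ny ∈ Φ.Λ (j + 1) := by
    have h : u - Ny = (u - 1 - ∑ i ∈ Finset.range n, (⇑σ)^[i] z) -
        (Ny - 1 - ∑ i ∈ Finset.range n, (⇑σ)^[i] z) := by ring
    rw [h]
    exact (Φ.Λ _).sub_mem hz2 hA
  have h : u * Ny⁻¹ - 1 = Ny⁻¹ * (u - Ny) := by
    field_simp
  rw [h]
  exact l1a_unit_mul_mem Φ (l1a_inv Φ hNy1).2 hdiff

/-- STEP of part C. -/
lemma l1a_stepC {j : ℕ} (hj : 1 ≤ j) {u : K} (hu : u - 1 ∈ Φ.Λ j)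
    (hnorm : ∏ i ∈ Finset.range n, (⇑σ)^[i] u = 1) :
    ∃ y : K, y - 1 ∈ Φ.Λ j ∧ u * (y * (σ y)⁻¹) - 1 ∈ Φ.Λ (j + 1) := by
  have hA := l1a_norm_one_add Φ hj hu
  have hu' : 1 + (u - 1) = u := by ring
  rw [hu', hnorm, sub_self, zero_sub] at hA
  have htr : ∑ i ∈ Finset.range n, (⇑σ)^[i] (u - 1) ∈ Φ.Λ (j + 1) := by
    have := (Φ.Λ _).neg_mem hA
    rwa [neg_neg] at this
  obtain ⟨z, hz, hz2⟩ := Φ.h1 j (u - 1) hu htr
  have hy : (1 + z) - 1 ∈ Φ.Λ j := by simpa using hz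
  refine ⟨1 + z, hy, ?_⟩
  set y : K := 1 + z with hydef
  have hσy : σ y - 1 ∈ Φ.Λ j := by
    have := Φ.stable j _ hy
    rwa [map_sub, map_one] at this
  have hy1 : y - 1 ∈ Φ.Λ 1 := l1a_anti_le Φ hj hy
  have hσy1 : σ y - 1 ∈ Φ.Λ 1 := l1a_anti_le Φ hj hσy
  have hy0 : y ≠ 0 := l1a_ne_zero Φ hy1
  have hσy0 : σ y ≠ 0 := l1a_ne_zero Φ hσy1
  have hyinv : y⁻¹ - 1 ∈ Φ.Λ j := l1a_inv_j Φ hj hy
  have hσz : σ z - z ∈ Φ.Λ j := (Φ.Λ j).sub_mem (Φ.stable j _ hz) hz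
  -- σ y / y - 1 - (σ z - z) = (σ z - z) * (y⁻¹ - 1)
  have h1 : σ y * y⁻¹ - 1 - (σ z - z) = (σ z - z) * (y⁻¹ - 1) := by
    have hσyz : σ y = 1 + σ z := by rw [hydef, map_add, map_one]
    rw [hσyz]
    field_simp
    rw [hydef]
    ring
  have h2 : σ y * y⁻¹ - 1 - (σ z - z) ∈ Φ.Λ (j + 1) := by
    rw [h1]
    exact l1a_anti_le Φ (by omega) (Φ.mul j j _ _ hσz hyinv)
  have h3 : u - σ y * y⁻¹ ∈ Φ.Λ (j + 1) := by
    have h : u - σ y * y⁻¹ = (u - 1 - (σ z - z)) - (σ y * y⁻¹ - 1 - (σ z - z)) := by ring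
    rw [h]
    exact (Φ.Λ _).sub_mem hz2 h2
  have h4 : u * (y * (σ y)⁻¹) - 1 = (y * (σ y)⁻¹) * (u - σ y * y⁻¹) := by
    field_simp
  rw [h4]
  have h5 : y * (σ y)⁻¹ - 1 ∈ Φ.Λ 1 := l1a_V_div Φ le_rfl hy1 hσy1
  exact l1a_unit_mul_mem Φ h5 h3

/-- The LIMIT argument common to parts B and C. -/
theorem l1a_limit (φ ψ : K → K) (hφ1 : φ 1 - 1 ∈ Φ.Λ 1)
    (hφψ : ∀ Y y : K, Y - 1 ∈ Φ.Λ 1 → y - 1 ∈ Φ.Λ 1 → φ (Y * y) = φ Y * ψ y)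
    (hψ : ∀ (j : ℕ) (y : K), 1 ≤ j → y - 1 ∈ Φ.Λ j → ψ y - 1 ∈ Φ.Λ j)
    (step : ∀ (j : ℕ) (Y : K), 1 ≤ j → Y - 1 ∈ Φ.Λ 1 → φ Y - 1 ∈ Φ.Λ j →
      ∃ y : K, y - 1 ∈ Φ.Λ j ∧ φ Y * ψ y - 1 ∈ Φ.Λ (j + 1)) :
    ∃ Y : K, Y - 1 ∈ Φ.Λ 1 ∧ φ Y = 1 := by
  obtain ⟨s, hs0, hsI, hsR⟩ := l1a_exists_seq
    (fun k Y => Y - 1 ∈ Φ.Λ 1 ∧ φ Y - 1 ∈ Φ.Λ (k + 1))
    (fun k Y Y' => Y' - Y ∈ Φ.Λ (k + 1)) (1 : K) ⟨l1a_V_one Φ 1, hφ1⟩
    (by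
      rintro k Y ⟨hY1, hYφ⟩
      obtain ⟨y, hy, hy2⟩ := step (k + 1) Y (by omega) hY1 hYφ
      have hy1 : y - 1 ∈ Φ.Λ 1 := l1a_anti_le Φ (by omega) hy
      refine ⟨Y * y, ⟨l1a_V_mul Φ hY1 hy1, ?_⟩, ?_⟩
      · rw [hφψ Y y hY1 hy1]
        exact hy2
      · have h : Y * y - Y = Y * (y - 1) := by ring
        rw [h]
        exact l1a_unit_mul_mem Φ hY1 hy)
  obtain ⟨Y, hY⟩ := Φ.complete s hsR
  have hY1 : Y - 1 ∈ Φ.Λ 1 := by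
    have := hY 0
    rwa [hs0] at this
  refine ⟨Y, hY1, ?_⟩
  have hall : ∀ k, φ Y - 1 ∈ Φ.Λ (k + 1) := by
    intro k
    obtain ⟨hsk1, hskφ⟩ := hsI k
    have hsk0 : s k ≠ 0 := l1a_ne_zero Φ hsk1
    have hskinv : (s k)⁻¹ - 1 ∈ Φ.Λ 1 := (l1a_inv Φ hsk1).2
    set w : K := Y * (s k)⁻¹ with hw
    have hw1 : w - 1 ∈ Φ.Λ (k + 1) := by
      have h : w - 1 = (s k)⁻¹ * (Y - s k) := by
        rw [hw]
        field_simp
      rw [h]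
      exact l1a_unit_mul_mem Φ hskinv (hY k)
    have hYw : Y = s k * w := by
      rw [hw]
      field_simp
    have hw11 : w - 1 ∈ Φ.Λ 1 := l1a_anti_le Φ (by omega) hw1
    rw [hYw, hφψ (s k) w hsk1 hw11]
    exact l1a_V_mul Φ hskφ (hψ (k + 1) w (by omega) hw1)
  have hzero : φ Y - 1 = 0 := by
    apply Φ.sep
    intro j
    cases j with
    | zero => exact Φ.anti 0 (hall 0)
    | succ j => exact hall j
  exact sub_eq_zero.mp hzero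

end L1a

/-- **L1a**. -/
theorem stmtCohTrivial : StmtCohTrivial := by
  intro K _ σ n Φ hn hσ
  refine ⟨fun u hu => l1a_inv Φ hu, ?_, ?_⟩
  · -- part B
    intro u hu hfix
    obtain ⟨Y, hY1, hY⟩ := l1a_limit Φ
      (fun Y => u * (∏ i ∈ Finset.range n, (⇑σ)^[i] Y)⁻¹)
      (fun y => (∏ i ∈ Finset.range n, (⇑σ)^[i] y)⁻¹)
      (by
        show u * (∏ i ∈ Finset.range n, (⇑σ)^[i] (1 : K))⁻¹ - 1 ∈ Φ.Λ 1
        rw [l1a_norm_one, inv_one, mul_one]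
        exact hu)
      (by
        intro Y y _ _
        show u * (∏ i ∈ Finset.range n, (⇑σ)^[i] (Y * y))⁻¹ = _
        rw [l1a_norm_mul, mul_inv, mul_assoc])
      (by
        intro j y hj hy
        exact l1a_inv_j Φ hj (l1a_norm_V Φ hy))
      (by
        intro j Y hj hY1 hYφ
        have hNY : ∏ i ∈ Finset.range n, (⇑σ)^[i] Y - 1 ∈ Φ.Λ 1 := l1a_norm_V Φ hY1
        have hfix' : σ (u * (∏ i ∈ Finset.range n, (⇑σ)^[i] Y)⁻¹) =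
            u * (∏ i ∈ Finset.range n, (⇑σ)^[i] Y)⁻¹ := by
          rw [map_mul, map_inv₀, hfix, l1a_sigma_norm hn hσ]
        exact l1a_stepB Φ hj hYφ hfix')
    refine ⟨Y, hY1, ?_⟩
    have hNY0 : ∏ i ∈ Finset.range n, (⇑σ)^[i] Y ≠ 0 := l1a_ne_zero Φ (l1a_norm_V Φ hY1)
    have h : u * (∏ i ∈ Finset.range n, (⇑σ)^[i] Y)⁻¹ = 1 := hY
    field_simp at h
    exact h.symm
  · -- part C
    intro u hu hnorm
    obtain ⟨Y, hY1, hY⟩ := l1a_limit Φ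
      (fun Y => u * (Y * (σ Y)⁻¹))
      (fun y => y * (σ y)⁻¹)
      (by
        show u * (1 * (σ 1)⁻¹) - 1 ∈ Φ.Λ 1
        rw [map_one, inv_one, mul_one, mul_one]
        exact hu)
      (by
        intro Y y _ _
        show u * (Y * y * (σ (Y * y))⁻¹) = u * (Y * (σ Y)⁻¹) * (y * (σ y)⁻¹)
        rw [map_mul, mul_inv]
        ring)
      (by
        intro j y hj hy
        have hσy : σ y - 1 ∈ Φ.Λ j := by
          have := Φ.stable j _ hy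
          rwa [map_sub, map_one] at this
        exact l1a_V_div Φ hj hy hσy)
      (by
        intro j Y hj hY1 hYφ
        have hY0 : Y ≠ 0 := l1a_ne_zero Φ hY1
        have hNY0 : ∏ i ∈ Finset.range n, (⇑σ)^[i] Y ≠ 0 := l1a_ne_zero Φ (l1a_norm_V Φ hY1)
        have hnorm' : ∏ i ∈ Finset.range n, (⇑σ)^[i] (u * (Y * (σ Y)⁻¹)) = 1 := by
          rw [l1a_norm_mul, l1a_norm_mul, l1a_norm_inv, l1a_norm_sigma hn hσ, hnorm, one_mul,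
            mul_inv_cancel₀ hNY0]
        exact l1a_stepC Φ hj hYφ hnorm')
    refine ⟨Y, hY1, ?_⟩
    have hY0 : Y ≠ 0 := l1a_ne_zero Φ hY1
    have hσY0 : σ Y ≠ 0 := by
      intro h
      exact hY0 ((map_eq_zero σ).mp h)
    have h : u * (Y * (σ Y)⁻¹) = 1 := hY
    field_simp at h
    rw [eq_div_iff hY0]
    exact h

end Fermat.Agent.PT.L
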