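/-
PT-L piece L0a (helper72): the unnormalised valuation `wv` of a local field is ultrametric
(`stmtWAdd`) and its valuation ring is the integral closure of `ℤ_q` (`stmtWInt`).
Route: the spectral norm of Mathlib, with the bridge `‖N x‖ = spectralNorm x ^ [F : ℚ_q]`.
-/
import Fermat.Agent.PT.L.Plan

set_option autoImplicit false

namespace Fermat.Agent.PT.L

open Polynomial IntermediateField

section

variable (q : ℕ) [Fact q.Prime] (F : Type) [Field F] [Algebra ℚ_[q] F]
  [FiniteDimensional ℚ_[q] F]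

/-- The norm of the generator of `K⟮x⟯` is `± coeff₀` of the minimal polynomial. -/
theorem l0a_norm_gen (x : F) :
    ‖Algebra.norm ℚ_[q] (AdjoinSimple.gen ℚ_[q] x)‖ = ‖(minpoly ℚ_[q] x).coeff 0‖ := by
  have hx : IsIntegral ℚ_[q] x := Algebra.IsIntegral.isIntegral x
  have h1 := Algebra.PowerBasis.norm_gen_eq_coeff_zero_minpoly (adjoin.powerBasis hx)
  rw [adjoin.powerBasis_gen hx] at h1
  rw [h1, minpoly_gen, norm_mul, norm_pow, norm_neg, norm_one, one_pow, one_mul]

/-- The bridge: `‖N_{F/ℚ_q} x‖ = ‖x‖_sp ^ [F : ℚ_q]`. -/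
theorem l0a_norm_eq_spectralNorm_pow (x : F) :
    ‖Algebra.norm ℚ_[q] x‖ = spectralNorm ℚ_[q] F x ^ Module.finrank ℚ_[q] F := by
  have hx : IsIntegral ℚ_[q] x := Algebra.IsIntegral.isIntegral x
  have hd : 0 < (minpoly ℚ_[q] x).natDegree := minpoly.natDegree_pos hx
  rw [Algebra.norm_eq_norm_adjoin ℚ_[q] x, norm_pow, l0a_norm_gen,
    spectralNorm.spectralNorm_eq_norm_coeff_zero_rpow,
    ← Module.finrank_mul_finrank ℚ_[q] ℚ_[q]⟮x⟯ F, adjoin.finrank hx, pow_mul,
    ← Real.rpow_natCast (_ ^ _) (minpoly ℚ_[q] x).natDegree, ← Real.rpow_mul (norm_nonneg _),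
    one_div, inv_mul_cancel₀ (by exact_mod_cast hd.ne'), Real.rpow_one]

/-- `spectralNorm ≤ 1` iff `‖N x‖ ≤ 1`. -/
theorem l0a_spectralNorm_le_one_iff (x : F) :
    spectralNorm ℚ_[q] F x ≤ 1 ↔ ‖Algebra.norm ℚ_[q] x‖ ≤ 1 := by
  have hn : 0 < Module.finrank ℚ_[q] F := Module.finrank_pos
  rw [l0a_norm_eq_spectralNorm_pow]
  constructor
  · intro h
    exact pow_le_one₀ (spectralNorm_nonneg x) h
  · intro h
    by_contra hlt
    exact absurd h (not_le.mpr (one_lt_pow₀ (not_le.mp hlt) hn.ne'))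

/-- For nonzero `z`, `‖z‖ ≤ ‖w‖` translates to valuations. -/
theorem l0a_val_le_of_norm_le {z w : ℚ_[q]} (hz : z ≠ 0) (hw : w ≠ 0) (h : ‖z‖ ≤ ‖w‖) :
    w.valuation ≤ z.valuation := by
  rw [Padic.norm_eq_zpow_neg_valuation hz, Padic.norm_eq_zpow_neg_valuation hw] at h
  have h1p : 1 < (q : ℝ) := by exact_mod_cast (Fact.out : q.Prime).one_lt
  have := (zpow_le_zpow_iff_right₀ h1p).mp h
  omega

theorem l0a_wAdd (x y : F) (hx : x ≠ 0) (hy : y ≠ 0) (hxy : x + y ≠ 0) :
    min (wv q x) (wv q y) ≤ wv q (x + y) := by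
  have hNx : Algebra.norm ℚ_[q] x ≠ 0 := Algebra.norm_ne_zero_iff.mpr hx
  have hNy : Algebra.norm ℚ_[q] y ≠ 0 := Algebra.norm_ne_zero_iff.mpr hy
  have hNxy : Algebra.norm ℚ_[q] (x + y) ≠ 0 := Algebra.norm_ne_zero_iff.mpr hxy
  have hna := isNonarchimedean_spectralNorm (K := ℚ_[q]) (L := F) x y
  rcases le_max_iff.mp hna with h | h
  · refine (min_le_left _ _).trans ?_
    refine l0a_val_le_of_norm_le q hNxy hNx ?_
    rw [l0a_norm_eq_spectralNorm_pow, l0a_norm_eq_spectralNorm_pow]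
    exact pow_le_pow_left₀ (spectralNorm_nonneg _) h _
  · refine (min_le_right _ _).trans ?_
    refine l0a_val_le_of_norm_le q hNxy hNy ?_
    rw [l0a_norm_eq_spectralNorm_pow, l0a_norm_eq_spectralNorm_pow]
    exact pow_le_pow_left₀ (spectralNorm_nonneg _) h _

/-- integral over `ℤ_q` implies `spectralNorm ≤ 1`. -/
theorem l0a_spectralNorm_le_one_of_integral (x : F)
    (hx : ((algebraMap ℚ_[q] F).comp (PadicInt.Coe.ringHom (p := q))).IsIntegralElem x) :
    spectralNorm ℚ_[q] F x ≤ 1 := by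
  obtain ⟨P, hP, hPx⟩ := hx
  have hmon : (P.map (PadicInt.Coe.ringHom (p := q))).Monic := hP.map _
  have hroot : aeval x (P.map (PadicInt.Coe.ringHom (p := q))) = 0 := by
    rw [aeval_def, eval₂_map]
    exact hPx
  have h1 := norm_root_le_spectralValue (f := spectralAlgNorm ℚ_[q] F)
    spectralAlgNorm_isPowMul isNonarchimedean_spectralNorm hmon hroot
  rw [spectralAlgNorm_def] at h1
  refine h1.trans ((spectralValue_le_one_iff hmon).mpr fun n => ?_)
  rw [coeff_map]
  exact (P.coeff n).2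

/-- `spectralNorm ≤ 1` implies integral over `ℤ_q`. -/
theorem l0a_integral_of_spectralNorm_le_one (x : F) (hx : spectralNorm ℚ_[q] F x ≤ 1) :
    ((algebraMap ℚ_[q] F).comp (PadicInt.Coe.ringHom (p := q))).IsIntegralElem x := by
  have hint : IsIntegral ℚ_[q] x := Algebra.IsIntegral.isIntegral x
  have hmon : (minpoly ℚ_[q] x).Monic := minpoly.monic hint
  have hco := (spectralValue_le_one_iff hmon).mp hx
  have hl : minpoly ℚ_[q] x ∈ Polynomial.lifts (PadicInt.Coe.ringHom (p := q)) := by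
    rw [Polynomial.lifts_iff_coeff_lifts]
    intro n
    exact ⟨⟨_, hco n⟩, rfl⟩
  obtain ⟨Q, hQ, -, hQm⟩ := Polynomial.lifts_and_natDegree_eq_and_monic hl hmon
  refine ⟨Q, hQm, ?_⟩
  rw [← eval₂_map, hQ]
  exact minpoly.aeval ℚ_[q] x

theorem l0a_wInt (x : F) :
    IsInt q x ↔
      ((algebraMap ℚ_[q] F).comp (PadicInt.Coe.ringHom (p := q))).IsIntegralElem x := by
  constructor
  · rintro (rfl | h)
    · exact ⟨X, monic_X, by simp⟩
    · apply l0a_integral_of_spectralNorm_le_one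
      rw [l0a_spectralNorm_le_one_iff]
      exact (Padic.norm_le_one_iff_val_nonneg _).mpr h
  · intro h
    right
    have := l0a_spectralNorm_le_one_of_integral q F x h
    rw [l0a_spectralNorm_le_one_iff] at this
    exact (Padic.norm_le_one_iff_val_nonneg _).mp this

end

/-- L0-add: `w` is ultrametric. -/
theorem stmtWAdd : StmtWAdd := fun q _ F _ _ _ x y hx hy hxy => l0a_wAdd q F x y hx hy hxy

/-- L0-int: the valuation ring is the integral closure of `ℤ_q`. -/
theorem stmtWInt : StmtWInt := fun q _ F _ _ _ x => l0a_wInt q F x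

end Fermat.Agent.PT.L
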