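import Fermat.Agent.PT.L.FiniteQuot
import Fermat.Agent.PT.L.Val

/-!
# PT-L, piece L0d (unconditional): `stmtWFinite : StmtWFinite`
-/

set_option autoImplicit false

namespace Fermat.Agent.PT.L

/-- **L0d**: the valuation ring modulo `{w ≥ k}` is finite. -/
theorem stmtWFinite : StmtWFinite := stmtWFinite_of stmtWInt

end Fermat.Agent.PT.L
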