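import Fermat.Agent.PT.L.Plan

/-!
# PT-L, piece L0b: a uniformiser exists (`StmtWUnif`)

Basic algebra of the unnormalised valuation `wv` and the existence of an element of least
positive valuation.
-/

set_option autoImplicit false
set_option linter.unusedSectionVars false

namespace Fermat.Agent.PT.L

section

variable (q : ℕ) [Fact q.Prime] {F : Type} [Field F] [Algebra ℚ_[q] F]
  [FiniteDimensional ℚ_[q] F]

lemma l0b_norm_ne_zero {x : F} (hx : x ≠ 0) : Algebra.norm ℚ_[q] x ≠ 0 :=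
  Algebra.norm_ne_zero_iff.mpr hx

lemma l0b_wv_one : wv q (1 : F) = 0 := by
  unfold wv
  rw [map_one, Padic.valuation_one]

lemma l0b_wv_mul {x y : F} (hx : x ≠ 0) (hy : y ≠ 0) : wv q (x * y) = wv q x + wv q y := by
  unfold wv
  rw [map_mul, Padic.valuation_mul (l0b_norm_ne_zero q hx) (l0b_norm_ne_zero q hy)]

lemma l0b_wv_inv (x : F) : wv q x⁻¹ = -wv q x := by
  unfold wv
  rw [Algebra.norm_inv, Padic.valuation_inv]

lemma l0b_wv_pow (x : F) (n : ℕ) : wv q (x ^ n) = n * wv q x := by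
  unfold wv
  rw [map_pow, Padic.valuation_pow]

lemma l0b_wv_zpow (x : F) (n : ℤ) : wv q (x ^ n) = n * wv q x := by
  cases n with
  | ofNat k =>
    simp only [Int.ofNat_eq_natCast, zpow_natCast]
    exact l0b_wv_pow q x k
  | negSucc k =>
    rw [zpow_negSucc, l0b_wv_inv, l0b_wv_pow, Int.negSucc_eq]
    push_cast
    ring

lemma l0b_wv_div {x y : F} (hx : x ≠ 0) (hy : y ≠ 0) : wv q (x / y) = wv q x - wv q y := by
  rw [div_eq_mul_inv, l0b_wv_mul q hx (inv_ne_zero hy), l0b_wv_inv]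
  ring

lemma l0b_wv_algebraMap (a : ℚ_[q]) :
    wv q (algebraMap ℚ_[q] F a) = Module.finrank ℚ_[q] F * Padic.valuation a := by
  unfold wv
  rw [Algebra.norm_algebraMap, Padic.valuation_pow]

lemma l0b_finrank_pos : 0 < Module.finrank ℚ_[q] F := Module.finrank_pos

lemma l0b_wv_q : wv q (algebraMap ℚ_[q] F (q : ℚ_[q])) = Module.finrank ℚ_[q] F := by
  rw [l0b_wv_algebraMap, Padic.valuation_p, mul_one]

lemma l0b_q_ne_zero : algebraMap ℚ_[q] F (q : ℚ_[q]) ≠ 0 := by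
  rw [Ne, map_eq_zero]
  exact_mod_cast (Fact.out : q.Prime).ne_zero

end

/-- **L0b**: a uniformiser exists. -/
theorem stmtWUnif : StmtWUnif := by
  intro q _ F _ _ _
  classical
  -- the set of positive values is nonempty
  have hex : ∃ k : ℕ, 0 < k ∧ ∃ x : F, x ≠ 0 ∧ wv q x = k :=
    ⟨Module.finrank ℚ_[q] F, l0b_finrank_pos q, _, l0b_q_ne_zero q, l0b_wv_q q⟩
  obtain ⟨hd, π, hπ0, hπ⟩ := Nat.find_spec hex
  set d := Nat.find hex with hd_def
  refine ⟨π, hπ0, by rw [hπ]; exact_mod_cast hd, fun x hx => ?_⟩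
  rw [hπ]
  -- the remainder of `wv x` mod `d` is a value, smaller than `d`
  have hdpos : (0 : ℤ) < d := by exact_mod_cast hd
  set r := wv q x % (d : ℤ) with hr
  have hr0 : 0 ≤ r := Int.emod_nonneg _ hdpos.ne'
  have hrd : r < d := Int.emod_lt_of_pos _ hdpos
  have hy0 : x * (π ^ (wv q x / (d : ℤ)))⁻¹ ≠ 0 :=
    mul_ne_zero hx (inv_ne_zero (zpow_ne_zero _ hπ0))
  have hval : wv q (x * (π ^ (wv q x / (d : ℤ)))⁻¹) = r := by
    rw [l0b_wv_mul q hx (inv_ne_zero (zpow_ne_zero _ hπ0)), l0b_wv_inv, l0b_wv_zpow, hπ, hr]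
    have := Int.emod_add_mul_ediv (wv q x) (d : ℤ)
    linarith [mul_comm (wv q x / (d : ℤ)) (d : ℤ)]
  by_contra hndvd
  have hrne : r ≠ 0 := fun h => hndvd (Int.dvd_of_emod_eq_zero (hr ▸ h))
  have hrpos : 0 < r := lt_of_le_of_ne hr0 (Ne.symm hrne)
  have hmem : 0 < r.toNat ∧ ∃ y : F, y ≠ 0 ∧ wv q y = (r.toNat : ℤ) := by
    refine ⟨by omega, _, hy0, ?_⟩
    rw [hval, Int.toNat_of_nonneg hr0]
  have := Nat.find_min' hex hmem
  omega

end Fermat.Agent.PT.L
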