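/-
PT-L: shared API for the unnormalised valuation `wv` of a local field (helper57).
`geW q k x` means `w(x) ≥ k` (true for `x = 0`); `IsInt q x = geW q 0 x`,
`Close q k x y ↔ geW q k (x - y)`.
-/
import Fermat.Agent.PT.L.Val
import Fermat.Agent.PT.L.Unif

set_option autoImplicit false
set_option linter.unusedSectionVars false

namespace Fermat.Agent.PT.L

section

variable (q : ℕ) [Fact q.Prime] {F : Type} [Field F] [Algebra ℚ_[q] F]
  [FiniteDimensional ℚ_[q] F]

/-- `w(x) ≥ k` (true for `x = 0`). -/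
def geW (k : ℤ) (x : F) : Prop := x = 0 ∨ k ≤ wv q x

lemma geW_zero (k : ℤ) : geW q k (0 : F) := Or.inl rfl

lemma geW_mono {k l : ℤ} (h : l ≤ k) {x : F} (hx : geW q k x) : geW q l x := by
  rcases hx with hx | hx
  · exact Or.inl hx
  · exact Or.inr (h.trans hx)

lemma isInt_iff_geW (x : F) : IsInt q x ↔ geW q 0 x := Iff.rfl

lemma close_iff_geW (k : ℤ) (x y : F) : Close q k x y ↔ geW q k (x - y) := by
  unfold Close geW
  rw [sub_eq_zero]

lemma geW_wv_neg (x : F) : wv q (-x) = wv q x := by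
  by_cases hx : x = 0
  · simp [hx]
  have h1 : wv q (-1 : F) = 0 := by
    have h2 : wv q ((-1 : F) * (-1)) = wv q (-1 : F) + wv q (-1 : F) :=
      l0b_wv_mul q (by simp) (by simp)
    have h3 : ((-1 : F) * (-1)) = 1 := by ring
    rw [h3, l0b_wv_one] at h2
    omega
  have : -x = (-1) * x := by ring
  rw [this, l0b_wv_mul q (by simp) hx, h1, zero_add]

lemma geW_neg {k : ℤ} {x : F} (hx : geW q k x) : geW q k (-x) := by
  rcases hx with hx | hx
  · exact Or.inl (by simp [hx])
  · exact Or.inr (by rwa [geW_wv_neg])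

lemma geW_add {k : ℤ} {x y : F} (hx : geW q k x) (hy : geW q k y) : geW q k (x + y) := by
  by_cases hx0 : x = 0
  · simpa [hx0] using hy
  by_cases hy0 : y = 0
  · simpa [hy0] using hx
  by_cases hxy : x + y = 0
  · exact Or.inl hxy
  rcases hx with hx | hx
  · exact absurd hx hx0
  rcases hy with hy | hy
  · exact absurd hy hy0
  exact Or.inr ((le_min hx hy).trans (stmtWAdd q F x y hx0 hy0 hxy))

lemma geW_sub {k : ℤ} {x y : F} (hx : geW q k x) (hy : geW q k y) : geW q k (x - y) := by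
  rw [sub_eq_add_neg]
  exact geW_add q hx (geW_neg q hy)

lemma geW_mul {k l : ℤ} {x y : F} (hx : geW q k x) (hy : geW q l y) :
    geW q (k + l) (x * y) := by
  by_cases hx0 : x = 0
  · exact Or.inl (by simp [hx0])
  by_cases hy0 : y = 0
  · exact Or.inl (by simp [hy0])
  rcases hx with hx | hx
  · exact absurd hx hx0
  rcases hy with hy | hy
  · exact absurd hy hy0
  exact Or.inr (by rw [l0b_wv_mul q hx0 hy0]; omega)

lemma geW_sum {ι : Type*} (s : Finset ι) (f : ι → F) (k : ℤ)
    (h : ∀ i ∈ s, geW q k (f i)) : geW q k (∑ i ∈ s, f i) := by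
  classical
  induction s using Finset.induction_on with
  | empty => simpa using geW_zero q k
  | insert a s ha ih =>
    rw [Finset.sum_insert ha]
    exact geW_add q (h a (Finset.mem_insert_self a s))
      (ih (fun i hi => h i (Finset.mem_insert_of_mem hi)))

lemma geW_eq_zero {x : F} (h : ∀ k : ℕ, geW q (k : ℤ) x) : x = 0 := by
  by_contra hx
  rcases h (wv q x + 1).toNat with h1 | h1
  · exact hx h1
  · have := Int.self_le_toNat (wv q x + 1)
    omega

lemma exists_geW (x : F) : ∃ c : ℕ, geW q (-(c : ℤ)) x :=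
  ⟨(-wv q x).toNat, Or.inr (by have := Int.self_le_toNat (-wv q x); omega)⟩

lemma exists_geW_finite {ι : Type*} [Finite ι] (f : ι → F) :
    ∃ c : ℕ, ∀ i, geW q (-(c : ℤ)) (f i) := by
  classical
  cases nonempty_fintype ι
  choose c hc using fun i => exists_geW q (f i)
  refine ⟨Finset.univ.sup c, fun i => geW_mono q ?_ (hc i)⟩
  have : c i ≤ Finset.univ.sup c := Finset.le_sup (Finset.mem_univ i)
  omega

/-- `q`, as an element of the local field. -/
noncomputable def qEl (F : Type) [Field F] [Algebra ℚ_[q] F] : F := algebraMap ℚ_[q] F (q : ℚ_[q])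

lemma qEl_ne_zero : qEl q F ≠ 0 := l0b_q_ne_zero q

lemma wv_qEl : wv q (qEl q F) = Module.finrank ℚ_[q] F := l0b_wv_q q

lemma wv_qEl_pow (j : ℕ) : wv q (qEl q F ^ j) = j * Module.finrank ℚ_[q] F := by
  rw [l0b_wv_pow, wv_qEl]

lemma geW_qEl_pow_mul {k : ℤ} {x : F} (j : ℕ) (hx : geW q k x) :
    geW q (j * Module.finrank ℚ_[q] F + k) (qEl q F ^ j * x) :=
  geW_mul q (Or.inr (by rw [wv_qEl_pow])) hx

lemma geW_one : geW q 0 (1 : F) := Or.inr (by rw [l0b_wv_one])

/-- If `w(x) ≥ 1` then `1 + x` is a unit: `w(1 + x) = 0`. -/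
lemma wv_one_add {x : F} (hx : geW q 1 x) : 1 + x ≠ 0 ∧ wv q (1 + x) = 0 := by
  have h1 : (1 : F) + x ≠ 0 := by
    intro h
    have hx' : x = -1 := by linear_combination h
    rcases hx with hx | hx
    · rw [hx, add_zero] at h
      exact one_ne_zero h
    · rw [hx', geW_wv_neg, l0b_wv_one] at hx
      omega
  refine ⟨h1, ?_⟩
  have h2 : geW q 0 (1 + x) := geW_add q (geW_one q) (geW_mono q (by omega) hx)
  rcases h2 with h2 | h2
  · exact absurd h2 h1
  by_contra h3
  have h4 : geW q 1 (1 + x) := Or.inr (by omega)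
  have h5 : geW q 1 ((1 + x) - x) := geW_sub q h4 hx
  rw [add_sub_cancel_right] at h5
  rcases h5 with h5 | h5
  · exact one_ne_zero h5
  · rw [l0b_wv_one] at h5
    omega

end

section tower

variable (q : ℕ) [Fact q.Prime] {F F' : Type} [Field F] [Field F'] [Algebra ℚ_[q] F]
  [FiniteDimensional ℚ_[q] F] [Algebra F F'] [Algebra ℚ_[q] F'] [IsScalarTower ℚ_[q] F F']
  [FiniteDimensional F F']

lemma tower_finiteDimensional (F : Type) {F' : Type} [Field F] [Field F'] [Algebra ℚ_[q] F]
    [FiniteDimensional ℚ_[q] F] [Algebra F F'] [Algebra ℚ_[q] F'] [IsScalarTower ℚ_[q] F F']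
    [FiniteDimensional F F'] : FiniteDimensional ℚ_[q] F' :=
  FiniteDimensional.trans ℚ_[q] F F'

lemma wv_algebraMap_tower (a : F) :
    wv q (algebraMap F F' a) = Module.finrank F F' * wv q a := by
  unfold wv
  rw [← Algebra.norm_norm (R := ℚ_[q]) (S := F) (A := F'), Algebra.norm_algebraMap,
    map_pow, Padic.valuation_pow]

lemma wv_norm_tower (y : F') : wv q (Algebra.norm F y) = wv q y := by
  unfold wv
  rw [Algebra.norm_norm (R := ℚ_[q]) (S := F) (A := F')]

lemma wv_algEquiv (σ : F' ≃ₐ[F] F') (x : F') : wv q (σ x) = wv q x := by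
  unfold wv
  exact congrArg Padic.valuation (Algebra.norm_eq_of_algEquiv (σ.restrictScalars ℚ_[q]) x)

lemma geW_algEquiv (σ : F' ≃ₐ[F] F') {k : ℤ} {x : F'} (hx : geW q k x) : geW q k (σ x) := by
  rcases hx with hx | hx
  · exact Or.inl (by simp [hx])
  · exact Or.inr (by rwa [wv_algEquiv])

lemma finrank_tower_eq :
    Module.finrank ℚ_[q] F' = Module.finrank ℚ_[q] F * Module.finrank F F' :=
  (Module.finrank_mul_finrank ℚ_[q] F F').symm

lemma qEl_tower : algebraMap F F' (qEl q F) = qEl q F' := by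
  unfold qEl
  rw [← IsScalarTower.algebraMap_apply]

end tower

end Fermat.Agent.PT.L
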