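/-
PT-L piece L1b (helper75): coordinates of integral elements have bounded denominators
(`stmtLattice`).  The valuation ring of `F'` is the integral closure of `ℤ_q` (`stmtWInt`), a
finitely generated `ℤ_q`-module; the elements `x` with `q^K · coord_i x` integral for all `i` form a
`ℤ_q`-submodule of `F'` which contains any given finite set when `K` is large.
-/
import Fermat.Agent.PT.L.Plan3
import Fermat.Agent.PT.L.Ge

set_option autoImplicit false
set_option linter.style.haveILetI false

namespace Fermat.Agent.PT.L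

section

variable (q : ℕ) [Fact q.Prime] {F : Type} [Field F] [Algebra ℚ_[q] F]
  [FiniteDimensional ℚ_[q] F]

/-- `q^K y` is integral for `K` large. -/
theorem l1b_exists_pow_mul (y : F) : ∃ K : ℕ, ∀ K' : ℕ, K ≤ K' → geW q 0 (qEl q F ^ K' * y) := by
  obtain ⟨c, hc⟩ := exists_geW q y
  refine ⟨c, fun K' hK' => ?_⟩
  refine geW_mono q ?_ (geW_qEl_pow_mul q K' hc)
  have hn : (1 : ℤ) ≤ (Module.finrank ℚ_[q] F : ℤ) := by
    exact_mod_cast (Module.finrank_pos : 0 < Module.finrank ℚ_[q] F)
  have h1 : (c : ℤ) ≤ (K' : ℤ) := by exact_mod_cast hK'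
  nlinarith [Nat.cast_nonneg (α := ℤ) K', Nat.cast_nonneg (α := ℤ) c]

/-- The image of a `q`-adic integer is integral. -/
theorem l1b_geW_algebraMap (c : ℤ_[q]) : geW q 0 (algebraMap ℚ_[q] F (c : ℚ_[q])) := by
  rw [← isInt_iff_geW, stmtWInt q F]
  exact RingHom.isIntegralElem_map _

end

/-- **L1b**. -/
theorem stmtLattice : StmtLattice := by
  classical
  intro q _ F F' _ _ _ _ _ _ _ _ ι _ b
  haveI : FiniteDimensional ℚ_[q] F' := FiniteDimensional.trans ℚ_[q] F F'
  letI : Algebra ℤ_[q] F' :=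
    ((algebraMap ℚ_[q] F').comp (PadicInt.Coe.ringHom (p := q))).toAlgebra
  haveI : IsScalarTower ℤ_[q] ℚ_[q] F' := IsScalarTower.of_algebraMap_eq (fun x => rfl)
  haveI : Module.Finite ℤ_[q] (integralClosure ℤ_[q] F') :=
    IsIntegralClosure.finite ℤ_[q] ℚ_[q] F' (integralClosure ℤ_[q] F')
  have hfg : (Subalgebra.toSubmodule (integralClosure ℤ_[q] F')).FG :=
    Module.Finite.iff_fg.mp (by assumption)
  obtain ⟨s, hs⟩ := hfg
  -- a uniform exponent for the finitely many coordinates of the finitely many generators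
  have h1 : ∀ p : F' × ι, ∃ K : ℕ, ∀ K' : ℕ, K ≤ K' →
      geW q 0 (qEl q F ^ K' * b.repr p.1 p.2) := fun p => l1b_exists_pow_mul q _
  choose Kf hKf using h1
  set K : ℕ := (s ×ˢ (Finset.univ : Finset ι)).sup Kf with hK
  refine ⟨K, fun x hx i => ?_⟩
  have hxC : x ∈ Subalgebra.toSubmodule (integralClosure ℤ_[q] F') :=
    (stmtWInt q F' x).mp hx
  rw [← hs] at hxC
  clear hx
  rw [isInt_iff_geW]
  show geW q 0 (qEl q F ^ K * b.repr x i)
  induction hxC using Submodule.span_induction with
  | mem y hy =>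
    exact hKf (y, i) K (Finset.le_sup (f := Kf) (Finset.mem_product.mpr ⟨hy, Finset.mem_univ i⟩))
  | zero =>
    simp only [map_zero, Finsupp.coe_zero, Pi.zero_apply, mul_zero]
    exact geW_zero q 0
  | add y z _ _ hy hz =>
    rw [map_add, Finsupp.coe_add, Pi.add_apply, mul_add]
    exact geW_add q hy hz
  | smul c y _ hy =>
    have h2 : c • y = (algebraMap ℚ_[q] F (c : ℚ_[q])) • y := by
      rw [Algebra.smul_def, Algebra.smul_def]
      show algebraMap ℚ_[q] F' (c : ℚ_[q]) * y = _
      rw [IsScalarTower.algebraMap_apply ℚ_[q] F F']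
    rw [h2, map_smul, Finsupp.coe_smul, Pi.smul_apply, smul_eq_mul, mul_left_comm]
    have := geW_mul q (l1b_geW_algebraMap q (F := F) c) hy
    simpa using this

end Fermat.Agent.PT.L
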