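/-
PT-L piece L0c (helper75): a local field is complete for its unnormalised valuation `wv`
(`stmtWComplete`).  Route: the spectral norm of Mathlib (`spectralNorm.completeSpace`) and the
bridge `‖N x‖ = spectralNorm x ^ [F : ℚ_q]` of `Val.lean`.
-/
import Fermat.Agent.PT.L.Plan
import Fermat.Agent.PT.L.Val

set_option autoImplicit false

namespace Fermat.Agent.PT.L

section

variable (q : ℕ) [Fact q.Prime] (F : Type) [Field F] [Algebra ℚ_[q] F]
  [FiniteDimensional ℚ_[q] F]

/-- `Close q k x y` in terms of the spectral norm. -/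
theorem l0c_close_iff (k : ℤ) (x y : F) :
    Close q k x y ↔
      spectralNorm ℚ_[q] F (x - y) ^ Module.finrank ℚ_[q] F ≤ (q : ℝ) ^ (-k) := by
  have hn : 0 < Module.finrank ℚ_[q] F := Module.finrank_pos
  have h1q : 1 < (q : ℝ) := by exact_mod_cast (Fact.out : q.Prime).one_lt
  have hq0 : (0 : ℝ) < q := by positivity
  by_cases hxy : x = y
  · subst hxy
    simp only [Close, true_or, sub_self, true_iff]
    rw [spectralNorm_zero, zero_pow hn.ne']
    positivity
  · have hsub : x - y ≠ 0 := sub_ne_zero.mpr hxy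
    have hN : Algebra.norm ℚ_[q] (x - y) ≠ 0 := Algebra.norm_ne_zero_iff.mpr hsub
    rw [← l0a_norm_eq_spectralNorm_pow, Padic.norm_eq_zpow_neg_valuation hN,
      zpow_le_zpow_iff_right₀ h1q]
    simp only [Close, hxy, false_or, wv]
    constructor <;> intro h <;> omega

/-- The spectral norm of a difference is ultrametric. -/
theorem l0c_sub_le (x y z : F) :
    spectralNorm ℚ_[q] F (x - z) ≤
      max (spectralNorm ℚ_[q] F (x - y)) (spectralNorm ℚ_[q] F (y - z)) := by
  have := isNonarchimedean_spectralNorm (K := ℚ_[q]) (L := F) (x - y) (y - z)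
  rwa [sub_add_sub_cancel] at this

theorem l0c_complete (s : ℕ → F) (hs : ∀ k : ℕ, Close q (k : ℤ) (s (k + 1)) (s k)) :
    ∃ y : F, ∀ k : ℕ, Close q (k : ℤ) y (s k) := by
  have hn : 0 < Module.finrank ℚ_[q] F := Module.finrank_pos
  have h1q : 1 < (q : ℝ) := by exact_mod_cast (Fact.out : q.Prime).one_lt
  have hq0 : (0 : ℝ) < q := by positivity
  set n := Module.finrank ℚ_[q] F with hndef
  -- Step 1: `s m ≡ s k` for `m ≥ k`
  have h1 : ∀ k m : ℕ, k ≤ m →
      spectralNorm ℚ_[q] F (s m - s k) ^ n ≤ (q : ℝ) ^ (-(k : ℤ)) := by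
    intro k m hkm
    induction m, hkm using Nat.le_induction with
    | base =>
      rw [sub_self, spectralNorm_zero, zero_pow hn.ne']
      positivity
    | succ m hkm ih =>
      have h2 := (l0c_close_iff q F (m : ℤ) (s (m + 1)) (s m)).mp (hs m)
      have h3 : (q : ℝ) ^ (-(m : ℤ)) ≤ (q : ℝ) ^ (-(k : ℤ)) := by
        rw [zpow_le_zpow_iff_right₀ h1q]
        omega
      have h4 := l0c_sub_le q F (s (m + 1)) (s m) (s k)
      rcases le_max_iff.mp h4 with h | h
      · exact (pow_le_pow_left₀ (spectralNorm_nonneg _) h n).trans (h2.trans h3)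
      · exact (pow_le_pow_left₀ (spectralNorm_nonneg _) h n).trans ih
  let _ : NormedField F := spectralNorm.normedField ℚ_[q] F
  have _ : CompleteSpace F := spectralNorm.completeSpace ℚ_[q] F
  have hdist : ∀ x y : F, dist x y = spectralNorm ℚ_[q] F (x - y) := fun _ _ => rfl
  -- Step 2: the sequence is Cauchy
  have hc : CauchySeq s := by
    rw [Metric.cauchySeq_iff']
    intro ε hε
    have hεn : 0 < ε ^ n := pow_pos hε n
    obtain ⟨N, hN⟩ := exists_pow_lt_of_lt_one hεn (inv_lt_one_of_one_lt₀ h1q)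
    refine ⟨N, fun m hm => ?_⟩
    rw [hdist]
    refine lt_of_pow_lt_pow_left₀ n hε.le ?_
    refine (h1 N m hm).trans_lt ?_
    rwa [zpow_neg, zpow_natCast, ← inv_pow]
  obtain ⟨y, hy⟩ := cauchySeq_tendsto_of_complete hc
  refine ⟨y, fun k => ?_⟩
  rw [l0c_close_iff]
  have hcont : Filter.Tendsto (fun m => dist (s m) (s k) ^ n) Filter.atTop
      (nhds (dist y (s k) ^ n)) :=
    ((hy.dist tendsto_const_nhds).pow n)
  have := le_of_tendsto hcont (Filter.eventually_atTop.mpr ⟨k, fun m hm => by
    rw [hdist]; exact h1 k m hm⟩)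
  rwa [hdist] at this

end

/-- L0-complete: sequences with `s (k+1) ≡ s k mod {w ≥ k}` converge. -/
theorem stmtWComplete : StmtWComplete := fun q _ F _ _ _ s hs => l0c_complete q F s hs

end Fermat.Agent.PT.L
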