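/-
PT-L piece L1c (helper57): the normal-basis filtration of a cyclic extension of local fields,
`stmtNormalLattice_of : StmtLattice → StmtNormalLattice`.
-/
import Fermat.Agent.PT.L.Plan3
import Fermat.Agent.PT.L.Ge
import Fermat.Agent.PT.L.Complete

set_option autoImplicit false
set_option linter.unusedSectionVars false

namespace Fermat.Agent.PT.L

namespace NL

open Finset

section

variable (q : ℕ) [Fact q.Prime] (F F' : Type) [Field F] [Field F'] [Algebra ℚ_[q] F]
  [FiniteDimensional ℚ_[q] F] [Algebra F F'] [Algebra ℚ_[q] F'] [IsScalarTower ℚ_[q] F F']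
  [FiniteDimensional F F'] [IsGalois F F']

/-- The normal basis. -/
noncomputable def nb : Module.Basis (F' ≃ₐ[F] F') F F' := IsGalois.normalBasis F F'

lemma nb_apply (τ : F' ≃ₐ[F] F') : nb F F' τ = τ (nb F F' 1) :=
  IsGalois.normalBasis_apply τ

lemma map_nb (σ τ : F' ≃ₐ[F] F') : σ (nb F F' τ) = nb F F' (σ * τ) := by
  rw [nb_apply F F' τ, nb_apply F F' (σ * τ), AlgEquiv.mul_apply]

/-- Coordinates of `σ x`. -/
lemma repr_map (σ τ : F' ≃ₐ[F] F') (x : F') :
    (nb F F').repr (σ x) τ = (nb F F').repr x (σ⁻¹ * τ) := by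
  classical
  have hx : σ x = ∑ ρ, ((nb F F').repr x ρ) • nb F F' (σ * ρ) := by
    conv_lhs => rw [← (nb F F').sum_repr x]
    rw [map_sum]
    refine Finset.sum_congr rfl (fun ρ _ => ?_)
    rw [map_smul, map_nb]
  rw [hx, map_sum, Finsupp.finsetSum_apply]
  simp_rw [map_smul, Module.Basis.repr_self, Finsupp.smul_apply, Finsupp.single_apply,
    smul_eq_mul, mul_ite, mul_one, mul_zero]
  rw [Finset.sum_eq_single (σ⁻¹ * τ)]
  · simp
  · intro ρ _ hρ
    rw [if_neg]
    intro h
    exact hρ (by rw [← h]; simp)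
  · intro h
    exact absurd (Finset.mem_univ _) h

/-- The lattice `q^j · (⊕_τ 𝓞_F τθ)`. -/
def lat (j : ℕ) : AddSubgroup F' where
  carrier := {x | ∀ τ, geW q ((j : ℤ) * Module.finrank ℚ_[q] F) ((nb F F').repr x τ)}
  zero_mem' := fun τ => by
    simp only [map_zero, Finsupp.coe_zero, Pi.zero_apply]
    exact geW_zero q _
  add_mem' := fun {x y} hx hy τ => by
    simp only [map_add, Finsupp.coe_add, Pi.add_apply]
    exact geW_add q (hx τ) (hy τ)
  neg_mem' := fun {x} hx τ => by
    simp only [map_neg, Finsupp.coe_neg, Pi.neg_apply]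
    exact geW_neg q (hx τ)

lemma mem_lat {j : ℕ} {x : F'} :
    x ∈ lat q F F' j ↔
      ∀ τ, geW q ((j : ℤ) * Module.finrank ℚ_[q] F) ((nb F F').repr x τ) := Iff.rfl

lemma lat_anti {i j : ℕ} (h : i ≤ j) : lat q F F' j ≤ lat q F F' i := by
  intro x hx τ
  refine geW_mono q ?_ (hx τ)
  have : (i : ℤ) ≤ j := by exact_mod_cast h
  exact mul_le_mul_of_nonneg_right this (by positivity)

lemma lat_stable (σ : F' ≃ₐ[F] F') {j : ℕ} {x : F'} (hx : x ∈ lat q F F' j) :
    σ x ∈ lat q F F' j := by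
  intro τ
  rw [repr_map]
  exact hx _

/-- `a • b τ ∈ lat j` if `w(a) ≥ j ν_F`. -/
lemma smul_nb_mem {j : ℕ} {a : F} (ha : geW q ((j : ℤ) * Module.finrank ℚ_[q] F) a)
    (τ : F' ≃ₐ[F] F') : a • nb F F' τ ∈ lat q F F' j := by
  classical
  intro ρ
  rw [map_smul, Module.Basis.repr_self, Finsupp.smul_apply, Finsupp.single_apply, smul_eq_mul]
  split_ifs
  · simpa using ha
  · simpa using geW_zero q _

/-- Coordinates of a product. -/
lemma repr_mul (x y : F') (κ : F' ≃ₐ[F] F') :
    (nb F F').repr (x * y) κ =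
      ∑ τ, ∑ ρ, (nb F F').repr x τ * (nb F F').repr y ρ *
        (nb F F').repr (nb F F' τ * nb F F' ρ) κ := by
  classical
  have hxy : x * y = ∑ τ, ∑ ρ, ((nb F F').repr x τ * (nb F F').repr y ρ) •
      (nb F F' τ * nb F F' ρ) := by
    conv_lhs => rw [← (nb F F').sum_repr x, ← (nb F F').sum_repr y]
    rw [Finset.sum_mul_sum]
    refine Finset.sum_congr rfl (fun τ _ => Finset.sum_congr rfl (fun ρ _ => ?_))
    rw [smul_mul_smul_comm]
  conv_lhs => rw [hxy]
  rw [map_sum, Finsupp.finsetSum_apply]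
  refine Finset.sum_congr rfl (fun τ _ => ?_)
  rw [map_sum, Finsupp.finsetSum_apply]
  refine Finset.sum_congr rfl (fun ρ _ => ?_)
  rw [map_smul, Finsupp.smul_apply, smul_eq_mul]

lemma nuF_pos : (0 : ℤ) < Module.finrank ℚ_[q] F := by
  exact_mod_cast (Module.finrank_pos : 0 < Module.finrank ℚ_[q] F)

/-- Multiplicativity of the lattice filtration, up to a constant. -/
lemma exists_mul_const : ∃ c : ℕ, ∀ (i j : ℕ) (x y : F'),
    x ∈ lat q F F' (i + c) → y ∈ lat q F F' (j + c) → x * y ∈ lat q F F' (i + j + c) := by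
  classical
  obtain ⟨c, hc⟩ := exists_geW_finite q
    (fun t : (F' ≃ₐ[F] F') × (F' ≃ₐ[F] F') × (F' ≃ₐ[F] F') =>
      (nb F F').repr (nb F F' t.1 * nb F F' t.2.1) t.2.2)
  refine ⟨c, fun i j x y hx hy κ => ?_⟩
  rw [repr_mul]
  refine geW_sum q _ _ _ (fun τ _ => geW_sum q _ _ _ (fun ρ _ => ?_))
  have h1 := geW_mul q (geW_mul q (hx τ) (hy ρ)) (hc (τ, ρ, κ))
  refine geW_mono q ?_ h1
  have hν := nuF_pos q F
  push_cast
  nlinarith

lemma geW_algebraMap {k : ℤ} {a : F} (ha : geW q k a) :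
    geW q ((Module.finrank F F' : ℤ) * k) (algebraMap F F' a) := by
  rcases ha with ha | ha
  · exact Or.inl (by simp [ha])
  · refine Or.inr ?_
    rw [wv_algebraMap_tower]
    exact mul_le_mul_of_nonneg_left ha (by positivity)

/-- Upper sandwich: `lat j ⊂ {w ≥ j ν' - t}`. -/
lemma exists_upper : ∃ t : ℕ, ∀ (j : ℕ) (x : F'), x ∈ lat q F F' j →
    geW q ((j : ℤ) * Module.finrank ℚ_[q] F' - t) x := by
  classical
  have := tower_finiteDimensional q F (F' := F')
  obtain ⟨t, ht⟩ := exists_geW_finite q (fun τ : F' ≃ₐ[F] F' => nb F F' τ)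
  refine ⟨t, fun j x hx => ?_⟩
  rw [← (nb F F').sum_repr x]
  refine geW_sum q _ _ _ (fun τ _ => ?_)
  rw [Algebra.smul_def]
  have h1 := geW_mul q (geW_algebraMap q F F' (hx τ)) (ht τ)
  refine geW_mono q ?_ h1
  rw [finrank_tower_eq q (F := F) (F' := F')]
  push_cast
  nlinarith

/-- Lower sandwich from the lattice property: `{w ≥ (K + j) ν'} ⊂ lat j`. -/
lemma exists_lower (hL : StmtLattice) : ∃ K : ℕ, ∀ (j : ℕ) (x : F'),
    geW q (((K + j : ℕ) : ℤ) * Module.finrank ℚ_[q] F') x → x ∈ lat q F F' j := by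
  classical
  have := tower_finiteDimensional q F (F' := F')
  obtain ⟨K, hK⟩ := hL q F F' (F' ≃ₐ[F] F') (nb F F')
  refine ⟨K, fun j x hx τ => ?_⟩
  by_cases hx0 : x = 0
  · simp only [hx0, map_zero, Finsupp.coe_zero, Pi.zero_apply]
    exact geW_zero q _
  rcases hx with hx | hx
  · exact absurd hx hx0
  set x' : F' := x / qEl q F' ^ (K + j) with hx'
  have hq0 : qEl q F' ^ (K + j) ≠ 0 := pow_ne_zero _ (qEl_ne_zero q)
  have hint : IsInt q x' := by
    refine Or.inr ?_
    rw [hx', l0b_wv_div q hx0 hq0, wv_qEl_pow]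
    omega
  have hxx : x = (qEl q F ^ (K + j)) • x' := by
    rw [Algebra.smul_def, map_pow, qEl_tower, hx', mul_div_cancel₀ _ hq0]
  have h1 := hK x' hint τ
  rw [hxx, map_smul, Finsupp.smul_apply, smul_eq_mul, add_comm K j, pow_add, mul_assoc]
  have h2 := geW_qEl_pow_mul q j ((isInt_iff_geW q _).1 h1)
  simpa [qEl] using h2

/-! ### The cyclic structure -/

variable {F F'} (σ : F' ≃ₐ[F] F') (hσ : ∀ τ : F' ≃ₐ[F] F', τ ∈ Subgroup.zpowers σ)

include hσ in
lemma orderOf_gen : orderOf σ = Module.finrank F F' := by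
  rw [orderOf_eq_card_of_forall_mem_zpowers hσ, IsGalois.card_aut_eq_finrank]

include hσ in
lemma pow_finrank : σ ^ Module.finrank F F' = 1 := by
  rw [← orderOf_gen σ hσ]
  exact pow_orderOf_eq_one σ

include hσ in
lemma exists_pow_eq (τ : F' ≃ₐ[F] F') : ∃ i : ℕ, σ ^ i = τ := by
  have h := hσ τ
  have hfin : IsOfFinOrder σ := isOfFinOrder_of_finite σ
  rw [← mem_powers_iff_mem_zpowers] at h
  exact Submonoid.mem_powers_iff _ _ |>.1 h

include hσ in
/-- Reindexing sums over the group by powers of the generator. -/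
lemma sum_pow_eq {M : Type*} [AddCommMonoid M] (g : (F' ≃ₐ[F] F') → M) :
    ∑ i ∈ Finset.range (Module.finrank F F'), g (σ ^ i) = ∑ ρ, g ρ := by
  classical
  have hinj : Set.InjOn (fun i : ℕ => σ ^ i) (Finset.range (Module.finrank F F')) := by
    intro a ha b hb hab
    have := pow_injOn_Iio_orderOf (x := σ)
    rw [orderOf_gen σ hσ] at this
    exact this (by simpa using ha) (by simpa using hb) hab
  rw [← Finset.sum_image (f := g) hinj]
  refine Finset.sum_congr ?_ (fun _ _ => rfl)
  ext τ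
  simp only [Finset.mem_image, Finset.mem_range, Finset.mem_univ, iff_true]
  obtain ⟨i, hi⟩ := exists_pow_eq σ hσ τ
  have hn : 0 < Module.finrank F F' := Module.finrank_pos
  refine ⟨i % Module.finrank F F', Nat.mod_lt _ hn, ?_⟩
  rw [← hi]
  conv_rhs => rw [← Nat.mod_add_div i (Module.finrank F F')]
  rw [pow_add, pow_mul, pow_finrank σ hσ, one_pow, mul_one]

lemma iter_eq (i : ℕ) (z : F') : (⇑(σ : F' ≃+* F'))^[i] z = (σ ^ i) z := by
  rw [AlgEquiv.coe_pow]
  rfl

include hσ in
/-- All coordinates of a trace are equal to the sum of the coordinates. -/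
lemma repr_trace (z : F') (τ : F' ≃ₐ[F] F') :
    (nb F F').repr (∑ i ∈ Finset.range (Module.finrank F F'), (⇑(σ : F' ≃+* F'))^[i] z) τ =
      ∑ ρ, (nb F F').repr z ρ := by
  classical
  rw [map_sum, Finsupp.finsetSum_apply]
  simp_rw [iter_eq, repr_map]
  rw [sum_pow_eq σ hσ (fun ρ => (nb F F').repr z (ρ⁻¹ * τ))]
  exact Fintype.sum_equiv ((Equiv.inv _).trans (Equiv.mulRight τ)) _ _ (fun ρ => rfl)

include hσ in
/-- `h0` for the lattice filtration. -/
lemma lat_h0 (J : ℕ) (x : F') (hx : x ∈ lat q F F' J)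
    (hfix : σ x - x ∈ lat q F F' (J + 1)) :
    ∃ z ∈ lat q F F' J,
      x - ∑ i ∈ Finset.range (Module.finrank F F'), (⇑(σ : F' ≃+* F'))^[i] z ∈
        lat q F F' (J + 1) := by
  classical
  have hstep : ∀ i : ℕ, geW q (((J + 1 : ℕ) : ℤ) * Module.finrank ℚ_[q] F)
      ((nb F F').repr x (σ ^ i) - (nb F F').repr x 1) := by
    intro i
    induction i with
    | zero => simpa using geW_zero q _
    | succ i ih =>
      have h1 := hfix (σ ^ (i + 1))
      rw [map_sub, Finsupp.sub_apply, repr_map] at h1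
      have h2 : σ⁻¹ * σ ^ (i + 1) = σ ^ i := by
        rw [pow_succ', inv_mul_cancel_left]
      rw [h2] at h1
      have h3 := geW_sub q ih h1
      have h4 : (nb F F').repr x (σ ^ i) - (nb F F').repr x 1 -
          ((nb F F').repr x (σ ^ i) - (nb F F').repr x (σ ^ (i + 1))) =
          (nb F F').repr x (σ ^ (i + 1)) - (nb F F').repr x 1 := by ring
      rwa [h4] at h3
  refine ⟨(nb F F').repr x 1 • nb F F' 1, smul_nb_mem q F F' (hx 1) 1, fun τ => ?_⟩
  rw [map_sub, Finsupp.sub_apply, repr_trace σ hσ]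
  have h5 : ∑ ρ, (nb F F').repr ((nb F F').repr x 1 • nb F F' 1) ρ = (nb F F').repr x 1 := by
    simp_rw [map_smul, Module.Basis.repr_self, Finsupp.smul_apply, Finsupp.single_apply,
      smul_eq_mul, mul_ite, mul_one, mul_zero]
    simp
  rw [h5]
  obtain ⟨i, hi⟩ := exists_pow_eq σ hσ τ
  rw [← hi]
  exact hstep i

omit [Fact q.Prime] [Algebra ℚ_[q] F] [FiniteDimensional ℚ_[q] F] [Algebra ℚ_[q] F']
  [IsScalarTower ℚ_[q] F F'] [FiniteDimensional F F'] [IsGalois F F'] in
/-- Summation by parts. -/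
lemma telescope (a : ℕ → F) (b : ℕ → F') (N : ℕ) :
    (∑ i ∈ Finset.range N, (-∑ l ∈ Finset.range (i + 1), a l) • b (i + 1)) -
        ∑ i ∈ Finset.range N, (-∑ l ∈ Finset.range (i + 1), a l) • b i =
      ∑ i ∈ Finset.range N, a i • b i - (∑ l ∈ Finset.range N, a l) • b N := by
  induction N with
  | zero => simp
  | succ N ih =>
    rw [Finset.sum_range_succ, Finset.sum_range_succ (fun i => (-∑ l ∈ Finset.range (i + 1), a l) • b i),
      Finset.sum_range_succ (fun i => a i • b i)]
    have h1 : ∑ l ∈ Finset.range (N + 1), a l = ∑ l ∈ Finset.range N, a l + a N :=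
      Finset.sum_range_succ _ _
    rw [h1]
    have h2 := ih
    rw [sub_eq_iff_eq_add] at h2
    rw [h2]
    module

include hσ in
/-- `h1` for the lattice filtration. -/
lemma lat_h1 (J : ℕ) (x : F') (hx : x ∈ lat q F F' J)
    (htr : ∑ i ∈ Finset.range (Module.finrank F F'), (⇑(σ : F' ≃+* F'))^[i] x ∈
      lat q F F' (J + 1)) :
    ∃ z ∈ lat q F F' J, x - (σ z - z) ∈ lat q F F' (J + 1) := by
  classical
  have hs : geW q (((J + 1 : ℕ) : ℤ) * Module.finrank ℚ_[q] F)
      (∑ i ∈ Finset.range (Module.finrank F F'), (nb F F').repr x (σ ^ i)) := by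
    have h1 := htr 1
    rw [repr_trace σ hσ, ← sum_pow_eq σ hσ (fun ρ => (nb F F').repr x ρ)] at h1
    exact h1
  have hxsum : ∑ i ∈ Finset.range (Module.finrank F F'),
      (nb F F').repr x (σ ^ i) • nb F F' (σ ^ i) = x := by
    rw [sum_pow_eq σ hσ (fun ρ => (nb F F').repr x ρ • nb F F' ρ)]
    exact (nb F F').sum_repr x
  have hβmem : ∀ i : ℕ, geW q ((J : ℤ) * Module.finrank ℚ_[q] F)
      (-∑ l ∈ Finset.range (i + 1), (nb F F').repr x (σ ^ l)) := fun i =>
    geW_neg q (geW_sum q _ _ _ (fun l _ => hx (σ ^ l)))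
  refine ⟨∑ i ∈ Finset.range (Module.finrank F F'),
    (-∑ l ∈ Finset.range (i + 1), (nb F F').repr x (σ ^ l)) • nb F F' (σ ^ i),
    AddSubgroup.sum_mem _ (fun i _ => smul_nb_mem q F F' (hβmem i) _), ?_⟩
  have hσz : σ (∑ i ∈ Finset.range (Module.finrank F F'),
      (-∑ l ∈ Finset.range (i + 1), (nb F F').repr x (σ ^ l)) • nb F F' (σ ^ i)) =
      ∑ i ∈ Finset.range (Module.finrank F F'),
        (-∑ l ∈ Finset.range (i + 1), (nb F F').repr x (σ ^ l)) • nb F F' (σ ^ (i + 1)) := by
    rw [map_sum]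
    refine Finset.sum_congr rfl (fun i _ => ?_)
    rw [map_smul, map_nb, pow_succ']
  have key := telescope (fun i => (nb F F').repr x (σ ^ i)) (fun i => nb F F' (σ ^ i))
    (Module.finrank F F')
  rw [hσz, key, hxsum, pow_finrank σ hσ, sub_sub_cancel]
  exact smul_nb_mem q F F' hs 1

end

end NL

open NL in
/-- **L1c**: the normal-basis filtration of a cyclic extension of local fields. -/
theorem stmtNormalLattice_of (hL : StmtLattice) : StmtNormalLattice := by
  intro q _ F F' _ _ _ _ _ _ _ _ _ σ hσ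
  classical
  have hfd := tower_finiteDimensional q F (F' := F')
  obtain ⟨c, hc⟩ := exists_mul_const q F F'
  obtain ⟨t, ht⟩ := exists_upper q F F'
  obtain ⟨K, hK⟩ := exists_lower q F F' hL
  have hν : (1 : ℤ) ≤ Module.finrank ℚ_[q] F' := by
    exact_mod_cast (Module.finrank_pos : 0 < Module.finrank ℚ_[q] F')
  -- the upper bound in the form used below
  have hup : ∀ (j : ℕ) (x : F'), x ∈ lat q F F' (j + (c + t)) → geW q (j : ℤ) x := by
    intro j x hx
    refine geW_mono q ?_ (ht _ x hx)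
    push_cast
    nlinarith
  refine ⟨{ Λ := fun j => lat q F F' (j + (c + t))
            anti := fun j => lat_anti q F F' (by omega)
            stable := fun j x hx => lat_stable q F F' σ hx
            mul := ?_
            sep := ?_
            complete := ?_
            h0 := fun j x hx hfix => by
              have e : j + 1 + (c + t) = j + (c + t) + 1 := by omega
              rw [e] at hfix ⊢
              exact lat_h0 q σ hσ _ x hx hfix
            h1 := fun j x hx htr => by
              have e : j + 1 + (c + t) = j + (c + t) + 1 := by omega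
              rw [e] at htr ⊢
              exact lat_h1 q σ hσ _ x hx htr }, ?_, ?_⟩
  · -- mul
    intro i j x y hx hy
    have h1 := hc (i + t) (j + t) x y (by rwa [show i + t + c = i + (c + t) by omega])
      (by rwa [show j + t + c = j + (c + t) by omega])
    exact lat_anti q F F' (by omega) h1
  · -- sep
    intro x hx
    exact geW_eq_zero q (fun k => hup k x (hx k))
  · -- complete
    intro s hs
    have hclose : ∀ k : ℕ, Close q (k : ℤ) (s (k + 1)) (s k) := by
      intro k
      rw [close_iff_geW]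
      exact geW_mono q (by push_cast; omega) (hup (k + 1) _ (hs k))
    obtain ⟨y, hy⟩ := stmtWComplete q F' s hclose
    refine ⟨y, fun k => ?_⟩
    -- telescoping
    have htel : ∀ m : ℕ, s (k + m) - s k ∈ lat q F F' (k + 1 + (c + t)) := by
      intro m
      induction m with
      | zero => simp
      | succ m ih =>
        have h1 := hs (k + m)
        have h2 : s (k + (m + 1)) - s k = (s (k + m + 1) - s (k + m)) + (s (k + m) - s k) := by
          rw [← add_assoc]; ring
        rw [h2]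
        exact add_mem (lat_anti q F F' (by omega) h1) ih
    set m : ℕ := (K + (k + 1 + (c + t))) * Module.finrank ℚ_[q] F' with hm
    have h3 : geW q ((k + m : ℕ) : ℤ) (y - s (k + m)) := (close_iff_geW q _ _ _).1 (hy (k + m))
    have h4 : y - s (k + m) ∈ lat q F F' (k + 1 + (c + t)) := by
      refine hK _ _ (geW_mono q ?_ h3)
      rw [hm]
      push_cast
      nlinarith
    have h5 : y - s k = (y - s (k + m)) + (s (k + m) - s k) := by ring
    rw [h5]
    exact add_mem h4 (htel m)
  · -- Λ 1 ⊂ {w > 0}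
    intro x hx
    rcases hup 1 x hx with h | h
    · exact Or.inl h
    · exact Or.inr (by omega)
  · -- {w ≥ k} ⊂ Λ 1
    refine ⟨(K + (1 + (c + t))) * Module.finrank ℚ_[q] F', fun x _ hx => ?_⟩
    exact hK _ _ (Or.inr (by push_cast at hx ⊢; exact hx))

end Fermat.Agent.PT.L
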