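/-
PT-L piece L1d (helper57): wiring of L1,
`stmtUnitsTrivial : StmtUnitsTrivial` from `stmtCohTrivial` (L1a), `stmtLattice` (L1b),
`stmtNormalLattice_of` (L1c) and `stmtWFinite` (L0d).
-/
import Fermat.Agent.PT.L.NormalLattice
import Fermat.Agent.PT.L.CohTrivial
import Fermat.Agent.PT.L.Lattice
import Fermat.Agent.PT.L.FiniteQuotFinal

set_option autoImplicit false
set_option linter.unusedSectionVars false

namespace Fermat.Agent.PT.L

namespace NL

section

variable {F F' : Type} [Field F] [Field F'] [Algebra F F'] [FiniteDimensional F F']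
  [IsGalois F F'] (σ : F' ≃ₐ[F] F') (hσ : ∀ τ : F' ≃ₐ[F] F', τ ∈ Subgroup.zpowers σ)

include hσ in
/-- Reindexing products over the group by powers of the generator. -/
lemma prod_pow_eq {M : Type*} [CommMonoid M] (g : (F' ≃ₐ[F] F') → M) :
    ∏ i ∈ Finset.range (Module.finrank F F'), g (σ ^ i) = ∏ ρ, g ρ := by
  classical
  have hinj : Set.InjOn (fun i : ℕ => σ ^ i) (Finset.range (Module.finrank F F')) := by
    intro a ha b hb hab
    have := pow_injOn_Iio_orderOf (x := σ)
    rw [orderOf_gen σ hσ] at this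
    exact this (by simpa using ha) (by simpa using hb) hab
  rw [← Finset.prod_image (f := g) hinj]
  refine Finset.prod_congr ?_ (fun _ _ => rfl)
  ext τ
  simp only [Finset.mem_image, Finset.mem_range, Finset.mem_univ, iff_true]
  obtain ⟨i, hi⟩ := exists_pow_eq σ hσ τ
  have hn : 0 < Module.finrank F F' := Module.finrank_pos
  refine ⟨i % Module.finrank F F', Nat.mod_lt _ hn, ?_⟩
  rw [← hi]
  conv_rhs => rw [← Nat.mod_add_div i (Module.finrank F F')]
  rw [pow_add, pow_mul, pow_finrank σ hσ, one_pow, mul_one]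

include hσ in
/-- The norm is the product over the iterates of the generator. -/
lemma norm_eq_prod_iter (y : F') :
    algebraMap F F' (Algebra.norm F y) =
      ∏ i ∈ Finset.range (Module.finrank F F'), (⇑(σ : F' ≃+* F'))^[i] y := by
  rw [Algebra.norm_eq_prod_automorphisms, ← prod_pow_eq σ hσ (fun ρ => ρ y)]
  exact Finset.prod_congr rfl (fun i _ => (iter_eq σ i y).symm)

end

end NL

open NL in
/-- **L1**: the units of a cyclic extension of local fields contain a `σ`-stable subgroup of finite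
index which is cohomologically trivial. -/
theorem stmtUnitsTrivial : StmtUnitsTrivial := by
  intro q _ F F' _ _ _ _ _ _ _ _ _ σ hσ
  classical
  have hfd := tower_finiteDimensional q F (F' := F')
  obtain ⟨Φ, hpos, k, hk⟩ := stmtNormalLattice_of stmtLattice q F F' σ hσ
  have hn : 0 < Module.finrank F F' := Module.finrank_pos
  have hiter : ∀ x : F', (⇑(σ : F' ≃+* F'))^[Module.finrank F F'] x = x := by
    intro x
    rw [iter_eq, pow_finrank σ hσ]
    rfl
  obtain ⟨hgrp, hfix, hnorm⟩ := stmtCohTrivial F' (σ : F' ≃+* F') _ Φ hn hiter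
  have hΛ1 : ∀ x : F', x ∈ Φ.Λ 1 → geW q 1 x := by
    intro x hx
    rcases hpos x hx with h | h
    · exact Or.inl h
    · exact Or.inr (by omega)
  let V : Subgroup F'ˣ :=
    { carrier := {u | (u : F') - 1 ∈ Φ.Λ 1}
      one_mem' := by
        show ((1 : F'ˣ) : F') - 1 ∈ Φ.Λ 1
        simp
      mul_mem' := by
        intro u v hu hv
        show ((u * v : F'ˣ) : F') - 1 ∈ Φ.Λ 1
        have h1 : ((u * v : F'ˣ) : F') - 1 =
            ((u : F') - 1) * ((v : F') - 1) + ((u : F') - 1) + ((v : F') - 1) := by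
          push_cast; ring
        rw [h1]
        exact add_mem (add_mem (Φ.anti 1 (Φ.mul 1 1 _ _ hu hv)) hu) hv
      inv_mem' := by
        intro u hu
        show ((u⁻¹ : F'ˣ) : F') - 1 ∈ Φ.Λ 1
        have := (hgrp (u : F') hu).2
        simpa using this }
  have hV : ∀ u : F'ˣ, u ∈ V ↔ (u : F') - 1 ∈ Φ.Λ 1 := fun u => Iff.rfl
  refine ⟨V, ?_, ?_, ?_, ?_, ?_⟩
  · -- units
    intro u hu
    have h1 := (wv_one_add q (hΛ1 _ ((hV u).1 hu))).2
    rwa [add_sub_cancel] at h1
  · -- stable
    intro u hu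
    rw [hV]
    have h1 := Φ.stable 1 _ ((hV u).1 hu)
    have h2 : ((Units.map (σ : F' →* F') u : F'ˣ) : F') - 1 = (σ : F' ≃+* F') ((u : F') - 1) := by
      simp
    rw [h2]
    exact h1
  · -- finite index
    obtain ⟨R₀, hR₀⟩ := stmtWFinite q F' (max k 1)
    refine ⟨R₀.image (fun r => if h : r = 0 then (1 : F'ˣ) else Units.mk0 r h), fun u hu => ?_⟩
    obtain ⟨r, hr, hcl⟩ := hR₀ (u : F') (Or.inr (by omega))
    have hu0 : (u : F') ≠ 0 := u.ne_zero
    have hgeW : geW q ((max k 1 : ℕ) : ℤ) ((u : F') - r) := (close_iff_geW q _ _ _).1 hcl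
    have hr0 : r ≠ 0 := by
      intro h
      rw [h, sub_zero] at hgeW
      rcases hgeW with h1 | h1
      · exact hu0 h1
      · have : (1 : ℤ) ≤ ((max k 1 : ℕ) : ℤ) := by exact_mod_cast le_max_right k 1
        omega
    have hwr : wv q r = 0 := by
      have h1 : geW q 1 (((u : F') - r) / -(u : F')) := by
        rcases hgeW with h1 | h1
        · exact Or.inl (by rw [h1, zero_div])
        · refine Or.inr ?_
          have h2 : (u : F') - r ≠ 0 := by
            intro h
            rw [h] at h1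
            have h0 : wv q (0 : F') = 0 := by unfold wv; simp
            have : (1 : ℤ) ≤ ((max k 1 : ℕ) : ℤ) := by exact_mod_cast le_max_right k 1
            omega
          rw [l0b_wv_div q h2 (neg_ne_zero.2 hu0), geW_wv_neg, hu]
          have : (1 : ℤ) ≤ ((max k 1 : ℕ) : ℤ) := by exact_mod_cast le_max_right k 1
          omega
      have h3 := (wv_one_add q h1).2
      have h4 : 1 + ((u : F') - r) / -(u : F') = r / u := by
        field_simp
        ring
      rw [h4, l0b_wv_div q hr0 hu0, hu] at h3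
      omega
    refine ⟨Units.mk0 r hr0, Finset.mem_image.2 ⟨r, hr, by rw [dif_neg hr0]⟩, ?_⟩
    rw [hV]
    have h5 : ((u / Units.mk0 r hr0 : F'ˣ) : F') - 1 = ((u : F') - r) / r := by
      rw [Units.val_div_eq_div_val, Units.val_mk0]
      field_simp
    rw [h5]
    by_cases h6 : (u : F') - r = 0
    · rw [h6, zero_div]
      exact zero_mem _
    · refine hk _ (div_ne_zero h6 hr0) ?_
      rw [l0b_wv_div q h6 hr0, hwr, sub_zero]
      rcases hgeW with h1 | h1
      · exact absurd h1 h6
      · have : (k : ℤ) ≤ ((max k 1 : ℕ) : ℤ) := by exact_mod_cast le_max_left k 1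
        omega
  · -- fixed ⇒ norm
    intro u hu hfixu
    obtain ⟨y, hy, hprod⟩ := hfix (u : F') ((hV u).1 hu) hfixu
    have hy0 : y ≠ 0 := (hgrp y hy).1
    refine ⟨Units.mk0 y hy0, (hV _).2 (by simpa using hy), ?_⟩
    rw [Units.val_mk0, norm_eq_prod_iter σ hσ, hprod]
  · -- norm one ⇒ σ y / y
    intro u hu hN
    have h1 : ∏ i ∈ Finset.range (Module.finrank F F'), (⇑(σ : F' ≃+* F'))^[i] (u : F') = 1 := by
      rw [← norm_eq_prod_iter σ hσ, hN, map_one]
    obtain ⟨y, hy, hyu⟩ := hnorm (u : F') ((hV u).1 hu) h1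
    have hy0 : y ≠ 0 := (hgrp y hy).1
    exact ⟨Units.mk0 y hy0, (hV _).2 (by simpa using hy), by simpa using hyu⟩

end Fermat.Agent.PT.L
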