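/-
PT-L: UNCONDITIONAL forms of (Lc) (helper57, wiring):
`normIndex : StmtNormIndex` (L2) and `unitNorm : StmtUnitNorm` (L3b), and `unitsTrivial`.
-/
import Fermat.Agent.PT.L.UnitsTrivial
import Fermat.Agent.PT.L.NormIndexFinal
import Fermat.Agent.PT.L.UnitNorm

set_option autoImplicit false

namespace Fermat.Agent.PT.L

/-- **L2 = (Lc), first half**, unconditional: `[Fˣ : N F'ˣ] = [F' : F]` for cyclic `F'/F`. -/
theorem normIndex : StmtNormIndex := stmtNormIndex_of_units stmtUnitsTrivial

/-- **L3b = (Lc), second half**, unconditional: units are norms of units in cyclic unramified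
extensions. -/
theorem unitNorm : StmtUnitNorm := stmtUnitNorm normIndex

end Fermat.Agent.PT.L
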