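/-
PT-L piece U (helper65): interface for the split of `StmtCompositumNorm`.

`StmtRes` = "local Galois theory of the residue field": for a finite Galois extension `L/K` of
local fields there is a CYCLIC group `C` (= `Gal(k_L/k_K)`) and a surjection
`ρ : Gal(L/K) → C` whose kernel is the inertia group
`{σ | σ x ≡ x mod {w ≥ 1} for all integral x}`, and `|C| · a_K = a_L`, where `a_K`, `a_L` are the
values of `wv` at uniformisers (`|C| = f(L/K)`, the residue degree).

Split:  U1 (helper65)  `stmtRes : StmtRes`                         in `PT/L/Res.lean`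
        U2             `stmtCompositumNorm_of_res : StmtRes → StmtCompositumNorm`
                                                                    in `PT/L/CompositumNorm.lean`
-/
import Fermat.Agent.PT.L.Plan

set_option autoImplicit false

namespace Fermat.Agent.PT.L

/-- `π` is a uniformiser: `wv π` is the positive generator of the value group. -/
def IsUnif (q : ℕ) [Fact q.Prime] {F : Type} [Field F] [Algebra ℚ_[q] F] (π : F) : Prop :=
  π ≠ 0 ∧ 0 < wv q π ∧ ∀ x : F, x ≠ 0 → wv q π ∣ wv q x

/-- `σ` is inertial: it acts trivially on the residue field. -/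
def IsInertial (q : ℕ) [Fact q.Prime] {L : Type} [Field L] [Algebra ℚ_[q] L] (σ : L → L) :
    Prop :=
  ∀ x : L, IsInt q x → Close q 1 (σ x) x

/-- U1: the residue-field quotient of the Galois group of a Galois extension of local fields. -/
def StmtRes : Prop :=
  ∀ (q : ℕ) [Fact q.Prime] (K L : Type) [Field K] [Field L] [Algebra ℚ_[q] K]
    [FiniteDimensional ℚ_[q] K] [Algebra K L] [Algebra ℚ_[q] L] [IsScalarTower ℚ_[q] K L]
    [FiniteDimensional K L] [IsGalois K L],
    ∃ (C : Type) (_ : Group C) (_ : IsCyclic C) (ρ : (L ≃ₐ[K] L) →* C),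
      Function.Surjective ρ ∧
      (∀ σ : L ≃ₐ[K] L, ρ σ = 1 ↔ IsInertial q σ) ∧
      ∀ (πK : K) (πL : L), IsUnif q πK → IsUnif q πL →
        (Nat.card C : ℤ) * wv q πK = wv q πL

end Fermat.Agent.PT.L
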