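/-
PT-L piece U2 (helper67): `stmtCompositumNorm_of_res : StmtRes → StmtCompositumNorm`.

Paper proof (helper65): `n = [F' : F] = [En : F]`, `d = [E : F']`, `a_X = wv` at a uniformiser.
1. `E/F` is Galois (compositum of Galois extensions), every `σ ∈ Gal(E/F)` has `σ ^ n = 1`.
2. `En/F` unramified ⇒ `a_En = n a_F` ⇒ (`StmtRes`) inertial elements of `Gal(En/F)` are trivial.
3. an inertial `σ ∈ Gal(E/F')` restricts to an inertial element of `Gal(En/F)`, so `σ = 1`;
   hence (`StmtRes`) `E/F'` is unramified and cyclic: `a_E = d a_F'`.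
4. (`StmtRes` for `E/F`) `a_E = |C| a_F` with `|C| ∣ n`.
5. for `x ∈ Fˣ`: `wv_F' x = n wv_F x ∈ a_E ℤ = d a_F' ℤ`; divide by a power of the norm of a
   uniformiser of `F'` and use `unitNorm`.
-/
import Fermat.Agent.PT.L.PlanU
import Fermat.Agent.PT.L.CyclicFinal
import Fermat.Agent.PT.L.Unif

set_option autoImplicit false

namespace Fermat.Agent.PT.L

open Module

section tower

variable (q : ℕ) [Fact q.Prime] {K L : Type} [Field K] [Field L] [Algebra ℚ_[q] K]
  [FiniteDimensional ℚ_[q] K] [Algebra K L] [Algebra ℚ_[q] L] [IsScalarTower ℚ_[q] K L]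
  [FiniteDimensional K L]

/-- In an unramified extension the value of a uniformiser is multiplied by the degree. -/
lemma u2_unif_of_unram (hu : IsUnram q K L) {πK : K} {πL : L} (hK : IsUnif q πK)
    (hL : IsUnif q πL) : wv q πL = finrank K L * wv q πK := by
  have : FiniteDimensional ℚ_[q] L := FiniteDimensional.trans ℚ_[q] K L
  obtain ⟨hK0, hKpos, hKdvd⟩ := hK
  obtain ⟨hL0, hLpos, hLdvd⟩ := hL
  have hn : (0 : ℤ) < finrank K L := by exact_mod_cast (Module.finrank_pos : 0 < finrank K L)
  apply Int.dvd_antisymm hLpos.le (mul_pos hn hKpos).le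
  · have := hLdvd (algebraMap K L πK) (by simpa using hK0)
    rwa [l3b_wv_algebraMap] at this
  · obtain ⟨x, hx0, hx⟩ := hu πL hL0
    rw [← hx, l3b_wv_algebraMap]
    exact mul_dvd_mul_left _ (hKdvd x hx0)

/-- Conversely, if the value of a uniformiser is multiplied by the degree, the extension is
unramified. -/
lemma u2_unram_of_unif {πK : K} {πL : L} (hK : IsUnif q πK) (hL : IsUnif q πL)
    (h : wv q πL = finrank K L * wv q πK) : IsUnram q K L := by
  have : FiniteDimensional ℚ_[q] L := FiniteDimensional.trans ℚ_[q] K L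
  intro y hy
  obtain ⟨k, hk⟩ := hL.2.2 y hy
  refine ⟨πK ^ k, zpow_ne_zero _ hK.1, ?_⟩
  rw [l3b_wv_algebraMap, l0b_wv_zpow, hk, h]
  ring

/-- The restriction of an inertial map is inertial. -/
lemma u2_inertial_restrict {σ : L → L} {τ : K → K}
    (hστ : ∀ z, algebraMap K L (τ z) = σ (algebraMap K L z)) (hσ : IsInertial q σ) :
    IsInertial q τ := by
  have : FiniteDimensional ℚ_[q] L := FiniteDimensional.trans ℚ_[q] K L
  intro z hz
  have hn : (0 : ℤ) < finrank K L := by exact_mod_cast (Module.finrank_pos : 0 < finrank K L)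
  have hz' : IsInt q (algebraMap K L z) := by
    rcases hz with rfl | hz
    · left; simp
    · right; rw [l3b_wv_algebraMap]; positivity
  rcases hσ _ hz' with h | h
  · left; apply (algebraMap K L).injective; rw [hστ, h]
  · right
    rw [← hστ, ← map_sub, l3b_wv_algebraMap] at h
    by_contra hcon
    have h0 : wv q (τ z - z) ≤ 0 := by omega
    nlinarith

section galois

variable [IsGalois K L]

/-- In an unramified Galois extension the inertial automorphisms are trivial. -/
lemma u2_inertial_eq_one_of_unram (hR : StmtRes) (hu : IsUnram q K L) (σ : L ≃ₐ[K] L)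
    (hσ : IsInertial q σ) : σ = 1 := by
  have : FiniteDimensional ℚ_[q] L := FiniteDimensional.trans ℚ_[q] K L
  obtain ⟨C, _, _, ρ, hsurj, hker, hcard⟩ := hR q K L
  obtain ⟨πK, hπK⟩ := stmtWUnif q K
  obtain ⟨πL, hπL⟩ := stmtWUnif q L
  have h1 := hcard πK πL hπK hπL
  have h2 := u2_unif_of_unram q hu hπK hπL
  have h3 : (Nat.card C : ℤ) = finrank K L :=
    mul_right_cancel₀ hπK.2.1.ne' (h1.trans h2)
  have h4 : Nat.card (L ≃ₐ[K] L) = Nat.card C := by
    rw [IsGalois.card_aut_eq_finrank]; exact_mod_cast h3.symm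
  have hbij := hsurj.bijective_of_nat_card_le h4.le
  apply hbij.1
  rw [map_one]; exact (hker σ).2 hσ

/-- If the inertial automorphisms are trivial, the extension is unramified and cyclic. -/
lemma u2_unram_of_inertial (hR : StmtRes)
    (h : ∀ σ : L ≃ₐ[K] L, IsInertial q σ → σ = 1) :
    IsUnram q K L ∧ IsCyclic (L ≃ₐ[K] L) := by
  have : FiniteDimensional ℚ_[q] L := FiniteDimensional.trans ℚ_[q] K L
  obtain ⟨C, _, _, ρ, hsurj, hker, hcard⟩ := hR q K L
  have hinj : Function.Injective ρ :=
    (injective_iff_map_eq_one ρ).2 fun σ hσ => h σ ((hker σ).1 hσ)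
  obtain ⟨πK, hπK⟩ := stmtWUnif q K
  obtain ⟨πL, hπL⟩ := stmtWUnif q L
  have hc : Nat.card C = finrank K L := by
    rw [← IsGalois.card_aut_eq_finrank K L]
    exact (Nat.card_congr (Equiv.ofBijective ρ ⟨hinj, hsurj⟩)).symm
  refine ⟨u2_unram_of_unif q hπK hπL ?_, isCyclic_of_injective ρ hinj⟩
  rw [← hcard πK πL hπK hπL, hc]

end galois

end tower

section compositum

variable {F F' En E : Type} [Field F] [Field F'] [Field En] [Field E]
  [Algebra F F'] [Algebra F En] [Algebra F E] [Algebra F' E] [Algebra En E]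
  [IsScalarTower F F' E] [IsScalarTower F En E]

/-- An automorphism of the compositum which fixes both fields is trivial. -/
lemma u2_eq_one_of_fix
    (htop : (IsScalarTower.toAlgHom F F' E).fieldRange ⊔
      (IsScalarTower.toAlgHom F En E).fieldRange = ⊤)
    (τ : E ≃ₐ[F] E) (h1 : ∀ z : F', τ (algebraMap F' E z) = algebraMap F' E z)
    (h2 : ∀ z : En, τ (algebraMap En E z) = algebraMap En E z) : τ = 1 := by
  let K : IntermediateField F E :=
    { carrier := {x | τ x = x}
      mul_mem' := fun {a b} ha hb => by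
        simp only [Set.mem_ofPred_eq] at ha hb ⊢; rw [map_mul, ha, hb]
      one_mem' := map_one τ
      add_mem' := fun {a b} ha hb => by
        simp only [Set.mem_ofPred_eq] at ha hb ⊢; rw [map_add, ha, hb]
      zero_mem' := map_zero τ
      algebraMap_mem' := fun r => τ.commutes r
      inv_mem' := fun a ha => by
        simp only [Set.mem_ofPred_eq] at ha ⊢; rw [map_inv₀, ha] }
  have hK : (⊤ : IntermediateField F E) ≤ K := by
    rw [← htop]
    refine sup_le ?_ ?_
    · rintro _ ⟨z, rfl⟩; exact h1 z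
    · rintro _ ⟨z, rfl⟩; exact h2 z
  ext x
  exact hK (IntermediateField.mem_top (x := x))

/-- The compositum of two normal extensions is normal. -/
lemma u2_normal [Normal F F'] [Normal F En]
    (htop : (IsScalarTower.toAlgHom F F' E).fieldRange ⊔
      (IsScalarTower.toAlgHom F En E).fieldRange = ⊤) : Normal F E := by
  have h1 : Normal F (IsScalarTower.toAlgHom F F' E).fieldRange :=
    Normal.of_algEquiv (AlgEquiv.ofInjectiveField (IsScalarTower.toAlgHom F F' E))
  have h2 : Normal F (IsScalarTower.toAlgHom F En E).fieldRange :=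
    Normal.of_algEquiv (AlgEquiv.ofInjectiveField (IsScalarTower.toAlgHom F En E))
  have h3 : Normal F ((IsScalarTower.toAlgHom F F' E).fieldRange ⊔
      (IsScalarTower.toAlgHom F En E).fieldRange : IntermediateField F E) :=
    IntermediateField.normal_sup _ _ _ _
  rw [htop] at h3
  exact Normal.of_algEquiv (IntermediateField.topEquiv : (⊤ : IntermediateField F E) ≃ₐ[F] E)

/-- Every automorphism of the compositum is killed by the common degree. -/
lemma u2_pow_eq_one [FiniteDimensional F F'] [FiniteDimensional F En] [IsGalois F F']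
    [IsGalois F En]
    (htop : (IsScalarTower.toAlgHom F F' E).fieldRange ⊔
      (IsScalarTower.toAlgHom F En E).fieldRange = ⊤)
    (hn : finrank F En = finrank F F') (σ : E ≃ₐ[F] E) : σ ^ finrank F F' = 1 := by
  apply u2_eq_one_of_fix htop
  · intro z
    have h1 : AlgEquiv.restrictNormalHom F' (σ ^ finrank F F') = 1 := by
      rw [map_pow, ← IsGalois.card_aut_eq_finrank F F']; exact pow_card_eq_one'
    have h := AlgEquiv.restrictNormal_commutes (σ ^ finrank F F') F' z
    rw [← h]
    show algebraMap F' E (AlgEquiv.restrictNormalHom F' (σ ^ finrank F F') z) = _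
    rw [h1]; rfl
  · intro z
    have h1 : AlgEquiv.restrictNormalHom En (σ ^ finrank F F') = 1 := by
      rw [map_pow, ← hn, ← IsGalois.card_aut_eq_finrank F En]; exact pow_card_eq_one'
    have h := AlgEquiv.restrictNormal_commutes (σ ^ finrank F F') En z
    rw [← h]
    show algebraMap En E (AlgEquiv.restrictNormalHom En (σ ^ finrank F F') z) = _
    rw [h1]; rfl

/-- A cyclic quotient of a group of exponent `n` has order dividing `n`. -/
lemma u2_card_dvd {G C : Type} [Group G] [Group C] [IsCyclic C] (ρ : G →* C)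
    (hs : Function.Surjective ρ) (n : ℕ) (h : ∀ σ : G, σ ^ n = 1) : Nat.card C ∣ n := by
  obtain ⟨g, hg⟩ := IsCyclic.exists_generator (α := C)
  rw [← orderOf_eq_card_of_forall_mem_zpowers hg]
  apply orderOf_dvd_of_pow_eq_one
  obtain ⟨σ, rfl⟩ := hs g
  rw [← map_pow, h, map_one]

end compositum

section main

variable (q : ℕ) [Fact q.Prime] (F F' En E : Type) [Field F] [Field F'] [Field En] [Field E]
  [Algebra ℚ_[q] F] [FiniteDimensional ℚ_[q] F] [Algebra F F'] [Algebra F En] [Algebra F E]
  [Algebra F' E] [Algebra En E] [IsScalarTower F F' E] [IsScalarTower F En E]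
  [Algebra ℚ_[q] En] [IsScalarTower ℚ_[q] F En]
  [Algebra ℚ_[q] F'] [IsScalarTower ℚ_[q] F F']
  [Algebra ℚ_[q] E] [IsScalarTower ℚ_[q] F E] [IsScalarTower ℚ_[q] F' E]
  [IsScalarTower ℚ_[q] En E]
  [FiniteDimensional F F'] [FiniteDimensional F En] [FiniteDimensional F E] [IsGalois F F']
  [IsGalois F En]

/-- (U) with all the `ℚ_[q]`-algebra structures given. -/
theorem u2_main (hR : StmtRes) (hunr : IsUnram q F En)
    (hn : finrank F En = finrank F F')
    (htop : (IsScalarTower.toAlgHom F F' E).fieldRange ⊔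
      (IsScalarTower.toAlgHom F En E).fieldRange = ⊤) (x : F) :
    ∃ y : E, Algebra.norm F' y = algebraMap F F' x := by
  classical
  have : FiniteDimensional ℚ_[q] F' := FiniteDimensional.trans ℚ_[q] F F'
  have : FiniteDimensional ℚ_[q] En := FiniteDimensional.trans ℚ_[q] F En
  have : FiniteDimensional ℚ_[q] E := FiniteDimensional.trans ℚ_[q] F E
  have : FiniteDimensional F' E := FiniteDimensional.right F F' E
  have : FiniteDimensional En E := FiniteDimensional.right F En E
  have : CharZero F := charZero_of_injective_algebraMap (algebraMap ℚ_[q] F).injective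
  have : Normal F E := u2_normal htop
  have : IsGalois F E := ⟨⟩
  have : IsGalois F' E := IsGalois.tower_top_of_isGalois F F' E
  -- step 2
  have hEn := u2_inertial_eq_one_of_unram q (K := F) (L := En) hR hunr
  -- step 3
  have h3 : ∀ σ : E ≃ₐ[F'] E, IsInertial q σ → σ = 1 := by
    intro σ hσ
    have hτ : IsInertial q (AlgEquiv.restrictNormalHom En (σ.restrictScalars F)) :=
      u2_inertial_restrict q (K := En) (L := E)
        (fun z => AlgEquiv.restrictNormal_commutes (σ.restrictScalars F) En z) hσ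
    have hτ1 := hEn _ hτ
    have hσ' : σ.restrictScalars F = 1 := by
      apply u2_eq_one_of_fix htop
      · intro z; exact σ.commutes z
      · intro z
        have h := AlgEquiv.restrictNormal_commutes (σ.restrictScalars F) En z
        rw [← h]
        show algebraMap En E (AlgEquiv.restrictNormalHom En (σ.restrictScalars F) z) = _
        rw [hτ1]; rfl
    ext y
    exact congrArg (fun τ : E ≃ₐ[F] E => τ y) hσ'
  obtain ⟨hunrE, hcycE⟩ := u2_unram_of_inertial q hR (K := F') (L := E) h3
  obtain ⟨πF, hπF⟩ := stmtWUnif q F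
  obtain ⟨πF', hπF'⟩ := stmtWUnif q F'
  obtain ⟨πE, hπE⟩ := stmtWUnif q E
  have hE1 := u2_unif_of_unram q hunrE hπF' hπE
  obtain ⟨C, _, _, ρ, hsurj, _, hcard⟩ := hR q F E
  have hE2 := hcard πF πE hπF hπE
  have hdvd : Nat.card C ∣ finrank F F' :=
    u2_card_dvd ρ hsurj _ (u2_pow_eq_one htop hn)
  by_cases hx : x = 0
  · refine ⟨0, ?_⟩
    rw [hx, Algebra.norm_zero, (algebraMap F F').map_zero]
  obtain ⟨c, hc⟩ := hdvd
  obtain ⟨m, hm⟩ := hπF.2.2 x hx
  have hx' : algebraMap F F' x ≠ 0 := by simpa using hx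
  have hw : wv q (algebraMap F F' x) = finrank F' E * wv q πF' * (c * m) := by
    rw [l3b_wv_algebraMap, hm, ← hE1, ← hE2, hc]; push_cast; ring
  have hz0 : πF' ^ ((c : ℤ) * m) ≠ 0 := zpow_ne_zero _ hπF'.1
  have hu : IsU q (algebraMap F F' x / (πF' ^ ((c : ℤ) * m)) ^ finrank F' E) := by
    refine ⟨div_ne_zero hx' (pow_ne_zero _ hz0), ?_⟩
    rw [l0b_wv_div q hx' (pow_ne_zero _ hz0), hw, l0b_wv_pow, l0b_wv_zpow]; ring
  obtain ⟨y, _, hy⟩ := unitNorm q F' E hcycE hunrE _ hu
  refine ⟨y * algebraMap F' E (πF' ^ ((c : ℤ) * m)), ?_⟩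
  rw [map_mul, hy, Algebra.norm_algebraMap, div_mul_cancel₀ _ (pow_ne_zero _ hz0)]

end main

/-- **U2**: `StmtRes ⇒ StmtCompositumNorm`. -/
theorem stmtCompositumNorm_of_res (hR : StmtRes) : StmtCompositumNorm := by
  intro q _ F F' En E _ _ _ _ _ _ _ _ _ _ _ _ _ _ _ _ _ _ _ _ _ hunr hn htop x
  let _ : Algebra ℚ_[q] F' := ((algebraMap F F').comp (algebraMap ℚ_[q] F)).toAlgebra
  have : IsScalarTower ℚ_[q] F F' := IsScalarTower.of_algebraMap_eq (fun _ => rfl)
  let _ : Algebra ℚ_[q] E := ((algebraMap F E).comp (algebraMap ℚ_[q] F)).toAlgebra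
  have : IsScalarTower ℚ_[q] F E := IsScalarTower.of_algebraMap_eq (fun _ => rfl)
  have : IsScalarTower ℚ_[q] F' E := IsScalarTower.of_algebraMap_eq (fun a => by
    show algebraMap F E (algebraMap ℚ_[q] F a) =
      algebraMap F' E (algebraMap F F' (algebraMap ℚ_[q] F a))
    rw [← IsScalarTower.algebraMap_apply F F' E])
  have : IsScalarTower ℚ_[q] En E := IsScalarTower.of_algebraMap_eq (fun a => by
    show algebraMap F E (algebraMap ℚ_[q] F a) = algebraMap En E (algebraMap ℚ_[q] En a)
    rw [IsScalarTower.algebraMap_apply ℚ_[q] F En, ← IsScalarTower.algebraMap_apply F En E])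
  exact u2_main q F F' En E hR hunr hn htop x

end Fermat.Agent.PT.L
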