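/-
PT-L, piece L9 (helper48): the local `p`-fundamental class (`StmtFundClass`) from
`StmtLaGen` (a class of order `[F':F]` in `H²(F'/F)`) and `StmtLa` (`|H²| = [F':F]` for
`p`-extensions).

Route: `u := κ` of order `|G|`. For a `p`-subgroup `H`: transport
`Hⁿ(H, Res F'ˣ) ≅ Hⁿ(Gal(F'/F'^H), F'ˣ)` (Mathlib `groupCohomology.mapIso`), so `H¹ = 0`
(Hilbert 90) and `|H²| = |H|` (La).  Generation: if `d = ord(res_H κ)` then `res_H (dκ) = 0`,
hence `[G:H]·d·κ = 0` (PT-A, kernel form of `cor ∘ res = index`), so `|H| ∣ d`.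
-/
import Fermat.Agent.PT.L.Plan2
import Fermat.Agent.PT.A.Sylow

set_option autoImplicit false

open CategoryTheory groupCohomology

namespace Fermat.Agent.PT.L

namespace FC

/-- abstract generation lemma -/
theorem gen_of_addOrderOf {G : Type} [Group G] [Finite G] (C : Rep.{0} ℤ G) (κ : H2 C)
    (hκ : addOrderOf κ = Nat.card G) (H : Subgroup G)
    (hcard : Nat.card (H2 (Rep.res H.subtype C)) = Nat.card H)
    (x : H2 (Rep.res H.subtype C)) :
    ∃ n : ℤ, n • (resSub C H 2).hom κ = x := by
  have hfin : Finite (H2 (Rep.res H.subtype C)) :=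
    Nat.finite_of_card_ne_zero (by rw [hcard]; exact Nat.card_pos.ne')
  set r := (resSub C H 2).hom κ with hr
  set d := addOrderOf r with hd
  have h1 : (resSub C H 2).hom (d • κ) = 0 := by
    rw [map_nsmul, ← hr, hd, addOrderOf_nsmul_eq_zero]
  have h2 : H.index • (d • κ) = 0 :=
    SylowRes.index_smul_eq_zero_of_res_eq_zero H 1 C (d • κ) h1
  rw [← mul_nsmul'] at h2
  have h3 : Nat.card G ∣ H.index * d := by
    rw [← hκ]; exact addOrderOf_dvd_of_nsmul_eq_zero h2
  have h4 : Nat.card H ∣ d := by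
    rw [← Subgroup.index_mul_card H] at h3
    exact Nat.dvd_of_mul_dvd_mul_left (Nat.pos_of_ne_zero Subgroup.index_ne_zero_of_finite) h3
  have h5 : d ∣ Nat.card (H2 (Rep.res H.subtype C)) := addOrderOf_dvd_natCard r
  have h6 : d = Nat.card (H2 (Rep.res H.subtype C)) := by
    rw [hcard] at h5 ⊢
    exact Nat.dvd_antisymm h5 h4
  have h7 : AddSubgroup.zmultiples r = ⊤ := by
    apply AddSubgroup.eq_top_of_card_eq
    rw [Nat.card_zmultiples, ← h6]
  have : x ∈ AddSubgroup.zmultiples r := by rw [h7]; trivial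
  obtain ⟨n, hn⟩ := AddSubgroup.mem_zmultiples_iff.1 this
  exact ⟨n, hn⟩

section transport

variable (F F' : Type) [Field F] [Field F'] [Algebra F F'] [FiniteDimensional F F']
  (H : Subgroup (F' ≃ₐ[F] F'))

/-- `H ≃* Gal(F'/F'^H)` -/
noncomputable def galEquiv :
    ↥H ≃* (F' ≃ₐ[↥(IntermediateField.fixedField H)] F') :=
  (MulEquiv.subgroupCongr (IntermediateField.fixingSubgroup_fixedField H).symm).trans
    (IntermediateField.fixingSubgroupEquiv (IntermediateField.fixedField H))

/-- transport of cohomology along `galEquiv` -/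
noncomputable def cohIso (n : ℕ) :
    groupCohomology (Rep.res H.subtype (Rep.ofAlgebraAutOnUnits F F')) n ≅
      groupCohomology (Rep.ofAlgebraAutOnUnits (↥(IntermediateField.fixedField H)) F') n :=
  groupCohomology.mapIso (galEquiv F F' H) (LinearEquiv.refl ℤ _) (by
    intro g
    ext x
    rfl) n

theorem h1_subsingleton :
    Subsingleton (H1 (Rep.res H.subtype (Rep.ofAlgebraAutOnUnits F F'))) :=
  (cohIso F F' H 1).toLinearEquiv.toEquiv.subsingleton

theorem card_h2_eq :
    Nat.card (H2 (Rep.res H.subtype (Rep.ofAlgebraAutOnUnits F F'))) =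
      Nat.card (H2 (Rep.ofAlgebraAutOnUnits (↥(IntermediateField.fixedField H)) F')) :=
  Nat.card_congr (cohIso F F' H 2).toLinearEquiv.toEquiv

end transport

end FC

/-- **L9**: the local `p`-fundamental class, from `StmtLaGen` and `StmtLa`. -/
theorem stmtFundClass_of (hGen : StmtLaGen) (hLa : StmtLa) : StmtFundClass := by
  intro q _ p _ F F' _ _ _ _ _ _ _
  obtain ⟨κ, hκ⟩ := hGen q F F'
  have hκ' : addOrderOf κ = Nat.card (F' ≃ₐ[F] F') := by
    rw [hκ, IsGalois.card_aut_eq_finrank]
  have hcard : ∀ H : Subgroup (F' ≃ₐ[F] F'), IsPGroup p H →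
      Nat.card (H2 (Rep.res H.subtype (Rep.ofAlgebraAutOnUnits F F'))) = Nat.card H := by
    intro H hH
    obtain ⟨k, hk⟩ := hH.exists_card_eq
    let _ : Algebra ℚ_[q] ↥(IntermediateField.fixedField H) :=
      ((algebraMap F ↥(IntermediateField.fixedField H)).comp (algebraMap ℚ_[q] F)).toAlgebra
    have _ : IsScalarTower ℚ_[q] F ↥(IntermediateField.fixedField H) :=
      IsScalarTower.of_algebraMap_eq (fun _ => rfl)
    have _ : FiniteDimensional ℚ_[q] ↥(IntermediateField.fixedField H) :=
      Module.Finite.trans F _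
    have hfr : Module.finrank ↥(IntermediateField.fixedField H) F' = p ^ k := by
      rw [IntermediateField.finrank_fixedField_eq_card, hk]
    rw [FC.card_h2_eq, (hLa q p k ↥(IntermediateField.fixedField H) F' hfr).2,
      IntermediateField.finrank_fixedField_eq_card]
  refine ⟨κ, ?_, hcard, ?_⟩
  · intro H _
    exact FC.h1_subsingleton F F' H
  · intro H hH x
    exact FC.gen_of_addOrderOf _ κ hκ' H (hcard H hH) x

end Fermat.Agent.PT.L
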