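import Fermat.Agent.PT.L.NormIndex
import Fermat.Agent.PT.G1.Bridge
import Fermat.Agent.PT.G1.Hexagon

/-!
# PT-L, piece L5: the upper bound `|H²(F'/F, F'ˣ)| ≤ [F' : F]` for `p`-extensions (`StmtH2Le`)
-/

set_option autoImplicit false
set_option linter.unusedSectionVars false
set_option linter.style.haveILetI false

namespace Fermat.Agent.PT.L

open Additive CategoryTheory groupCohomology

section Cyclic

variable {F F' : Type} [Field F] [Field F'] [Algebra F F'] [FiniteDimensional F F'] [IsGalois F F']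

lemma l5_rho_pow (σ : F' ≃ₐ[F] F') (i : ℕ) (x : Additive F'ˣ) :
    (((Rep.ofAlgebraAutOnUnits F F').ρ σ) ^ i) x = ((l2σ σ) ^ i) x := by
  induction i generalizing x with
  | zero => rfl
  | succ i ih =>
    rw [pow_succ, pow_succ]
    exact ih (l2σ σ x)

lemma l5_nEnd_apply_aux (σ : F' ≃ₐ[F] F') (n : ℕ) (x : Additive F'ˣ) :
    (Fermat.Agent.PT.G1.nEnd ((Rep.ofAlgebraAutOnUnits F F').ρ σ) n) x =
      ∑ i ∈ Finset.range n, (((Rep.ofAlgebraAutOnUnits F F').ρ σ) ^ i) x := by
  induction n with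
  | zero =>
    have e1 : Fermat.Agent.PT.G1.nEnd ((Rep.ofAlgebraAutOnUnits F F').ρ σ) 0 = 0 :=
      Finset.sum_range_zero _
    rw [e1, Finset.sum_range_zero]
    rfl
  | succ k ih =>
    have e1 : Fermat.Agent.PT.G1.nEnd ((Rep.ofAlgebraAutOnUnits F F').ρ σ) (k + 1) =
        Fermat.Agent.PT.G1.nEnd ((Rep.ofAlgebraAutOnUnits F F').ρ σ) k +
          ((Rep.ofAlgebraAutOnUnits F F').ρ σ) ^ k := Finset.sum_range_succ _ _
    rw [e1, Finset.sum_range_succ, ← ih]
    rfl

lemma l5_nEnd_apply (σ : F' ≃ₐ[F] F') (n : ℕ) (x : Additive F'ˣ) :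
    (Fermat.Agent.PT.G1.nEnd ((Rep.ofAlgebraAutOnUnits F F').ρ σ) n) x = hqNorm (l2σ σ) n x := by
  rw [l2_hqNorm_apply, l5_nEnd_apply_aux]
  exact Finset.sum_congr rfl fun i _ => l5_rho_pow σ i x

lemma l5_D_apply (σ : F' ≃ₐ[F] F') (x : Additive F'ˣ) :
    ((Rep.ofAlgebraAutOnUnits F F').ρ σ - 1) x = hqDelta (l2σ σ) x := rfl

attribute [local instance] IsCyclic.commGroup in
/-- For a cyclic extension, `|H²(F'/F, F'ˣ)|` is the norm index. -/
theorem l5_card_H2_cyclic [IsCyclic (F' ≃ₐ[F] F')] (σ : F' ≃ₐ[F] F')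
    (hσ : ∀ τ, τ ∈ Subgroup.zpowers σ) :
    Nat.card (H2 (Rep.ofAlgebraAutOnUnits F F')) = (normSubgroup F F').index := by
  have hb := (Fermat.Agent.PT.G1.stmtBridge (F' ≃ₐ[F] F') (Rep.ofAlgebraAutOnUnits F F') σ hσ).1
  rw [hb, ← l2_hq0_units σ hσ]
  have hcard : Fintype.card (F' ≃ₐ[F] F') = Module.finrank F F' := by
    rw [← Nat.card_eq_fintype_card, IsGalois.card_aut_eq_finrank]
  rw [hcard, Fermat.Agent.PT.G1.Hex.hqCard_eq_relIndex]
  unfold hq0
  have h1 : (LinearMap.toAddMonoidHom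
      (Fermat.Agent.PT.G1.nEnd ((Rep.ofAlgebraAutOnUnits F F').ρ σ)
        (Module.finrank F F'))).range = (hqNorm (l2σ σ) (Module.finrank F F')).range := by
    ext x
    constructor
    · rintro ⟨y, rfl⟩
      exact ⟨y, (l5_nEnd_apply σ _ y).symm⟩
    · rintro ⟨y, rfl⟩
      exact ⟨y, l5_nEnd_apply σ _ y⟩
  have h2 : ((Rep.ofAlgebraAutOnUnits F F').ρ σ - 1).toAddMonoidHom.ker =
      (hqDelta (l2σ σ)).ker := by
    ext x
    rfl
  rw [h1, h2]
  rfl

end Cyclic

/-! ### A counting lemma -/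

lemma l5_card_le {A B C : Type*} [AddCommGroup A] [AddCommGroup B] [AddCommGroup C]
    (f : A →+ B) (g : B →+ C) (hex : ∀ x, g x = 0 → ∃ y, f y = x) [Finite A] [Finite C] :
    Finite B ∧ Nat.card B ≤ Nat.card A * Nat.card C := by
  classical
  -- `ker g` injects into `A`
  have hker : ∀ x : g.ker, ∃ y : A, f y = (x : B) := fun x => hex x x.2
  choose φ hφ using hker
  have hφinj : Function.Injective φ := by
    intro x y hxy
    apply Subtype.ext
    rw [← hφ x, ← hφ y, hxy]
  have hkerfin : Finite g.ker := Finite.of_injective φ hφinj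
  have hkerle : Nat.card g.ker ≤ Nat.card A := Nat.card_le_card_of_injective φ hφinj
  have hrangefin : Finite g.range := inferInstance
  have hrangele : Nat.card g.range ≤ Nat.card C :=
    Nat.card_le_card_of_injective (fun x : g.range => (x : C)) Subtype.val_injective
  have hquot : Nat.card (B ⧸ g.ker) = Nat.card g.range :=
    Nat.card_congr (QuotientAddGroup.quotientKerEquivRange g).toEquiv
  have hcard : Nat.card B = Nat.card (B ⧸ g.ker) * Nat.card g.ker :=
    AddSubgroup.card_eq_card_quotient_mul_card_addSubgroup g.ker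
  rw [hquot] at hcard
  have hne : Nat.card B ≠ 0 := by
    rw [hcard]
    exact mul_ne_zero Nat.card_pos.ne' Nat.card_pos.ne'
  refine ⟨Nat.finite_of_card_ne_zero hne, ?_⟩
  rw [hcard, mul_comm]
  exact Nat.mul_le_mul hkerle hrangele

/-! ### The cyclic case -/

section CyclicLocal

lemma l5_cyclic (q : ℕ) [Fact q.Prime] {F F' : Type} [Field F] [Field F'] [Algebra ℚ_[q] F]
    [FiniteDimensional ℚ_[q] F] [Algebra F F'] [FiniteDimensional F F'] [IsGalois F F']
    (hN : StmtNormIndex) (hcyc : IsCyclic (F' ≃ₐ[F] F')) :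
    Finite (H2 (Rep.ofAlgebraAutOnUnits F F')) ∧
      Nat.card (H2 (Rep.ofAlgebraAutOnUnits F F')) = Module.finrank F F' := by
  obtain ⟨σ, hσ⟩ := hcyc.exists_generator
  have h1 : Nat.card (H2 (Rep.ofAlgebraAutOnUnits F F')) = Module.finrank F F' := by
    rw [l5_card_H2_cyclic σ hσ]
    exact hN q F F' hcyc
  refine ⟨Nat.finite_of_card_ne_zero ?_, h1⟩
  rw [h1]
  exact (Module.finrank_pos).ne'

end CyclicLocal

/-! ### The induction -/

/-- The inductive step, for a normal subgroup `Z` of order `p`. -/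
theorem l5_step (hN : StmtNormIndex) (hIR : StmtInfResField) (q : ℕ) [Fact q.Prime] (p : ℕ)
    [Fact p.Prime] (k : ℕ)
    (ih : ∀ (F F' : Type) [Field F] [Field F'] [Algebra ℚ_[q] F]
      [FiniteDimensional ℚ_[q] F] [Algebra F F'] [FiniteDimensional F F'] [IsGalois F F'],
      Module.finrank F F' = p ^ k →
        Finite (H2 (Rep.ofAlgebraAutOnUnits F F')) ∧
        Nat.card (H2 (Rep.ofAlgebraAutOnUnits F F')) ≤ p ^ k)
    (F F' : Type) [Field F] [Field F'] [Algebra ℚ_[q] F]
    [FiniteDimensional ℚ_[q] F] [Algebra F F'] [FiniteDimensional F F'] [IsGalois F F']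
    (hdeg : Module.finrank F F' = p ^ (k + 1))
    (Z : Subgroup (F' ≃ₐ[F] F')) (hZn : Z.Normal) (hZcard : Nat.card Z = p) :
    Finite (H2 (Rep.ofAlgebraAutOnUnits F F')) ∧
      Nat.card (H2 (Rep.ofAlgebraAutOnUnits F F')) ≤ p ^ (k + 1) := by
  have hp : p.Prime := Fact.out
  -- the intermediate field
  have h1 : Module.finrank (IntermediateField.fixedField Z) F' = p := by
    rw [IntermediateField.finrank_fixedField_eq_card, hZcard]
  have h2 : Module.finrank F (IntermediateField.fixedField Z) = p ^ k := by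
    have := Module.finrank_mul_finrank F (IntermediateField.fixedField Z) F'
    rw [h1, hdeg, pow_succ] at this
    exact Nat.eq_of_mul_eq_mul_right hp.pos this
  have hgal : IsGalois F (IntermediateField.fixedField Z) :=
    IsGalois.of_fixedField_normal_subgroup Z
  obtain ⟨hAfin, hAle⟩ := ih F (IntermediateField.fixedField Z) h2
  -- the top layer is cyclic of degree `p`
  letI : Algebra ℚ_[q] (IntermediateField.fixedField Z) :=
    ((algebraMap F (IntermediateField.fixedField Z)).comp (algebraMap ℚ_[q] F)).toAlgebra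
  haveI : IsScalarTower ℚ_[q] F (IntermediateField.fixedField Z) :=
    IsScalarTower.of_algebraMap_eq (fun x => rfl)
  haveI : FiniteDimensional ℚ_[q] (IntermediateField.fixedField Z) :=
    FiniteDimensional.trans ℚ_[q] F (IntermediateField.fixedField Z)
  have hcardC : Nat.card (F' ≃ₐ[IntermediateField.fixedField Z] F') = p := by
    rw [IsGalois.card_aut_eq_finrank, h1]
  have hcyc : IsCyclic (F' ≃ₐ[IntermediateField.fixedField Z] F') :=
    isCyclic_of_prime_card hcardC
  obtain ⟨hCfin, hCcard⟩ := l5_cyclic q (F := IntermediateField.fixedField Z) (F' := F') hN hcyc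
  rw [h1] at hCcard
  -- inflation-restriction
  have hex : ∀ x, (resF F (IntermediateField.fixedField Z) F').hom x = 0 →
      ∃ y, (infl F (IntermediateField.fixedField Z) F').hom y = x :=
    fun x hx => hIR F (IntermediateField.fixedField Z) F' x hx
  obtain ⟨hBfin, hBle⟩ := l5_card_le
    ((infl F (IntermediateField.fixedField Z) F').hom : _ →ₗ[ℤ] _).toAddMonoidHom
    ((resF F (IntermediateField.fixedField Z) F').hom : _ →ₗ[ℤ] _).toAddMonoidHom hex
  refine ⟨hBfin, hBle.trans ?_⟩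
  rw [hCcard, pow_succ]
  exact Nat.mul_le_mul_right p hAle

theorem l5_main (hN : StmtNormIndex) (hIR : StmtInfResField) (q : ℕ) [Fact q.Prime] (p : ℕ)
    [Fact p.Prime] : ∀ (k : ℕ) (F F' : Type) [Field F] [Field F'] [Algebra ℚ_[q] F]
    [FiniteDimensional ℚ_[q] F] [Algebra F F'] [FiniteDimensional F F'] [IsGalois F F'],
    Module.finrank F F' = p ^ k →
      Finite (H2 (Rep.ofAlgebraAutOnUnits F F')) ∧
      Nat.card (H2 (Rep.ofAlgebraAutOnUnits F F')) ≤ p ^ k := by
  intro k
  induction k with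
  | zero =>
    intro F F' _ _ _ _ _ _ _ hdeg
    rw [pow_zero] at hdeg
    have hcard : Nat.card (F' ≃ₐ[F] F') = 1 := by
      rw [IsGalois.card_aut_eq_finrank, hdeg]
    have hsub : Subsingleton (F' ≃ₐ[F] F') := (Nat.card_eq_one_iff_unique.mp hcard).1
    have hcyc : IsCyclic (F' ≃ₐ[F] F') := isCyclic_of_subsingleton
    obtain ⟨h1, h2⟩ := l5_cyclic q hN hcyc
    exact ⟨h1, by rw [h2, hdeg, pow_zero]⟩
  | succ k ih =>
    intro F F' _ _ _ _ _ _ _ hdeg
    have hp : p.Prime := Fact.out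
    have hcard : Nat.card (F' ≃ₐ[F] F') = p ^ (k + 1) := by
      rw [IsGalois.card_aut_eq_finrank, hdeg]
    have hpg : IsPGroup p (F' ≃ₐ[F] F') := IsPGroup.of_card hcard
    have hnt : Nontrivial (F' ≃ₐ[F] F') := by
      rw [← Finite.one_lt_card_iff_nontrivial, hcard]
      exact Nat.one_lt_pow (Nat.succ_ne_zero k) hp.one_lt
    -- a central element of order `p`
    have hcnt : Nontrivial (Subgroup.center (F' ≃ₐ[F] F')) := hpg.center_nontrivial
    have hcpg : IsPGroup p (Subgroup.center (F' ≃ₐ[F] F')) := hpg.to_subgroup _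
    obtain ⟨m, hm⟩ := IsPGroup.iff_card.mp hcpg
    have hm0 : m ≠ 0 := by
      rintro rfl
      rw [pow_zero] at hm
      have := (Nat.card_eq_one_iff_unique.mp hm).1
      exact not_subsingleton _ this
    have hdvd : p ∣ Nat.card (Subgroup.center (F' ≃ₐ[F] F')) := by
      rw [hm]
      exact dvd_pow_self p hm0
    obtain ⟨z, hz⟩ := exists_prime_orderOf_dvd_card' p hdvd
    have hzc : ∀ h ∈ Subgroup.zpowers (z : F' ≃ₐ[F] F'), h ∈ Subgroup.center (F' ≃ₐ[F] F') :=
      fun h hh => (Subgroup.zpowers_le.mpr z.2) hh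
    have hZn : (Subgroup.zpowers (z : F' ≃ₐ[F] F')).Normal := by
      constructor
      intro h hh g
      have hc := Subgroup.mem_center_iff.mp (hzc h hh) g
      have : g * h * g⁻¹ = h := by
        rw [hc, mul_assoc, mul_inv_cancel, mul_one]
      rw [this]
      exact hh
    have hZcard : Nat.card (Subgroup.zpowers (z : F' ≃ₐ[F] F')) = p := by
      rw [Nat.card_zpowers, Subgroup.orderOf_coe, hz]
    exact l5_step hN hIR q p k ih F F' hdeg (Subgroup.zpowers (z : F' ≃ₐ[F] F')) hZn hZcard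

/-- **L5**: `|H²(F'/F, F'ˣ)| ≤ [F' : F]` for Galois extensions of `p`-power degree. -/
theorem stmtH2Le (hN : StmtNormIndex) (hIR : StmtInfResField) : StmtH2Le := by
  intro q _ p _ k F F' _ _ _ _ _ _ _ hdeg
  exact l5_main hN hIR q p k F F' hdeg

end Fermat.Agent.PT.L
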