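/-
PT-L piece L4a (helper60): inflation `H²(F'/F, F'ˣ) → H²(F''/F, F''ˣ)` is injective (`StmtLd`).

`G = Gal(F''/F)`, `φ : G → Gal(F'/F)` the restriction, `N = ker φ ≅ Gal(F''/F')`,
`A = F''ˣ`.  Hilbert 90 for `F''/F'` gives `H¹(N, A) = 0` in cocycle form (`l4_h1Triv`), so the
cocycle-level inflation–restriction lemmas of `PT/A/InfRes2.lean` apply.  The comparison with
`infl` uses `e : G ⧸ N ≃* Gal(F'/F)` and the bijection `ι : F'ˣ → (F''ˣ)^N`
(`l4Iota_injective`, `l4_exists_iota`): `infl (H2π c) = inf (H2π (l4Push c))`.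
-/
import Fermat.Agent.PT.L.Plan
import Fermat.Agent.PT.A.InfRes2

set_option autoImplicit false
set_option linter.style.haveILetI false

namespace Fermat.Agent.PT.L

open CategoryTheory groupCohomology

section l4tower

variable (F F' F'' : Type) [Field F] [Field F'] [Field F''] [Algebra F F'] [Algebra F F'']
    [Algebra F' F''] [IsScalarTower F F' F'']

/-- The restriction homomorphism `Gal(F''/F) → Gal(F'/F)`. -/
noncomputable abbrev l4Phi [Normal F F'] : (F'' ≃ₐ[F] F'') →* (F' ≃ₐ[F] F') :=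
  AlgEquiv.restrictNormalHom (F := F) (K₁ := F'') F'

/-- The kernel of the restriction homomorphism, i.e. `Gal(F''/F')` inside `Gal(F''/F)`. -/
noncomputable abbrev l4N [Normal F F'] : Subgroup (F'' ≃ₐ[F] F'') := (l4Phi F F' F'').ker

variable {F F' F''}

lemma l4_phi_commutes [Normal F F'] (g : F'' ≃ₐ[F] F'') (x : F') :
    algebraMap F' F'' (l4Phi F F' F'' g x) = g (algebraMap F' F'' x) :=
  AlgEquiv.restrictNormal_commutes g F' x

lemma l4_mem_N_iff [Normal F F'] (g : F'' ≃ₐ[F] F'') :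
    g ∈ l4N F F' F'' ↔ ∀ x : F', g (algebraMap F' F'' x) = algebraMap F' F'' x := by
  rw [MonoidHom.mem_ker]
  constructor
  · intro h x
    rw [← l4_phi_commutes, h]
    rfl
  · intro h
    ext x
    apply (algebraMap F' F'').injective
    rw [l4_phi_commutes, h]
    rfl

lemma l4_rs_mem [Normal F F'] (τ : F'' ≃ₐ[F'] F'') :
    AlgEquiv.restrictScalars F τ ∈ l4N F F' F'' := by
  rw [l4_mem_N_iff]
  intro x
  exact τ.commutes x

/-- An element of the kernel of the restriction, as an `F'`-automorphism of `F''`. -/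
noncomputable def l4Lin [Normal F F'] (n : l4N F F' F'') : F'' ≃ₐ[F'] F'' :=
  AlgEquiv.ofRingEquiv (f := ((n : F'' ≃ₐ[F] F'') : F'' ≃+* F''))
    (fun x => (l4_mem_N_iff n.1).1 n.2 x)

@[simp] lemma l4Lin_apply [Normal F F'] (n : l4N F F' F'') (x : F'') :
    l4Lin n x = (n : F'' ≃ₐ[F] F'') x := rfl

lemma l4Lin_rs [Normal F F'] (n : l4N F F' F'') :
    AlgEquiv.restrictScalars F (l4Lin n) = (n : F'' ≃ₐ[F] F'') := by
  ext x
  rfl

lemma l4Lin_mul [Normal F F'] (n m : l4N F F' F'') : l4Lin (n * m) = l4Lin n * l4Lin m := by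
  ext x
  rfl

lemma l4Lin_mk [Normal F F'] (τ : F'' ≃ₐ[F'] F'') :
    l4Lin ⟨AlgEquiv.restrictScalars F τ, l4_rs_mem τ⟩ = τ := by
  ext x
  rfl

/-- Every unit of `F''` fixed by `Gal(F''/F')` comes from `F'`. -/
lemma l4_exists_of_fixed [FiniteDimensional F F''] [IsGalois F F'] [IsGalois F F'']
    (u : F''ˣ) (hu : ∀ n ∈ l4N F F' F'', n (u : F'') = u) :
    ∃ u' : F'ˣ, Units.map (algebraMap F' F'' : F' →* F'') u' = u := by
  haveI : IsGalois F' F'' := IsGalois.tower_top_of_isGalois F F' F''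
  haveI : FiniteDimensional F' F'' := FiniteDimensional.right F F' F''
  have h1 : (u : F'') ∈ (⊥ : IntermediateField F' F'') := by
    rw [IsGalois.mem_bot_iff_fixed]
    intro τ
    exact hu _ (l4_rs_mem τ)
  rw [IntermediateField.mem_bot] at h1
  obtain ⟨x, hx⟩ := h1
  have hx0 : x ≠ 0 := by
    rintro rfl
    rw [map_zero] at hx
    exact u.ne_zero hx.symm
  refine ⟨Units.mk0 x hx0, ?_⟩
  ext
  exact hx

/-- Hilbert 90 for `F''/F'` in the form needed for inflation–restriction. -/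
theorem l4_h1Triv [FiniteDimensional F F''] [Normal F F'] :
    InfRes2.H1Triv (l4N F F' F'') (Rep.ofAlgebraAutOnUnits F F'') := by
  intro c hc
  haveI : FiniteDimensional F' F'' := FiniteDimensional.right F F' F''
  obtain ⟨β, hβ⟩ := isMulCoboundary₁_of_isMulCocycle₁_of_aut_to_units
    (fun τ : F'' ≃ₐ[F'] F'' =>
      (Additive.toMul (c ⟨AlgEquiv.restrictScalars F τ, l4_rs_mem τ⟩) : F''ˣ)) (by
    intro τ τ'
    have := hc ⟨AlgEquiv.restrictScalars F τ, l4_rs_mem τ⟩
      ⟨AlgEquiv.restrictScalars F τ', l4_rs_mem τ'⟩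
    exact congrArg Additive.toMul this)
  refine ⟨Additive.ofMul β, fun n => ?_⟩
  have h := hβ (l4Lin n)
  have h2 : (⟨AlgEquiv.restrictScalars F (l4Lin n), l4_rs_mem (l4Lin n)⟩ : l4N F F' F'') = n :=
    Subtype.ext (l4Lin_rs n)
  simp only [h2] at h
  exact (congrArg Additive.ofMul h).symm

variable (F F' F'')

/-- The morphism of representations `F'ˣ → F''ˣ` used to define `infl`. -/
noncomputable def l4Iota [Normal F F'] :
    Rep.res (l4Phi F F' F'') (Rep.ofAlgebraAutOnUnits F F') ⟶ Rep.ofAlgebraAutOnUnits F F'' :=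
  Rep.ofHom
    { toLinearMap := (Units.map (algebraMap F' F'' : F' →* F'')).toAdditive.toIntLinearMap
      isIntertwining' := fun g => by
        ext x
        show algebraMap F' F'' ((AlgEquiv.restrictNormalHom F' g) ((Additive.toMul x : F'ˣ) : F')) =
          g (algebraMap F' F'' ((Additive.toMul x : F'ˣ) : F'))
        exact AlgEquiv.restrictNormal_commutes g F' _ }

lemma l4_infl_eq [Normal F F'] :
    infl F F' F'' = groupCohomology.map (l4Phi F F' F'') (l4Iota F F' F'') 2 := rfl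

/-- The quotient `Gal(F''/F) ⧸ Gal(F''/F') ≃ Gal(F'/F)`. -/
noncomputable def l4E [Normal F F'] [Normal F F''] :
    (F'' ≃ₐ[F] F'') ⧸ l4N F F' F'' ≃* (F' ≃ₐ[F] F') :=
  QuotientGroup.quotientKerEquivOfSurjective (l4Phi F F' F'')
    (AlgEquiv.restrictNormalHom_surjective F'')

variable {F F' F''}

@[simp] lemma l4E_mk [Normal F F'] [Normal F F''] (g : F'' ≃ₐ[F] F'') :
    l4E F F' F'' (g : (F'' ≃ₐ[F] F'') ⧸ l4N F F' F'') = l4Phi F F' F'' g := rfl

@[simp] lemma l4E_symm_phi [Normal F F'] [Normal F F''] (g : F'' ≃ₐ[F] F'') :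
    (l4E F F' F'').symm (l4Phi F F' F'' g) = (g : (F'' ≃ₐ[F] F'') ⧸ l4N F F' F'') := by
  rw [MulEquiv.symm_apply_eq]
  rfl

lemma l4Iota_apply [Normal F F'] (v : (Rep.ofAlgebraAutOnUnits F F').V) :
    (l4Iota F F' F'').hom v =
      Additive.ofMul (Units.map (algebraMap F' F'' : F' →* F'') (Additive.toMul v)) := rfl

lemma l4Iota_injective [Normal F F'] : Function.Injective (l4Iota F F' F'').hom := by
  intro v w h
  have h2 : Units.map (algebraMap F' F'' : F' →* F'') (Additive.toMul v) =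
      Units.map (algebraMap F' F'' : F' →* F'') (Additive.toMul w) := congrArg Additive.toMul h
  have h3 : ((Additive.toMul v : F'ˣ) : F') = ((Additive.toMul w : F'ˣ) : F') := by
    apply (algebraMap F' F'').injective
    exact congrArg Units.val h2
  exact congrArg Additive.ofMul (Units.ext h3)

lemma l4Iota_rho [Normal F F'] (g : F'' ≃ₐ[F] F'') (v : (Rep.ofAlgebraAutOnUnits F F').V) :
    (Rep.ofAlgebraAutOnUnits F F'').ρ g ((l4Iota F F' F'').hom v) =
      (l4Iota F F' F'').hom ((Rep.ofAlgebraAutOnUnits F F').ρ (l4Phi F F' F'' g) v) :=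
  (Rep.hom_comm_apply (l4Iota F F' F'') g v).symm

lemma l4Iota_mem_invariants [Normal F F'] (v : (Rep.ofAlgebraAutOnUnits F F').V) :
    (l4Iota F F' F'').hom v ∈ Representation.invariants
      ((Rep.ofAlgebraAutOnUnits F F'').ρ.comp (l4N F F' F'').subtype) := by
  intro n
  show (Rep.ofAlgebraAutOnUnits F F'').ρ (n : F'' ≃ₐ[F] F'') ((l4Iota F F' F'').hom v) = _
  rw [l4Iota_rho]
  have : l4Phi F F' F'' (n : F'' ≃ₐ[F] F'') = 1 := n.2
  rw [this, map_one]
  rfl

/-- Every invariant comes from `F'`. -/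
lemma l4_exists_iota [FiniteDimensional F F''] [IsGalois F F'] [IsGalois F F'']
    (x : (Rep.ofAlgebraAutOnUnits F F'').quotientToInvariants (l4N F F' F'')) :
    ∃ v : (Rep.ofAlgebraAutOnUnits F F').V, (l4Iota F F' F'').hom v = x.1 := by
  obtain ⟨u', hu'⟩ := l4_exists_of_fixed (F := F) (F' := F') (Additive.toMul x.1) (by
    intro n hn
    have := x.2 ⟨n, hn⟩
    exact congrArg (fun t => ((Additive.toMul t : F''ˣ) : F'')) this)
  exact ⟨Additive.ofMul u', congrArg Additive.ofMul hu'⟩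

/-- The inverse of `ι` on invariants. -/
noncomputable def l4Pull [FiniteDimensional F F''] [IsGalois F F'] [IsGalois F F'']
    (x : (Rep.ofAlgebraAutOnUnits F F'').quotientToInvariants (l4N F F' F'')) : (Rep.ofAlgebraAutOnUnits F F').V :=
  (l4_exists_iota x).choose

lemma l4Pull_spec [FiniteDimensional F F''] [IsGalois F F'] [IsGalois F F'']
    (x : (Rep.ofAlgebraAutOnUnits F F'').quotientToInvariants (l4N F F' F'')) :
    (l4Iota F F' F'').hom (l4Pull x) = x.1 :=
  (l4_exists_iota x).choose_spec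

/-- The action of the quotient on invariants, through `ι`. -/
lemma l4_rho_quot [IsGalois F F'] [IsGalois F F'']
    (p : (F'' ≃ₐ[F] F'') ⧸ l4N F F' F'')
    (x : (Rep.ofAlgebraAutOnUnits F F'').quotientToInvariants (l4N F F' F''))
    (v : (Rep.ofAlgebraAutOnUnits F F').V) (hv : (l4Iota F F' F'').hom v = x.1) :
    (((Rep.ofAlgebraAutOnUnits F F'').quotientToInvariants (l4N F F' F'')).ρ p x).1 =
      (l4Iota F F' F'').hom ((Rep.ofAlgebraAutOnUnits F F').ρ (l4E F F' F'' p) v) := by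
  induction p using QuotientGroup.induction_on with | H g =>
  rw [l4E_mk, ← l4Iota_rho, hv]
  rfl

/-- Push a `2`-cocycle of `Gal(F'/F)` on `F'ˣ` to the quotient `G ⧸ N` acting on invariants. -/
noncomputable def l4Push [IsGalois F F'] [IsGalois F F'']
    (c : cocycles₂ (Rep.ofAlgebraAutOnUnits F F')) :
    cocycles₂ ((Rep.ofAlgebraAutOnUnits F F'').quotientToInvariants (l4N F F' F'')) :=
  ⟨fun pq => ⟨(l4Iota F F' F'').hom (c (l4E F F' F'' pq.1, l4E F F' F'' pq.2)),
      l4Iota_mem_invariants _⟩, by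
    rw [mem_cocycles₂_iff]
    intro p q r
    apply Subtype.ext
    rw [Submodule.coe_add, Submodule.coe_add,
      l4_rho_quot p _ (c (l4E F F' F'' q, l4E F F' F'' r)) rfl]
    have hc := (mem_cocycles₂_iff (c : _ × _ → _)).1 c.2 (l4E F F' F'' p) (l4E F F' F'' q)
      (l4E F F' F'' r)
    have hc' := congrArg (l4Iota F F' F'').hom hc
    rw [map_add, map_add] at hc'
    simp only [map_mul]
    exact hc'⟩

lemma l4Push_apply [IsGalois F F'] [IsGalois F F'']
    (c : cocycles₂ (Rep.ofAlgebraAutOnUnits F F'))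
    (p q : (F'' ≃ₐ[F] F'') ⧸ l4N F F' F'') :
    ((l4Push (F'' := F'') c (p, q)).1 : (Rep.ofAlgebraAutOnUnits F F'').V) =
      (l4Iota F F' F'').hom (c (l4E F F' F'' p, l4E F F' F'' q)) := rfl

lemma l4_mapCocycles_apply [Normal F F']
    (c : cocycles₂ (Rep.ofAlgebraAutOnUnits F F')) (g h : F'' ≃ₐ[F] F'') :
    (mapCocycles₂ (l4Phi F F' F'') (l4Iota F F' F'') c) (g, h) =
      (l4Iota F F' F'').hom (c (l4Phi F F' F'' g, l4Phi F F' F'' h)) := rfl

lemma l4_infCoc_push [IsGalois F F'] [IsGalois F F'']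
    (c : cocycles₂ (Rep.ofAlgebraAutOnUnits F F')) :
    InfRes2.infCoc (l4N F F' F'') (Rep.ofAlgebraAutOnUnits F F'') (l4Push c) =
      mapCocycles₂ (l4Phi F F' F'') (l4Iota F F' F'') c := by
  apply Subtype.ext
  funext ⟨g, h⟩
  rfl

end l4tower

/-- **(Ld)**: inflation `H²(F'/F) → H²(F''/F)` is injective. -/
theorem stmtLd : StmtLd := by
  intro F F' F'' _ _ _ _ _ _ _ _ _ _
  rw [injective_iff_map_eq_zero]
  intro y hy
  induction y using H2_induction_on with | @h c =>
  have key := H2π_comp_map_apply (l4Phi F F' F'') (l4Iota F F' F'') c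
  have h0 := InfRes2.inf_injective_aux (l4N F F' F'') (Rep.ofAlgebraAutOnUnits F F'')
    (l4_h1Triv (F := F) (F' := F') (F'' := F'')) (l4Push c) (by
      rw [l4_infCoc_push, ← key]
      exact hy)
  rw [H2π_eq_zero_iff] at h0 ⊢
  obtain ⟨w, hw⟩ := h0
  refine ⟨fun s => l4Pull (w ((l4E F F' F'').symm s)), ?_⟩
  funext ⟨s, t⟩
  apply l4Iota_injective (F := F) (F' := F') (F'' := F'')
  rw [d₁₂_hom_apply]
  have h1 := congrArg Subtype.val (congrFun hw ((l4E F F' F'').symm s, (l4E F F' F'').symm t))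
  rw [d₁₂_hom_apply] at h1
  simp only [] at h1
  rw [Submodule.coe_add, Submodule.coe_sub,
    l4_rho_quot _ _ _ (l4Pull_spec (w ((l4E F F' F'').symm t))), ← map_mul,
    ← l4Pull_spec (w ((l4E F F' F'').symm (s * t))),
    ← l4Pull_spec (w ((l4E F F' F'').symm s)), MulEquiv.apply_symm_apply] at h1
  rw [map_add, map_sub]
  rw [h1]
  rw [l4Push_apply, MulEquiv.apply_symm_apply, MulEquiv.apply_symm_apply]

end Fermat.Agent.PT.L
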