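/-
PT-L piece L4b (helper60): inflation–restriction for fields (`StmtInfResField`): a class of
`H²(F''/F, F''ˣ)` that dies in `H²(F''/F', F''ˣ)` is inflated from `H²(F'/F, F'ˣ)`.

With the notation of `InflInj.lean`: if `resF (H2π c) = 0` then `c` restricted to
`N = Gal(F''/F')` is a coboundary, so `InfRes2.inf_res_exact_aux` (using Hilbert 90) produces a
cocycle `z` of `G ⧸ N` on the invariants with `inf (H2π z) = H2π c`; pulling `z` back along
`e : G ⧸ N ≃* Gal(F'/F)` and `ι : F'ˣ → (F''ˣ)^N` gives the required class.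
-/
import Fermat.Agent.PT.L.InflInj

set_option autoImplicit false
set_option linter.style.haveILetI false

namespace Fermat.Agent.PT.L

open CategoryTheory groupCohomology

section l4btower

variable {F F' F'' : Type} [Field F] [Field F'] [Field F''] [Algebra F F'] [Algebra F F'']
    [Algebra F' F''] [IsScalarTower F F' F'']

/-- Pull a `2`-cocycle of `G ⧸ N` on the invariants back to `Gal(F'/F)` acting on `F'ˣ`. -/
noncomputable def l4PullCoc [FiniteDimensional F F''] [IsGalois F F'] [IsGalois F F'']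
    (z : cocycles₂ ((Rep.ofAlgebraAutOnUnits F F'').quotientToInvariants (l4N F F' F''))) :
    cocycles₂ (Rep.ofAlgebraAutOnUnits F F') :=
  ⟨fun st => l4Pull (z ((l4E F F' F'').symm st.1, (l4E F F' F'').symm st.2)), by
    rw [mem_cocycles₂_iff]
    intro s t r
    apply l4Iota_injective (F := F) (F' := F') (F'' := F'')
    have hz := congrArg Subtype.val ((mem_cocycles₂_iff (z : _ × _ → _)).1 z.2
      ((l4E F F' F'').symm s) ((l4E F F' F'').symm t) ((l4E F F' F'').symm r))
    rw [Submodule.coe_add, Submodule.coe_add,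
      l4_rho_quot _ _ _ (l4Pull_spec (z ((l4E F F' F'').symm t, (l4E F F' F'').symm r))),
      MulEquiv.apply_symm_apply, ← map_mul, ← map_mul,
      ← l4Pull_spec (z ((l4E F F' F'').symm (s * t), (l4E F F' F'').symm r)),
      ← l4Pull_spec (z ((l4E F F' F'').symm s, (l4E F F' F'').symm t)),
      ← l4Pull_spec (z ((l4E F F' F'').symm s, (l4E F F' F'').symm (t * r)))] at hz
    rw [map_add, map_add]
    exact hz⟩

lemma l4_map_pullCoc [FiniteDimensional F F''] [IsGalois F F'] [IsGalois F F'']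
    (z : cocycles₂ ((Rep.ofAlgebraAutOnUnits F F'').quotientToInvariants (l4N F F' F''))) :
    mapCocycles₂ (l4Phi F F' F'') (l4Iota F F' F'') (l4PullCoc z) =
      InfRes2.infCoc (l4N F F' F'') (Rep.ofAlgebraAutOnUnits F F'') z := by
  apply Subtype.ext
  funext ⟨g, h⟩
  refine (l4_mapCocycles_apply (l4PullCoc z) g h).trans ?_
  refine Eq.trans ?_ (InfRes2.infCoc_apply (l4N F F' F'') (Rep.ofAlgebraAutOnUnits F F'')
    z g h).symm
  show (l4Iota F F' F'').hom (l4Pull (z ((l4E F F' F'').symm (l4Phi F F' F'' g),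
    (l4E F F' F'').symm (l4Phi F F' F'' h)))) = _
  rw [l4Pull_spec, l4E_symm_phi, l4E_symm_phi]

/-- The identity morphism used to define `resF`. -/
noncomputable def l4ResHom :
    Rep.res (AlgEquiv.restrictScalarsHom F : (F'' ≃ₐ[F'] F'') →* (F'' ≃ₐ[F] F''))
      (Rep.ofAlgebraAutOnUnits F F'') ⟶ Rep.ofAlgebraAutOnUnits F' F'' :=
  Rep.ofHom
    { toLinearMap := LinearMap.id
      isIntertwining' := fun _ => rfl }

lemma l4_resF_eq :
    resF F F' F'' = groupCohomology.map
      (AlgEquiv.restrictScalarsHom F : (F'' ≃ₐ[F'] F'') →* (F'' ≃ₐ[F] F'')) l4ResHom 2 := rfl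

/-- A cocycle whose restriction to `Gal(F''/F')` is a coboundary is a coboundary on `N`. -/
lemma l4_res_cob [Normal F F'] (c : cocycles₂ (Rep.ofAlgebraAutOnUnits F F''))
    (hc : (resF F F' F'').hom (H2π _ c) = 0) :
    ∃ y : l4N F F' F'' → (Rep.ofAlgebraAutOnUnits F F'').V, ∀ n m : l4N F F' F'',
      c ((n : F'' ≃ₐ[F] F''), (m : F'' ≃ₐ[F] F'')) =
        (Rep.ofAlgebraAutOnUnits F F'').ρ n (y m) - y (n * m) + y n := by
  have key := H2π_comp_map_apply
    (AlgEquiv.restrictScalarsHom F : (F'' ≃ₐ[F'] F'') →* (F'' ≃ₐ[F] F''))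
    (l4ResHom (F := F) (F' := F') (F'' := F'')) c
  have h0 : H2π (Rep.ofAlgebraAutOnUnits F' F'')
      (mapCocycles₂ (AlgEquiv.restrictScalarsHom F : (F'' ≃ₐ[F'] F'') →* (F'' ≃ₐ[F] F''))
        (l4ResHom (F := F) (F' := F') (F'' := F'')) c) = 0 := key.symm.trans hc
  rw [H2π_eq_zero_iff] at h0
  obtain ⟨b, hb⟩ := h0
  refine ⟨fun n => b (l4Lin n), fun n m => ?_⟩
  have h1 := congrFun hb (l4Lin n, l4Lin m)
  rw [d₁₂_hom_apply] at h1
  simp only [] at h1
  rw [← l4Lin_mul] at h1
  exact h1.symm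

end l4btower

/-- **L4b**: inflation–restriction for fields. -/
theorem stmtInfResField : StmtInfResField := by
  intro F F' F'' _ _ _ _ _ _ _ _ _ _ x hx
  induction x using H2_induction_on with | @h c =>
  obtain ⟨y, hy⟩ := l4_res_cob (F := F) (F' := F') (F'' := F'') c hx
  obtain ⟨z, hz⟩ := InfRes2.inf_res_exact_aux (l4N F F' F'') (Rep.ofAlgebraAutOnUnits F F'')
    (l4_h1Triv (F := F) (F' := F') (F'' := F'')) c y hy
  refine ⟨H2π _ (l4PullCoc z), ?_⟩
  have key := H2π_comp_map_apply (l4Phi F F' F'') (l4Iota F F' F'') (l4PullCoc z)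
  rw [l4_map_pullCoc] at key
  exact key.trans hz

end Fermat.Agent.PT.L
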