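import Fermat.Agent.PT.L.Plan
import Fermat.Agent.PT.X.Kummer

/-!
# PT-L, piece L7b: the maximal abelian extension of exponent `p` of a local field

`stmtKummerMax_of : StmtPowFinite → StmtKummerMax`: with `μ_p ⊂ F` and `[Fˣ : Fˣᵖ] < ∞`,
`E := F(Fˣ^{1/p})` inside an algebraic closure is finite Galois, abelian of exponent `p`, of degree
`[Fˣ : Fˣᵖ]` (Kummer theory, `Fermat.Agent.PT.X.kummer_degree` with `W = ⊤`).
-/

set_option autoImplicit false

namespace Fermat.Agent.PT.L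

open Fermat.Agent.PT.X

/-- Kummer theory for the full group `Fˣ` over any field with `[Fˣ : Fˣᵖ]` finite. -/
theorem kummerMax_of_finiteIndex (p : ℕ) [Fact p.Prime] (F : Type) [Field F] (ζ : F)
    (hζ : IsPrimitiveRoot ζ p) (hfin : (powMonoidHom p : Fˣ →* Fˣ).range.FiniteIndex) :
    ∃ (E : Type) (_ : Field E) (_ : Algebra F E), FiniteDimensional F E ∧ IsGalois F E ∧
      Module.finrank F E = (powMonoidHom p : Fˣ →* Fˣ).range.index ∧
      (∀ g h : E ≃ₐ[F] E, g * h = h * g) ∧ (∀ g : E ≃ₐ[F] E, g ^ p = 1) := by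
  have hp : p.Prime := Fact.out
  have hroot : ∀ a ∈ (⊤ : Subgroup Fˣ),
      ∃ β : AlgebraicClosure F, β ^ p = algebraMap F (AlgebraicClosure F) (a : F) := by
    intro a _
    exact IsAlgClosed.exists_pow_nat_eq _ hp.pos
  have hrel : (powMonoidHom p : Fˣ →* Fˣ).range.relIndex (⊤ : Subgroup Fˣ) ≠ 0 := by
    rw [Subgroup.relIndex_top_right]
    exact hfin.index_ne_zero
  obtain ⟨h1, h2, h3, h4, h5⟩ :=
    kummer_degree (Ω := AlgebraicClosure F) (W := (⊤ : Subgroup Fˣ)) hp hζ hroot hrel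
  refine ⟨↥(kumField p (⊤ : Subgroup Fˣ) (AlgebraicClosure F)), inferInstance, inferInstance,
    h1, h2, ?_, h3, h4⟩
  rw [h5, Subgroup.relIndex_top_right]

theorem stmtKummerMax_of (hF : StmtPowFinite) : StmtKummerMax := by
  intro q _ p _ F _ _ _ ζ hζ
  exact kummerMax_of_finiteIndex p F ζ hζ (hF q p F)

end Fermat.Agent.PT.L
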