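import Fermat.Agent.PT.L.Plan2

/-!
# PT-L, piece L6b: `StmtLa` from `StmtLaGen` (L6a) and `StmtH2Le` (L5)

A finite abelian group of order `≤ n` containing an element of order `n` is cyclic of order `n`.
-/

set_option autoImplicit false

namespace Fermat.Agent.PT.L

open CategoryTheory groupCohomology

lemma l6b_cyclic {A : Type*} [AddCommGroup A] [Finite A] (n : ℕ) (hle : Nat.card A ≤ n)
    (κ : A) (hκ : addOrderOf κ = n) : IsAddCyclic A ∧ Nat.card A = n := by
  have h1 : addOrderOf κ ≤ Nat.card A := addOrderOf_le_card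
  have h2 : Nat.card A = n := le_antisymm hle (hκ ▸ h1)
  exact ⟨isAddCyclic_of_addOrderOf_eq_card κ (by rw [hκ, h2]), h2⟩

/-- **L6b = (La)**. -/
theorem stmtLa (h6a : StmtLaGen) (h5 : StmtH2Le) : StmtLa := by
  intro q _ p _ k F F' _ _ _ _ _ _ _ hdeg
  obtain ⟨hfin, hle⟩ := h5 q p k F F' hdeg
  obtain ⟨κ, hκ⟩ := h6a q F F'
  rw [← hdeg] at hle
  exact l6b_cyclic (Module.finrank F F') hle κ hκ

end Fermat.Agent.PT.L
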