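/-
PT-L piece L6a, part 2 (field theory): the compositum of two finite Galois extensions `F'`, `En`
of a field `F` of characteristic zero, as a TYPE `E` with all the algebra structures.
-/
import Mathlib

set_option autoImplicit false

namespace Fermat.Agent.PT.L

open IntermediateField

/-- A compositum `E = F' · En` of two finite Galois extensions exists (as a type, with the
structure maps), and is finite Galois over `F`. -/
theorem l6_exists_compositum (F F' En : Type) [Field F] [Field F'] [Field En] [CharZero F]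
    [Algebra F F'] [Algebra F En] [FiniteDimensional F F'] [FiniteDimensional F En]
    [IsGalois F F'] [IsGalois F En] :
    ∃ (E : Type) (_ : Field E) (_ : Algebra F E) (_ : Algebra F' E) (_ : Algebra En E)
      (_ : IsScalarTower F F' E) (_ : IsScalarTower F En E),
      FiniteDimensional F E ∧ IsGalois F E ∧
      (IsScalarTower.toAlgHom F F' E).fieldRange ⊔
        (IsScalarTower.toAlgHom F En E).fieldRange = ⊤ := by
  classical
  let Ω := AlgebraicClosure F'
  let ι₁ : F' →ₐ[F] Ω := IsScalarTower.toAlgHom F F' Ω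
  let ι₂ : En →ₐ[F] Ω := IsAlgClosed.lift
  let L₁ : IntermediateField F Ω := ι₁.fieldRange
  let L₂ : IntermediateField F Ω := ι₂.fieldRange
  have hfd₁ : FiniteDimensional F L₁ :=
    LinearEquiv.finiteDimensional (AlgHom.equivFieldRange ι₁).toLinearEquiv
  have hfd₂ : FiniteDimensional F L₂ :=
    LinearEquiv.finiteDimensional (AlgHom.equivFieldRange ι₂).toLinearEquiv
  have hn₁ : Normal F L₁ := Normal.of_algEquiv (AlgHom.equivFieldRange ι₁)
  have hn₂ : Normal F L₂ := Normal.of_algEquiv (AlgHom.equivFieldRange ι₂)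
  let E : IntermediateField F Ω := L₁ ⊔ L₂
  have hfdE : FiniteDimensional F E := inferInstanceAs (FiniteDimensional F (L₁ ⊔ L₂ : IntermediateField F Ω))
  have hnE : Normal F E := inferInstanceAs (Normal F (L₁ ⊔ L₂ : IntermediateField F Ω))
  have hm₁ : ∀ x, ι₁ x ∈ E := fun x =>
    (le_sup_left : L₁ ≤ E) (AlgHom.mem_fieldRange.2 ⟨x, rfl⟩)
  have hm₂ : ∀ x, ι₂ x ∈ E := fun x =>
    (le_sup_right : L₂ ≤ E) (AlgHom.mem_fieldRange.2 ⟨x, rfl⟩)
  let j₁ : F' →ₐ[F] E := ι₁.codRestrict E.toSubalgebra hm₁
  let j₂ : En →ₐ[F] E := ι₂.codRestrict E.toSubalgebra hm₂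
  let a₁ : Algebra F' E := j₁.toRingHom.toAlgebra
  let a₂ : Algebra En E := j₂.toRingHom.toAlgebra
  have t₁ : IsScalarTower F F' E := IsScalarTower.of_algebraMap_eq fun x => (j₁.commutes x).symm
  have t₂ : IsScalarTower F En E := IsScalarTower.of_algebraMap_eq fun x => (j₂.commutes x).symm
  refine ⟨E, inferInstance, inferInstance, a₁, a₂, t₁, t₂, hfdE, ⟨⟩, ?_⟩
  apply IntermediateField.map_injective E.val
  rw [IntermediateField.map_sup, AlgHom.map_fieldRange, AlgHom.map_fieldRange,
    ← AlgHom.fieldRange_eq_map, IntermediateField.fieldRange_val]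
  have e₁ : E.val.comp (IsScalarTower.toAlgHom F F' E) = ι₁ := by
    ext x; rfl
  have e₂ : E.val.comp (IsScalarTower.toAlgHom F En E) = ι₂ := by
    ext x; rfl
  rw [e₁, e₂]

end Fermat.Agent.PT.L
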