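/-
PT-L piece L6a: `StmtLaGen` — for every finite Galois extension `F'/F` of local fields the group
`H²(Gal(F'/F), F'ˣ)` contains a class of order exactly `[F' : F]`.

Route (NOTES/PT-L-plan.md, L6): `En/F` cyclic unramified of degree `n = [F' : F]` (L3a), `E = F'·En`;
the periodicity cocycle `c_π` of `Gal(En/F)` for a uniformiser `π` has order `n` in `H²(En/F)`
(unramified: the norms have valuation in `n·w(Fˣ)`); its inflation to `E/F` dies in `H²(E/F')`
since `π` is a norm from `E` to `F'` (piece U), hence comes from `H²(F'/F)` (L4b); orders are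
preserved by inflation (L4a).
-/
import Fermat.Agent.PT.L.Plan2
import Fermat.Agent.PT.L.Unif
import Fermat.Agent.PT.L.LaGenCocycle
import Fermat.Agent.PT.L.LaGenCompositum

set_option autoImplicit false

namespace Fermat.Agent.PT.L

open CategoryTheory groupCohomology

section abstract

variable {G M : Type} [Group G] [CommGroup M] [MulDistribMulAction G M]

/-- The class of the periodicity cocycle. -/
noncomputable def l6Class (n : ℕ) [NeZero n] (ψ : G →* Multiplicative (ZMod n)) (x : M)
    (hx : ∀ g : G, g • x = x) : H2 (Rep.ofMulDistribMulAction G M) :=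
  H2π _ (cocyclesOfIsMulCocycle₂ (l6_isMulCocycle₂ n ψ x hx))

theorem l6_nsmul_class (n : ℕ) [NeZero n] (ψ : G →* Multiplicative (ZMod n)) (x : M)
    (hx : ∀ g : G, g • x = x) (m : ℕ) :
    m • l6Class n ψ x hx = l6Class n ψ (x ^ m) (fun g => by rw [smul_pow', hx]) := by
  unfold l6Class
  rw [← map_nsmul]
  congr 1
  apply cocycles₂_ext
  intro g h
  show m • Additive.ofMul (l6Coc n ψ x (g, h)) = Additive.ofMul (l6Coc n ψ (x ^ m) (g, h))
  rw [l6Coc_pow]
  rfl

theorem l6_class_eq_zero_iff (n : ℕ) [NeZero n] (ψ : G →* Multiplicative (ZMod n)) (x : M)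
    (hx : ∀ g : G, g • x = x) :
    l6Class n ψ x hx = 0 ↔ IsMulCoboundary₂ (l6Coc n ψ x) := by
  unfold l6Class
  rw [H2π_eq_zero_iff]
  constructor
  · intro h
    exact isMulCoboundary₂_of_mem_coboundaries₂ _ h
  · intro h
    exact (coboundariesOfIsMulCoboundary₂ h).2

end abstract

section field

variable (q : ℕ) [Fact q.Prime]

/-- The norm of a unit of a Galois extension as a product over the Galois group. -/
theorem l6_prod_units (F E : Type) [Field F] [Field E] [Algebra F E] [FiniteDimensional F E]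
    [IsGalois F E] (y : Eˣ) :
    ((∏ g : E ≃ₐ[F] E, g • y : Eˣ) : E) = algebraMap F E (Algebra.norm F (y : E)) := by
  rw [Algebra.norm_eq_prod_automorphisms, Units.coe_prod]
  rfl

/-- The image of a nonzero element of `F` in the units of an extension. -/
noncomputable def l6Unit (F E : Type) [Field F] [Field E] [Algebra F E] (π : F) (hπ : π ≠ 0) :
    Eˣ :=
  Units.map (algebraMap F E : F →* E) (Units.mk0 π hπ)

theorem l6Unit_val (F E : Type) [Field F] [Field E] [Algebra F E] (π : F) (hπ : π ≠ 0) :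
    ((l6Unit F E π hπ : Eˣ) : E) = algebraMap F E π := rfl

theorem l6Unit_fixed (F E : Type) [Field F] [Field E] [Algebra F E] (π : F) (hπ : π ≠ 0)
    (g : E ≃ₐ[F] E) : g • l6Unit F E π hπ = l6Unit F E π hπ := by
  apply Units.ext
  show g (algebraMap F E π) = algebraMap F E π
  exact g.commutes π

/-- `wv` of a norm from an extension. -/
theorem l6_wv_norm (F E : Type) [Field F] [Field E] [Algebra ℚ_[q] F] [Algebra F E]
    [Algebra ℚ_[q] E] [IsScalarTower ℚ_[q] F E] (y : E) :
    wv q (Algebra.norm F y) = wv q y := by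
  unfold wv
  rw [Algebra.norm_norm]

/-- `wv` of an element of the base field. -/
theorem l6_wv_algebraMap (F E : Type) [Field F] [Field E] [Algebra ℚ_[q] F] [Algebra F E]
    [Algebra ℚ_[q] E] [IsScalarTower ℚ_[q] F E] [FiniteDimensional ℚ_[q] F] (x : F) :
    wv q (algebraMap F E x) = (Module.finrank F E : ℤ) * wv q x := by
  rw [← l6_wv_norm q F E, Algebra.norm_algebraMap, l0b_wv_pow]

/-- The periodicity class of a uniformiser in a cyclic unramified extension of degree `n` has
order exactly `n`. -/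
theorem l6_order (F En : Type) [Field F] [Field En] [Algebra ℚ_[q] F]
    [FiniteDimensional ℚ_[q] F] [Algebra F En] [Algebra ℚ_[q] En] [IsScalarTower ℚ_[q] F En]
    [FiniteDimensional F En] [IsGalois F En] (hun : IsUnram q F En)
    (n : ℕ) [NeZero n] (hn : Module.finrank F En = n)
    (ψ : (En ≃ₐ[F] En) →* Multiplicative (ZMod n)) (hψ : Function.Bijective ψ)
    (π : F) (hπ : π ≠ 0) (hπpos : 0 < wv q π) (hπdvd : ∀ x : F, x ≠ 0 → wv q π ∣ wv q x) :
    addOrderOf (l6Class n ψ (l6Unit F En π hπ) (l6Unit_fixed F En π hπ)) = n := by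
  classical
  apply Nat.dvd_antisymm
  · -- `n • class = 0`
    apply addOrderOf_dvd_of_nsmul_eq_zero
    rw [l6_nsmul_class, l6_class_eq_zero_iff]
    have h := l6_isMulCoboundary₂ n ψ (l6Unit F En π hπ)
    have hprod : ∏ g : En ≃ₐ[F] En, g • l6Unit F En π hπ = l6Unit F En π hπ ^ n := by
      rw [Finset.prod_congr rfl fun g _ => l6Unit_fixed F En π hπ g, Finset.prod_const,
        Finset.card_univ, ← Nat.card_eq_fintype_card, IsGalois.card_aut_eq_finrank, hn]
    rwa [hprod] at h
  · -- `m • class = 0 → n ∣ m`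
    set u := l6Class n ψ (l6Unit F En π hπ) (l6Unit_fixed F En π hπ) with hu
    have h0 : addOrderOf u • u = 0 := addOrderOf_nsmul_eq_zero u
    rw [hu, l6_nsmul_class, l6_class_eq_zero_iff] at h0
    obtain ⟨y, hy⟩ := l6_exists_norm n ψ hψ _ h0
    have hy' : algebraMap F En (Algebra.norm F (y : En)) = algebraMap F En (π ^ addOrderOf u) := by
      rw [← l6_prod_units, hy, map_pow]
      rfl
    have hnorm : Algebra.norm F (y : En) = π ^ addOrderOf u :=
      (algebraMap F En).injective hy'
    obtain ⟨x₀, hx₀, hx₀y⟩ := hun (y : En) y.ne_zero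
    obtain ⟨t, ht⟩ := hπdvd x₀ hx₀
    have h1 : wv q (π ^ addOrderOf u) = wv q (y : En) := by
      rw [← hnorm, l6_wv_norm]
    rw [l0b_wv_pow, ← hx₀y, l6_wv_algebraMap, hn, ht] at h1
    have h2 : ((addOrderOf u : ℕ) : ℤ) = (n : ℤ) * t := by
      have h3 : wv q π * ((addOrderOf u : ℕ) : ℤ) = wv q π * ((n : ℤ) * t) := by
        rw [mul_comm, h1]; ring
      exact mul_left_cancel₀ hπpos.ne' h3
    exact Int.natCast_dvd_natCast.1 ⟨t, h2⟩

end field

end Fermat.Agent.PT.L

namespace Fermat.Agent.PT.L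

open CategoryTheory groupCohomology

section tower

variable (F F' En E : Type) [Field F] [Field F'] [Field En] [Field E]
  [Algebra F F'] [Algebra F En] [Algebra F E] [Algebra F' E] [Algebra En E]
  [IsScalarTower F F' E] [IsScalarTower F En E] [Normal F En]

/-- The composite `Gal(E/F') → Gal(E/F) → Gal(En/F)`. -/
noncomputable def l6Rho : (E ≃ₐ[F'] E) →* (En ≃ₐ[F] En) :=
  (AlgEquiv.restrictNormalHom (F := F) (K₁ := E) En).comp (AlgEquiv.restrictScalarsHom F)

omit [Normal F En] in
theorem l6Unit_map (π : F) (hπ : π ≠ 0) :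
    Units.map (algebraMap En E : En →* E) (l6Unit F En π hπ) = l6Unit F E π hπ := by
  apply Units.ext
  show algebraMap En E (algebraMap F En π) = algebraMap F E π
  rw [← IsScalarTower.algebraMap_apply]

theorem l6Unit_fixed' (π : F) (hπ : π ≠ 0) (g : E ≃ₐ[F'] E) :
    g • l6Unit F E π hπ = l6Unit F E π hπ := by
  apply Units.ext
  show g (algebraMap F E π) = algebraMap F E π
  rw [IsScalarTower.algebraMap_apply F F' E, g.commutes]

/-- Restriction to `E/F'` of the inflation to `E/F` of the periodicity class of `En/F`. -/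
theorem l6_res_infl (n : ℕ) [NeZero n] (ψ : (En ≃ₐ[F] En) →* Multiplicative (ZMod n))
    (π : F) (hπ : π ≠ 0) :
    (resF F F' E).hom ((infl F En E).hom
      (l6Class n ψ (l6Unit F En π hπ) (l6Unit_fixed F En π hπ))) =
    l6Class n (ψ.comp (l6Rho F F' En E)) (l6Unit F E π hπ) (l6Unit_fixed' F F' E π hπ) := by
  unfold resF infl l6Class
  erw [H2π_comp_map_apply, H2π_comp_map_apply]
  congr 1
  apply cocycles₂_ext
  intro g h
  show Additive.ofMul (Units.map (algebraMap En E : En →* E)
      (l6Coc n ψ (l6Unit F En π hπ) (l6Rho F F' En E g, l6Rho F F' En E h))) =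
    Additive.ofMul (l6Coc n (ψ.comp (l6Rho F F' En E)) (l6Unit F E π hπ) (g, h))
  rw [l6Coc_apply, l6Coc_apply, map_pow, l6Unit_map]
  rfl

end tower

end Fermat.Agent.PT.L

namespace Fermat.Agent.PT.L

open CategoryTheory groupCohomology

/-- **L6a**: `StmtLaGen` from the unramified extensions (L3a), the compositum norm statement (U),
injectivity of inflation (L4a) and inflation–restriction (L4b). -/
theorem stmtLaGen_of (hU : StmtUnramExists) (hC : StmtCompositumNorm) (hLd : StmtLd)
    (hIR : StmtInfResField) : StmtLaGen := by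
  intro q _ F F' _ _ _ _ _ _ _
  classical
  have hchar : CharZero F := charZero_of_injective_algebraMap (algebraMap ℚ_[q] F).injective
  obtain ⟨En, _, _, _, _, hfdEn, hgalEn, hdeg, hcyc, hun⟩ :=
    hU q F (Module.finrank F F') Module.finrank_pos
  obtain ⟨E, _, _, _, _, _, _, hfdE, hgalE, hsup⟩ := l6_exists_compositum F F' En
  obtain ⟨π, hπ, hπpos, hπdvd⟩ := stmtWUnif q F
  have hcard : Nat.card (En ≃ₐ[F] En) = Module.finrank F En := IsGalois.card_aut_eq_finrank F En
  have hne : NeZero (Nat.card (En ≃ₐ[F] En)) := ⟨Nat.card_pos.ne'⟩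
  let ψ : (En ≃ₐ[F] En) →* Multiplicative (ZMod (Nat.card (En ≃ₐ[F] En))) :=
    (zmodCyclicMulEquiv hcyc).symm.toMonoidHom
  have hψ : Function.Bijective ψ := (zmodCyclicMulEquiv hcyc).symm.bijective
  have hord := l6_order q F En hun (Nat.card (En ≃ₐ[F] En)) hcard.symm ψ hψ π hπ hπpos hπdvd
  have hres : (resF F F' E).hom ((infl F En E).hom
      (l6Class (Nat.card (En ≃ₐ[F] En)) ψ (l6Unit F En π hπ) (l6Unit_fixed F En π hπ))) = 0 := by
    refine (l6_res_infl F F' En E _ ψ π hπ).trans ((l6_class_eq_zero_iff _ _ _ _).2 ?_)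
    have hfd' : FiniteDimensional F' E := FiniteDimensional.right F F' E
    have hgal' : IsGalois F' E := IsGalois.tower_top_of_isGalois F F' E
    obtain ⟨y, hy⟩ := hC q F F' En E hcyc hun hdeg hsup π
    have hy0 : y ≠ 0 := by
      rintro rfl
      rw [Algebra.norm_zero] at hy
      exact hπ ((algebraMap F F').injective (by rw [← hy, map_zero]))
    have hprod : ∏ g : E ≃ₐ[F'] E, g • Units.mk0 y hy0 = l6Unit F E π hπ := by
      apply Units.ext
      rw [l6_prod_units, l6Unit_val, Units.val_mk0, hy, ← IsScalarTower.algebraMap_apply]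
    rw [← hprod]
    exact l6_isMulCoboundary₂ _ _ _
  obtain ⟨κ', hκ'⟩ := hIR F F' E _ hres
  refine ⟨κ', ?_⟩
  have h1 : addOrderOf ((infl F F' E).hom κ') = addOrderOf κ' :=
    addOrderOf_injective ((infl F F' E).hom).toAddMonoidHom (hLd F F' E) κ'
  have h2 : addOrderOf ((infl F En E).hom
      (l6Class (Nat.card (En ≃ₐ[F] En)) ψ (l6Unit F En π hπ) (l6Unit_fixed F En π hπ))) =
      addOrderOf (l6Class (Nat.card (En ≃ₐ[F] En)) ψ (l6Unit F En π hπ)
        (l6Unit_fixed F En π hπ)) :=
    addOrderOf_injective ((infl F En E).hom).toAddMonoidHom (hLd F En E) _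
  rw [← h1, hκ', h2, hord, hcard, hdeg]

end Fermat.Agent.PT.L
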