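/-
PT-L / L7 (helper74): the index of `n`-th powers via a subgroup of finite index.

`l7_index_powRange`: for a commutative group `B`, a subgroup `A` of finite index, `f = (· ^ n)`:
  `[B : Bⁿ] = [A : Aⁿ] · [T : T ∩ A]`, `T = ker f`; in particular `[B : Bⁿ] ≠ 0` and
  `[B : Bⁿ] ≤ [A : Aⁿ] · |T|`.
-/
import Mathlib
import Fermat.Agent.PT.X.PowIndex

set_option autoImplicit false

namespace Fermat.Agent.PT.L

open Fermat.Agent.PT.X

variable {B : Type*} [CommGroup B]

/-- `[B : Bⁿ] = [A : Aⁿ] · [T : T ∩ A]` for a subgroup `A` of finite index, `T = B[n]`. -/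
theorem l7_index_powRange (A : Subgroup B) (n : ℕ) (hA : A.index ≠ 0) :
    (powRange B n).index =
      (A.map (powMonoidHom n : B →* B)).relIndex A *
        A.relIndex (powMonoidHom n : B →* B).ker := by
  have hle : A.map (powMonoidHom n : B →* B) ≤ A := by
    rintro _ ⟨a, ha, rfl⟩
    exact A.pow_mem ha n
  have h1 := Subgroup.index_map A (powMonoidHom n : B →* B)
  have h2 := Subgroup.relIndex_mul_index hle
  have h3 := Subgroup.relIndex_mul_index (le_sup_left : A ≤ A ⊔ (powMonoidHom n : B →* B).ker)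
  have h4 : A.relIndex (A ⊔ (powMonoidHom n : B →* B).ker) =
      A.relIndex (powMonoidHom n : B →* B).ker := Subgroup.relIndex_sup_left _ _
  have h5 : (A ⊔ (powMonoidHom n : B →* B).ker).index ≠ 0 := by
    intro h
    rw [h, mul_zero] at h3
    exact hA h3.symm
  have h6 : (A ⊔ (powMonoidHom n : B →* B).ker).index * (powRange B n).index =
      (A ⊔ (powMonoidHom n : B →* B).ker).index *
        ((A.map (powMonoidHom n : B →* B)).relIndex A *
          A.relIndex (powMonoidHom n : B →* B).ker) := by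
    rw [← h1, ← h2, ← h3, h4]
    ring
  exact Nat.eq_of_mul_eq_mul_left (Nat.pos_of_ne_zero h5) h6

/-- Finiteness and upper bound for `[B : Bⁿ]`. -/
theorem l7_index_powRange_le (A : Subgroup B) (n : ℕ) (hA : A.index ≠ 0)
    (hAn : (A.map (powMonoidHom n : B →* B)).relIndex A ≠ 0)
    [Finite (powMonoidHom n : B →* B).ker] :
    (powRange B n).index ≠ 0 ∧
      (powRange B n).index ≤ (A.map (powMonoidHom n : B →* B)).relIndex A *
        Nat.card (powMonoidHom n : B →* B).ker := by
  rw [l7_index_powRange A n hA]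
  have hdvd := Subgroup.relIndex_dvd_card A (powMonoidHom n : B →* B).ker
  have hpos : 0 < Nat.card (powMonoidHom n : B →* B).ker := Nat.card_pos
  have hne : A.relIndex (powMonoidHom n : B →* B).ker ≠ 0 := by
    intro h
    rw [h, zero_dvd_iff] at hdvd
    omega
  exact ⟨mul_ne_zero hAn hne, Nat.mul_le_mul_left _ (Nat.le_of_dvd hpos hdvd)⟩

end Fermat.Agent.PT.L
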