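/-
PT-L / L7 (helper74): a `ℤ_p`-stable additive subgroup `Λ` of a `ℚ_p`-vector space of dimension `n`
has `|Λ / pΛ| ≤ p ^ n`.
-/
import Mathlib

set_option autoImplicit false

namespace Fermat.Agent.PT.L

variable {p : ℕ} [hp : Fact p.Prime] {F : Type*} [AddCommGroup F] [Module ℚ_[p] F]
  [FiniteDimensional ℚ_[p] F]

/-- Reduction of a `p`-adic number of norm `≤ 1`: `b = r + p c` with `r ∈ {0, …, p-1}`, `‖c‖ ≤ 1`,
and `r ≡ 1` if `b = 1`. -/
lemma l7_padic_reduce (b : ℚ_[p]) (hb : ‖b‖ ≤ 1) :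
    ∃ (r : ZMod p) (c : ℚ_[p]), ‖c‖ ≤ 1 ∧ b = (r.val : ℚ_[p]) + p * c ∧ (b = 1 → r = 1) := by
  set bI : ℤ_[p] := ⟨b, hb⟩ with hbI
  have hspec := PadicInt.toZMod_spec bI
  rw [PadicInt.maximalIdeal_eq_span_p, Ideal.mem_span_singleton] at hspec
  obtain ⟨c, hc⟩ := hspec
  refine ⟨PadicInt.toZMod bI, (c : ℚ_[p]), c.2, ?_, ?_⟩
  · have h1 : ((bI - (ZMod.cast (PadicInt.toZMod bI) : ℤ_[p]) : ℤ_[p]) : ℚ_[p]) =
        ((p * c : ℤ_[p]) : ℚ_[p]) := congrArg _ hc
    have h2 : ((ZMod.cast (PadicInt.toZMod bI) : ℤ_[p]) : ℚ_[p]) =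
        ((PadicInt.toZMod bI).val : ℚ_[p]) := by
      rw [← ZMod.natCast_val]
      push_cast
      rfl
    push_cast at h1
    rw [h2] at h1
    have h3 : ((bI : ℤ_[p]) : ℚ_[p]) = b := rfl
    rw [h3] at h1
    linear_combination h1
  · intro h1
    have : bI = 1 := by
      apply Subtype.ext
      exact h1
    rw [this, map_one]

/-- A vector space over `𝔽_p` of rank `≤ n` has at most `p ^ n` elements. -/
lemma l7_card_le_of_rank_le (V : Type*) [AddCommGroup V] [Module (ZMod p) V] (n : ℕ)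
    (h : Module.rank (ZMod p) V ≤ (n : ℕ)) : Finite V ∧ Nat.card V ≤ p ^ n := by
  have hfin : Module.Finite (ZMod p) V :=
    Module.rank_lt_aleph0_iff.mp (lt_of_le_of_lt h (Cardinal.natCast_lt_aleph0))
  have : Finite V := Module.finite_of_finite (ZMod p)
  refine ⟨this, ?_⟩
  have : Fintype V := Fintype.ofFinite _
  rw [Nat.card_eq_fintype_card, Module.card_eq_pow_finrank (K := ZMod p), ZMod.card]
  exact Nat.pow_le_pow_right hp.out.pos (Module.finrank_le_of_rank_le h)

/-- **Lattice count**: `|Λ / pΛ| ≤ p ^ dim` for a `ℤ_p`-stable subgroup `Λ`. -/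
theorem l7_lattice_card (Λ : AddSubgroup F)
    (hΛ : ∀ a : ℚ_[p], ‖a‖ ≤ 1 → ∀ x ∈ Λ, a • x ∈ Λ) :
    Finite (Λ ⧸ (nsmulAddMonoidHom (α := Λ) p).range) ∧
      Nat.card (Λ ⧸ (nsmulAddMonoidHom (α := Λ) p).range) ≤ p ^ Module.finrank ℚ_[p] F := by
  classical
  set P : AddSubgroup Λ := (nsmulAddMonoidHom (α := Λ) p).range with hP
  have hkill : ∀ v : Λ ⧸ P, p • v = 0 := by
    intro v
    induction v using QuotientAddGroup.induction_on with
    | H x =>
      rw [← QuotientAddGroup.mk_nsmul, QuotientAddGroup.eq_zero_iff]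
      exact ⟨x, rfl⟩
  let _ : Module (ZMod p) (Λ ⧸ P) := AddCommGroup.zmodModule hkill
  have hsmul : ∀ (r : ZMod p) (v : Λ ⧸ P), r • v = r.val • v := by
    intro r v
    conv_lhs => rw [← ZMod.natCast_zmod_val r]
    exact Nat.cast_smul_eq_nsmul (ZMod p) r.val v
  have hrank : Module.rank (ZMod p) (Λ ⧸ P) ≤ (Module.finrank ℚ_[p] F : ℕ) := by
    apply rank_le
    intro s hs
    by_contra hlt
    rw [not_le] at hlt
    -- lifts
    let lift : (Λ ⧸ P) → Λ := Function.surjInv (QuotientAddGroup.mk_surjective (s := P))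
    have hlift : ∀ v, (QuotientAddGroup.mk (lift v) : Λ ⧸ P) = v :=
      Function.surjInv_eq (QuotientAddGroup.mk_surjective (s := P))
    let x : s → F := fun i => ((lift i.1 : Λ) : F)
    have hdep : ¬ LinearIndependent ℚ_[p] x := by
      intro hli
      have := hli.fintype_card_le_finrank
      rw [Fintype.card_coe] at this
      omega
    obtain ⟨g, hsum, i₀, hi₀⟩ := Fintype.not_linearIndependent_iff.mp hdep
    obtain ⟨j, -, hj⟩ := Finset.exists_max_image Finset.univ (fun i => ‖g i‖) ⟨i₀, Finset.mem_univ _⟩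
    have hgj : g j ≠ 0 := by
      intro h
      have h1 := hj i₀ (Finset.mem_univ _)
      rw [h, norm_zero] at h1
      exact hi₀ (norm_le_zero_iff.mp h1)
    have hb : ∀ i, ‖g i / g j‖ ≤ 1 := by
      intro i
      rw [norm_div]
      exact div_le_one_of_le₀ (hj i (Finset.mem_univ _)) (norm_nonneg _)
    have hsum' : ∑ i, (g i / g j) • x i = 0 := by
      have : ∑ i, (g i / g j) • x i = (g j)⁻¹ • ∑ i, g i • x i := by
        rw [Finset.smul_sum]
        refine Finset.sum_congr rfl (fun i _ => ?_)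
        rw [smul_smul, div_eq_inv_mul]
      rw [this, hsum, smul_zero]
    choose r c hc hbr hr1 using fun i => l7_padic_reduce (g i / g j) (hb i)
    -- the relation mod p
    have hrel : ∑ i, r i • (i : Λ ⧸ P) = 0 := by
      have h1 : ∀ i : s, r i • ((i : Λ ⧸ P)) =
          (QuotientAddGroup.mk ((r i).val • lift i.1) : Λ ⧸ P) := by
        intro i
        rw [hsmul, QuotientAddGroup.mk_nsmul, hlift]
      rw [Finset.sum_congr rfl (fun i _ => h1 i), ← QuotientAddGroup.mk_sum,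
        QuotientAddGroup.eq_zero_iff]
      -- the element `y = - ∑ c i • x i ∈ Λ`
      have hyΛ : (-∑ i, c i • x i) ∈ Λ := by
        apply Λ.neg_mem
        apply Λ.sum_mem
        intro i _
        exact hΛ (c i) (hc i) _ (lift i.1).2
      refine ⟨⟨_, hyΛ⟩, ?_⟩
      apply Subtype.ext
      simp only [nsmulAddMonoidHom_apply, AddSubgroup.coe_nsmul, AddSubgroup.val_finsetSum]
      have h2 : ∀ i : s, ((r i).val : ℚ_[p]) • x i = (g i / g j) • x i - (p : ℚ_[p]) • (c i • x i) := by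
        intro i
        rw [smul_smul, ← sub_smul]
        congr 1
        rw [hbr i]
        ring
      have h3 : ∀ i : s, (r i).val • x i = ((r i).val : ℚ_[p]) • x i := fun i =>
        (Nat.cast_smul_eq_nsmul ℚ_[p] _ _).symm
      have h4 : p • (-∑ i, c i • x i) = (p : ℚ_[p]) • (-∑ i, c i • x i) :=
        (Nat.cast_smul_eq_nsmul ℚ_[p] _ _).symm
      rw [h4, Finset.sum_congr rfl (fun i _ => (h3 i).trans (h2 i)), Finset.sum_sub_distrib,
        hsum', zero_sub, smul_neg, Finset.smul_sum]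
    have hzero := (Fintype.linearIndependent_iff.mp hs) r hrel j
    have hone : r j = 1 := hr1 j (div_self hgj)
    rw [hone] at hzero
    have : Fact (1 < p) := ⟨hp.out.one_lt⟩
    exact one_ne_zero hzero
  exact l7_card_le_of_rank_le (Λ ⧸ P) _ hrank

end Fermat.Agent.PT.L
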