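/-
PT-L / L7 (helper74): abstract calculus for an integer-valued valuation `w : F → ℤ` on a field
(value at `0` irrelevant), and extraction of `n`-th roots by successive approximation.

* `L7Val w`   : `w 1 = 0`, `w (x y) = w x + w y`, ultrametric inequality (for nonzero arguments).
* `l7Ge w k x`: `x = 0 ∨ k ≤ w x`  ("`x ∈ {w ≥ k}`"), with the usual closure properties.
* `l7_exists_root` : if `w` is complete, `e = w n`, `m ≥ e + 1`, `m ≥ 1` and `u ≡ 1 mod {w ≥ m + e}`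
  then `u = y ^ n` with `y ≡ 1 mod {w ≥ m}`.
-/
import Mathlib

set_option autoImplicit false
set_option linter.unusedSectionVars false

namespace Fermat.Agent.PT.L

variable {F : Type*} [Field F]

/-- Abstract valuation data (only nonzero arguments matter). -/
structure L7Val (w : F → ℤ) : Prop where
  map_one : w 1 = 0
  map_mul : ∀ x y : F, x ≠ 0 → y ≠ 0 → w (x * y) = w x + w y
  map_add : ∀ x y : F, x ≠ 0 → y ≠ 0 → x + y ≠ 0 → min (w x) (w y) ≤ w (x + y)

/-- `x ∈ {w ≥ k}`. -/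
def l7Ge (w : F → ℤ) (k : ℤ) (x : F) : Prop := x = 0 ∨ k ≤ w x

/-- Completeness: sequences with `s (k+1) ≡ s k mod {w ≥ k}` converge. -/
def L7Complete (w : F → ℤ) : Prop :=
  ∀ s : ℕ → F, (∀ k : ℕ, l7Ge w (k : ℤ) (s (k + 1) - s k)) →
    ∃ y : F, ∀ k : ℕ, l7Ge w (k : ℤ) (y - s k)

namespace L7Val

variable {w : F → ℤ} (hw : L7Val w)
include hw

lemma neg_one : w (-1) = 0 := by
  have h := hw.map_mul (-1) (-1) (by simp) (by simp)
  rw [neg_mul_neg, one_mul, hw.map_one] at h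
  omega

lemma map_neg (x : F) : w (-x) = w x := by
  rcases eq_or_ne x 0 with rfl | hx
  · simp
  · have h := hw.map_mul (-1) x (by simp) hx
    rw [neg_one_mul, hw.neg_one, zero_add] at h
    exact h

lemma map_inv (x : F) (hx : x ≠ 0) : w x⁻¹ = - w x := by
  have h := hw.map_mul x x⁻¹ hx (inv_ne_zero hx)
  rw [mul_inv_cancel₀ hx, hw.map_one] at h
  omega

lemma map_pow (x : F) (hx : x ≠ 0) (n : ℕ) : w (x ^ n) = n * w x := by
  induction n with
  | zero => simp [hw.map_one]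
  | succ n ih =>
    rw [pow_succ, hw.map_mul _ _ (pow_ne_zero n hx) hx, ih]
    push_cast
    ring

lemma ge_zero (k : ℤ) : l7Ge w k (0 : F) := Or.inl rfl

lemma ge_mono {k k' : ℤ} {x : F} (h : l7Ge w k x) (hk : k' ≤ k) : l7Ge w k' x := by
  rcases h with h | h
  · exact Or.inl h
  · exact Or.inr (hk.trans h)

lemma ge_add {k : ℤ} {x y : F} (hx : l7Ge w k x) (hy : l7Ge w k y) : l7Ge w k (x + y) := by
  rcases eq_or_ne x 0 with rfl | hx0
  · simpa using hy
  rcases eq_or_ne y 0 with rfl | hy0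
  · simpa using hx
  rcases eq_or_ne (x + y) 0 with h | h
  · exact Or.inl h
  rcases hx with hx | hx
  · exact absurd hx hx0
  rcases hy with hy | hy
  · exact absurd hy hy0
  exact Or.inr ((le_min hx hy).trans (hw.map_add x y hx0 hy0 h))

lemma ge_neg {k : ℤ} {x : F} (hx : l7Ge w k x) : l7Ge w k (-x) := by
  rcases hx with hx | hx
  · exact Or.inl (by simp [hx])
  · exact Or.inr (by rw [hw.map_neg]; exact hx)

lemma ge_sub {k : ℤ} {x y : F} (hx : l7Ge w k x) (hy : l7Ge w k y) : l7Ge w k (x - y) := by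
  rw [sub_eq_add_neg]
  exact hw.ge_add hx (hw.ge_neg hy)

lemma ge_mul {a b : ℤ} {x y : F} (hx : l7Ge w a x) (hy : l7Ge w b y) :
    l7Ge w (a + b) (x * y) := by
  rcases eq_or_ne x 0 with rfl | hx0
  · exact Or.inl (by simp)
  rcases eq_or_ne y 0 with rfl | hy0
  · exact Or.inl (by simp)
  rcases hx with hx | hx
  · exact absurd hx hx0
  rcases hy with hy | hy
  · exact absurd hy hy0
  exact Or.inr (by rw [hw.map_mul x y hx0 hy0]; omega)

lemma ge_one : l7Ge w 0 (1 : F) := Or.inr (by rw [hw.map_one])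

lemma ge_mul_int {k : ℤ} {x y : F} (hx : l7Ge w 0 x) (hy : l7Ge w k y) : l7Ge w k (x * y) := by
  have := hw.ge_mul hx hy
  rwa [zero_add] at this

lemma ge_mul_int' {k : ℤ} {x y : F} (hx : l7Ge w k x) (hy : l7Ge w 0 y) : l7Ge w k (x * y) := by
  have := hw.ge_mul hx hy
  rwa [add_zero] at this

lemma ge_pow {a : ℤ} {x : F} (hx : l7Ge w a x) (n : ℕ) : l7Ge w (n * a) (x ^ n) := by
  induction n with
  | zero => simpa using hw.ge_one
  | succ n ih =>
    rw [pow_succ]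
    have := hw.ge_mul ih hx
    convert this using 1
    push_cast
    ring

lemma ge_pow_int {x : F} (hx : l7Ge w 0 x) (n : ℕ) : l7Ge w 0 (x ^ n) := by
  have := hw.ge_pow hx n
  simpa using this

lemma ge_natCast (n : ℕ) : l7Ge w 0 (n : F) := by
  induction n with
  | zero => simpa using hw.ge_zero 0
  | succ n ih =>
    push_cast
    exact hw.ge_add ih hw.ge_one

lemma ge_sum {ι : Type*} (s : Finset ι) (f : ι → F) (k : ℤ) (h : ∀ i ∈ s, l7Ge w k (f i)) :
    l7Ge w k (∑ i ∈ s, f i) := by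
  classical
  induction s using Finset.induction_on with
  | empty => simpa using hw.ge_zero k
  | insert a s ha ih =>
    rw [Finset.sum_insert ha]
    exact hw.ge_add (h a (Finset.mem_insert_self a s))
      (ih fun i hi => h i (Finset.mem_insert_of_mem hi))

/-- An element `≡ 1 mod {w ≥ 1}` is a unit of valuation `0`. -/
lemma unit_of_ge {x : F} {k : ℤ} (hk : 1 ≤ k) (hx : l7Ge w k (x - 1)) : x ≠ 0 ∧ w x = 0 := by
  have hx0 : x ≠ 0 := by
    rintro rfl
    rcases hx with hx | hx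
    · simp at hx
    · rw [zero_sub, hw.neg_one] at hx
      omega
  refine ⟨hx0, ?_⟩
  rcases eq_or_ne (x - 1) 0 with h | h
  · rw [sub_eq_zero] at h
    rw [h, hw.map_one]
  rcases hx with hx | hx
  · exact absurd hx h
  have h1 : min (w 1) (w (x - 1)) ≤ w (1 + (x - 1)) :=
    hw.map_add 1 (x - 1) one_ne_zero h (by simpa using hx0)
  have h2 : min (w x) (w (-(x - 1))) ≤ w (x + -(x - 1)) :=
    hw.map_add x (-(x - 1)) hx0 (neg_ne_zero.mpr h) (by simp)
  rw [hw.map_one, add_sub_cancel] at h1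
  rw [hw.map_neg, show x + -(x - 1) = 1 by ring, hw.map_one] at h2
  rcases le_total (w x) (w (x - 1)) with h3 | h3
  · rw [min_eq_left h3] at h2
    have : 0 ≤ w x := by
      rcases le_total 0 (w (x - 1)) with h4 | h4
      · rw [min_eq_left h4] at h1; exact h1
      · omega
    omega
  · rw [min_eq_right h3] at h2
    omega

lemma ge_zero_of_ge {x : F} {k : ℤ} (hk : 1 ≤ k) (hx : l7Ge w k (x - 1)) : l7Ge w 0 x :=
  Or.inr (by rw [(hw.unit_of_ge hk hx).2])

lemma ge_inv_of_unit {x : F} (hx0 : x ≠ 0) (hx : w x = 0) : l7Ge w 0 x⁻¹ :=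
  Or.inr (by rw [hw.map_inv x hx0, hx]; simp)

/-- Separatedness. -/
lemma eq_zero_of_forall_ge {x : F} (h : ∀ k : ℕ, l7Ge w (k : ℤ) x) : x = 0 := by
  by_contra hx
  rcases h (w x + 1).toNat with h1 | h1
  · exact hx h1
  · have := Int.self_le_toNat (w x + 1)
    omega

end L7Val

/-! ### Extraction of `n`-th roots -/

/-- `(1 + t) ^ n = 1 + n t + t² G_n(t)`. -/
def l7G (t : F) : ℕ → F
  | 0 => 0
  | n + 1 => n + (1 + t) * l7G t n

lemma l7_one_add_pow (t : F) (n : ℕ) : (1 + t) ^ n = 1 + n * t + t ^ 2 * l7G t n := by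
  induction n with
  | zero => simp [l7G]
  | succ n ih =>
    rw [pow_succ, ih, l7G]
    push_cast
    ring

lemma l7G_ge {w : F → ℤ} (hw : L7Val w) {t : F} (ht : l7Ge w 0 t) (n : ℕ) :
    l7Ge w 0 (l7G t n) := by
  induction n with
  | zero => exact hw.ge_zero 0
  | succ n ih =>
    rw [l7G]
    exact hw.ge_add (hw.ge_natCast n) (hw.ge_mul_int (hw.ge_add hw.ge_one ht) ih)

/-- The Newton sequence for `y ^ n = u` starting at `1`. -/
noncomputable def l7Seq (n : ℕ) (u : F) : ℕ → F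
  | 0 => 1
  | k + 1 => l7Seq n u k * (1 + (u - l7Seq n u k ^ n) / (n * l7Seq n u k ^ n))

lemma l7Seq_step {w : F → ℤ} (hw : L7Val w) {n : ℕ} (hn : (n : F) ≠ 0) {e m : ℤ}
    (he : w (n : F) = e) (hm : e + 1 ≤ m) (hm1 : 1 ≤ m) {u Y : F} (k : ℕ)
    (hY : l7Ge w m (Y - 1)) (hu : l7Ge w (m + e + k) (u - Y ^ n)) :
    l7Ge w (m + k) ((u - Y ^ n) / (n * Y ^ n)) ∧
    l7Ge w m (Y * (1 + (u - Y ^ n) / (n * Y ^ n)) - 1) ∧
    l7Ge w (m + e + (k + 1 : ℕ)) (u - (Y * (1 + (u - Y ^ n) / (n * Y ^ n))) ^ n) := by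
  obtain ⟨hY0, hYw⟩ := hw.unit_of_ge hm1 hY
  have hYn0 : Y ^ n ≠ 0 := pow_ne_zero n hY0
  have hYnw : w (Y ^ n) = 0 := by rw [hw.map_pow Y hY0, hYw, mul_zero]
  have hYint : l7Ge w 0 Y := Or.inr (by rw [hYw])
  have hYnint : l7Ge w 0 (Y ^ n) := Or.inr (by rw [hYnw])
  set t : F := (u - Y ^ n) / (n * Y ^ n) with ht
  have htge : l7Ge w (m + k) t := by
    have h1 : l7Ge w (-e) ((n : F)⁻¹) := Or.inr (by rw [hw.map_inv _ hn, he])
    have h2 : l7Ge w 0 ((Y ^ n)⁻¹) := hw.ge_inv_of_unit hYn0 hYnw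
    have h3 : t = (u - Y ^ n) * ((n : F)⁻¹ * (Y ^ n)⁻¹) := by
      rw [ht, div_eq_mul_inv, mul_inv]
    rw [h3]
    have h4 := hw.ge_mul hu (hw.ge_mul h1 h2)
    exact hw.ge_mono h4 (by omega)
  have htint : l7Ge w 0 t := hw.ge_mono htge (by omega)
  refine ⟨htge, ?_, ?_⟩
  · have h1 : Y * (1 + t) - 1 = (Y - 1) + Y * t := by ring
    rw [h1]
    exact hw.ge_add hY (hw.ge_mono (hw.ge_mul_int hYint htge) (by omega))
  · have h1 : u - (Y * (1 + t)) ^ n = -(Y ^ n * (t ^ 2 * l7G t n)) := by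
      rw [mul_pow, l7_one_add_pow]
      have h2 : Y ^ n * ((n : F) * t) = u - Y ^ n := by
        rw [ht]
        field_simp
      linear_combination -h2
    rw [h1]
    apply hw.ge_neg
    have h3 : l7Ge w (2 * (m + k)) (t ^ 2) := by
      have := hw.ge_pow htge 2
      simpa using this
    have h4 := hw.ge_mul_int hYnint (hw.ge_mul_int' h3 (l7G_ge hw htint n))
    exact hw.ge_mono h4 (by push_cast; omega)

lemma l7Seq_inv {w : F → ℤ} (hw : L7Val w) {n : ℕ} (hn : (n : F) ≠ 0) {e m : ℤ}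
    (he : w (n : F) = e) (hm : e + 1 ≤ m) (hm1 : 1 ≤ m) {u : F}
    (hu : l7Ge w (m + e) (u - 1)) (k : ℕ) :
    l7Ge w m (l7Seq n u k - 1) ∧ l7Ge w (m + e + k) (u - l7Seq n u k ^ n) := by
  induction k with
  | zero =>
    refine ⟨by simpa [l7Seq] using hw.ge_zero m, ?_⟩
    simpa [l7Seq] using hu
  | succ k ih =>
    obtain ⟨-, h2, h3⟩ := l7Seq_step hw hn he hm hm1 k ih.1 ih.2
    exact ⟨h2, h3⟩

/-- **Root extraction**: if `w` is complete, `e = w n`, `m ≥ max (e + 1) 1` and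
`u ≡ 1 mod {w ≥ m + e}`, then `u = y ^ n` with `y ≡ 1 mod {w ≥ m}`. -/
theorem l7_exists_root {w : F → ℤ} (hw : L7Val w) (hc : L7Complete w) {n : ℕ}
    (hn : (n : F) ≠ 0) {e m : ℤ} (he : w (n : F) = e) (hm : e + 1 ≤ m) (hm1 : 1 ≤ m) {u : F}
    (hu : l7Ge w (m + e) (u - 1)) : ∃ y : F, l7Ge w m (y - 1) ∧ y ^ n = u := by
  have he0 : 0 ≤ e := by
    rcases hw.ge_natCast (w := w) n with h | h
    · exact absurd h hn
    · rw [he] at h; exact h
  have hinv := l7Seq_inv hw hn he hm hm1 hu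
  have hclose : ∀ k : ℕ, l7Ge w (k : ℤ) (l7Seq n u (k + 1) - l7Seq n u k) := by
    intro k
    obtain ⟨h1, -, -⟩ := l7Seq_step hw hn he hm hm1 k (hinv k).1 (hinv k).2
    have h2 : l7Seq n u (k + 1) - l7Seq n u k =
        l7Seq n u k * ((u - l7Seq n u k ^ n) / (n * l7Seq n u k ^ n)) := by
      rw [l7Seq]; ring
    rw [h2]
    exact hw.ge_mono (hw.ge_mul_int (hw.ge_zero_of_ge hm1 (hinv k).1) h1) (by omega)
  obtain ⟨y, hy⟩ := hc (l7Seq n u) hclose
  have hym : l7Ge w m (y - 1) := by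
    have h1 : y - 1 = (y - l7Seq n u m.toNat) + (l7Seq n u m.toNat - 1) := by ring
    rw [h1]
    refine hw.ge_add (hw.ge_mono (hy m.toNat) ?_) (hinv m.toNat).1
    rw [Int.toNat_of_nonneg (by omega)]
  refine ⟨y, hym, ?_⟩
  have hyint : l7Ge w 0 y := hw.ge_zero_of_ge hm1 hym
  have key : ∀ k : ℕ, l7Ge w (k : ℤ) (u - y ^ n) := by
    intro k
    have h1 : u - y ^ n = (u - l7Seq n u k ^ n) +
        (∑ i ∈ Finset.range n, l7Seq n u k ^ i * y ^ (n - 1 - i)) * (l7Seq n u k - y) := by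
      rw [Commute.geom_sum₂_mul (Commute.all _ _)]
      ring
    rw [h1]
    refine hw.ge_add (hw.ge_mono (hinv k).2 (by omega)) ?_
    refine hw.ge_mul_int ?_ ?_
    · refine hw.ge_sum _ _ 0 (fun i _ => ?_)
      exact hw.ge_mul_int (hw.ge_pow_int (hw.ge_zero_of_ge hm1 (hinv k).1) i)
        (hw.ge_pow_int hyint _)
    · have := hw.ge_neg (hy k)
      rwa [neg_sub] at this
  have := L7Val.eq_zero_of_forall_ge hw key
  rw [sub_eq_zero] at this
  exact this.symm

end Fermat.Agent.PT.L
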