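/-
PT-L / L7 (helper74): the concrete valuation `wv q` of a local field satisfies the abstract
calculus of `PowCardVal.lean` (given the L0 statements `StmtWAdd`, `StmtWComplete`).
-/
import Mathlib
import Fermat.Agent.PT.L.Plan
import Fermat.Agent.PT.L.PowCardVal

set_option autoImplicit false
set_option linter.unusedSectionVars false

namespace Fermat.Agent.PT.L

variable (q : ℕ) [Fact q.Prime] (F : Type) [Field F] [Algebra ℚ_[q] F]
  [FiniteDimensional ℚ_[q] F]

lemma l7_norm_ne_zero {x : F} (hx : x ≠ 0) : Algebra.norm ℚ_[q] x ≠ 0 :=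
  Algebra.norm_ne_zero_iff.mpr hx

lemma l7_wv_one : wv q (1 : F) = 0 := by
  rw [wv, map_one, Padic.valuation_one]

lemma l7_wv_mul {x y : F} (hx : x ≠ 0) (hy : y ≠ 0) : wv q (x * y) = wv q x + wv q y := by
  rw [wv, wv, wv, map_mul, Padic.valuation_mul (l7_norm_ne_zero q F hx) (l7_norm_ne_zero q F hy)]

/-- `wv q` satisfies the abstract valuation calculus. -/
lemma l7_val (hAdd : StmtWAdd) : L7Val (wv q (F := F)) where
  map_one := l7_wv_one q F
  map_mul _ _ hx hy := l7_wv_mul q F hx hy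
  map_add x y hx hy hxy := hAdd q F x y hx hy hxy

lemma l7_ge_iff_close (k : ℤ) (x y : F) : l7Ge (wv q (F := F)) k (x - y) ↔ Close q k x y := by
  unfold l7Ge Close
  rw [sub_eq_zero]

lemma l7_complete (hC : StmtWComplete) : L7Complete (wv q (F := F)) := by
  intro s hs
  obtain ⟨y, hy⟩ := hC q F s (fun k => (l7_ge_iff_close q F _ _ _).mp (hs k))
  exact ⟨y, fun k => (l7_ge_iff_close q F _ _ _).mpr (hy k)⟩

lemma l7_wv_algebraMap (a : ℚ_[q]) :
    wv q (algebraMap ℚ_[q] F a) = (Module.finrank ℚ_[q] F : ℤ) * Padic.valuation a := by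
  rw [wv, Algebra.norm_algebraMap, Padic.valuation_pow]

include q in
lemma l7_natCast_ne_zero (n : ℕ) (hn : n ≠ 0) : (n : F) ≠ 0 := by
  have h : (n : F) = algebraMap ℚ_[q] F (n : ℚ_[q]) := by simp
  rw [h]
  exact (map_ne_zero_iff _ (algebraMap ℚ_[q] F).injective).mpr (Nat.cast_ne_zero.mpr hn)

lemma l7_wv_natCast (n : ℕ) :
    wv q ((n : F)) = (Module.finrank ℚ_[q] F : ℤ) * (padicValNat q n : ℤ) := by
  have h : (n : F) = algebraMap ℚ_[q] F (n : ℚ_[q]) := by simp
  rw [h, l7_wv_algebraMap, Padic.valuation_natCast]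

/-- `w(p) = [F : ℚ_q]` if `p = q` and `0` otherwise (`p` prime). -/
lemma l7_wv_prime (p : ℕ) [hp : Fact p.Prime] :
    wv q ((p : F)) = if q = p then (Module.finrank ℚ_[q] F : ℤ) else 0 := by
  rw [l7_wv_natCast]
  split_ifs with h
  · subst h
    rw [padicValNat_self]
    simp
  · have : padicValNat q p = 0 := by
      apply padicValNat.eq_zero_of_not_dvd
      intro hdvd
      exact h ((Nat.prime_dvd_prime_iff_eq (Fact.out : q.Prime) hp.out).mp hdvd)
    rw [this]
    simp

/-- Multiplication by a `q`-adic integer does not decrease `w`. -/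
lemma l7_ge_smul (hAdd : StmtWAdd) (a : ℚ_[q]) (ha : ‖a‖ ≤ 1) (k : ℤ) (x : F)
    (hx : l7Ge (wv q (F := F)) k x) : l7Ge (wv q (F := F)) k (a • x) := by
  rw [Algebra.smul_def]
  refine (l7_val q F hAdd).ge_mul_int ?_ hx
  rcases eq_or_ne a 0 with rfl | ha0
  · exact Or.inl (by simp)
  · right
    rw [l7_wv_algebraMap]
    have h1 : 0 ≤ Padic.valuation a := by
      have h2 := Padic.norm_eq_zpow_neg_valuation ha0
      rw [h2] at ha
      by_contra hneg
      rw [not_le] at hneg
      have h3 : (1 : ℝ) < (q : ℝ) ^ (-Padic.valuation a) := by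
        apply one_lt_zpow₀
        · exact_mod_cast (Fact.out : q.Prime).one_lt
        · omega
      linarith
    positivity

end Fermat.Agent.PT.L
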