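/-
PT-L / L7a + L7c (helper74): the index of `p`-th powers in the multiplicative group of a local field.

Main results (UNCONDITIONAL; the L0 statements `stmtWAdd`, `stmtWComplete`, `stmtWFinite` are used):
* `l7_pow_index_of` : `StmtWAdd → StmtWComplete → StmtWFinite →`
     `[Fˣ : Fˣᵖ] ≠ 0 ∧ [Fˣ : Fˣᵖ] ≤ p ^ (2 + if q = p then [F : ℚ_q] else 0)`;
* `l7_pow_index`    : the same without hypotheses (no root of unity is needed for the bound);
* `stmtPowFinite`   : `StmtPowFinite`   (L7a);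
* `stmtPowCard`     : `StmtPowCard`     (L7c of `Plan2.lean`, the count requested by PT-X).
-/
import Mathlib
import Fermat.Agent.PT.L.Plan
import Fermat.Agent.PT.L.Plan2
import Fermat.Agent.PT.L.Val
import Fermat.Agent.PT.L.Complete
import Fermat.Agent.PT.L.FiniteQuotFinal
import Fermat.Agent.PT.L.PowCardW
import Fermat.Agent.PT.L.PowCardAlg
import Fermat.Agent.PT.L.PowCardLattice

set_option autoImplicit false
set_option linter.unusedSectionVars false

namespace Fermat.Agent.PT.L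

open Fermat.Agent.PT.X

variable (q : ℕ) [Fact q.Prime] (F : Type) [Field F] [Algebra ℚ_[q] F]
  [FiniteDimensional ℚ_[q] F]

/-- The valuation as a homomorphism `Fˣ → ℤ`. -/
noncomputable def l7wHom : Fˣ →* Multiplicative ℤ where
  toFun x := Multiplicative.ofAdd (wv q (x : F))
  map_one' := by simp [l7_wv_one]
  map_mul' x y := by
    rw [Units.val_mul, l7_wv_mul q F x.ne_zero y.ne_zero]
    rfl

/-- The units of the valuation ring. -/
noncomputable abbrev l7U : Subgroup Fˣ := (l7wHom q F).ker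

lemma l7_mem_U (x : Fˣ) : x ∈ l7U q F ↔ wv q (x : F) = 0 := by
  rw [MonoidHom.mem_ker]
  change Multiplicative.ofAdd (wv q (x : F)) = 1 ↔ _
  rw [← ofAdd_zero, Multiplicative.ofAdd.injective.eq_iff]

variable {q F}

lemma l7_U_int (_hw : L7Val (wv q (F := F))) (u : l7U q F) :
    l7Ge (wv q (F := F)) 0 ((u : Fˣ) : F) :=
  Or.inr (by rw [(l7_mem_U q F u).mp u.2])

lemma l7_U_inv_int (hw : L7Val (wv q (F := F))) (u : l7U q F) :
    l7Ge (wv q (F := F)) 0 (((u : Fˣ) : F)⁻¹) :=
  hw.ge_inv_of_unit (u : Fˣ).ne_zero ((l7_mem_U q F u).mp u.2)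

/-- The higher unit groups `U_m = {u : u ≡ 1 mod {w ≥ m}}` as subgroups of `U`. -/
def l7Um (hw : L7Val (wv q (F := F))) (m : ℤ) : Subgroup (l7U q F) where
  carrier := {u | l7Ge (wv q (F := F)) m (((u : Fˣ) : F) - 1)}
  one_mem' := by
    change l7Ge _ m (((1 : Fˣ) : F) - 1)
    simpa using hw.ge_zero m
  mul_mem' := by
    intro u v hu hv
    change l7Ge _ m ((((u : Fˣ) : F) * ((v : Fˣ) : F)) - 1)
    have h : (((u : Fˣ) : F) * ((v : Fˣ) : F)) - 1 =
        (((u : Fˣ) : F) - 1) * ((v : Fˣ) : F) + (((v : Fˣ) : F) - 1) := by ring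
    rw [h]
    exact hw.ge_add (hw.ge_mul_int' hu (l7_U_int hw v)) hv
  inv_mem' := by
    intro u hu
    change l7Ge _ m ((((u⁻¹ : l7U q F) : Fˣ) : F) - 1)
    have h : (((u⁻¹ : l7U q F) : Fˣ) : F) - 1 =
        -((((u : Fˣ) : F) - 1) * (((u : Fˣ) : F))⁻¹) := by
      have := (u : Fˣ).ne_zero
      push_cast
      field_simp
      ring
    rw [h]
    exact hw.ge_neg (hw.ge_mul_int' hu (l7_U_inv_int hw u))

lemma l7_mem_Um (hw : L7Val (wv q (F := F))) (m : ℤ) (u : l7U q F) :
    u ∈ l7Um hw m ↔ l7Ge (wv q (F := F)) m (((u : Fˣ) : F) - 1) := Iff.rfl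

/-- `u⁻¹ u' ∈ U_k` if `u' - u ∈ {w ≥ k}`. -/
lemma l7_inv_mul_mem (hw : L7Val (wv q (F := F))) (k : ℤ) (u u' : l7U q F)
    (h : l7Ge (wv q (F := F)) k (((u' : Fˣ) : F) - ((u : Fˣ) : F))) : u⁻¹ * u' ∈ l7Um hw k := by
  rw [l7_mem_Um]
  have h1 : (((u⁻¹ * u' : l7U q F) : Fˣ) : F) - 1 =
      (((u : Fˣ) : F))⁻¹ * (((u' : Fˣ) : F) - ((u : Fˣ) : F)) := by
    have := (u : Fˣ).ne_zero
    push_cast
    field_simp
  rw [h1]
  exact hw.ge_mul_int (l7_U_inv_int hw u) h

/-- `U_m` has finite index in `U`. -/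
lemma l7_Um_index_ne_zero (hw : L7Val (wv q (F := F))) (hF : StmtWFinite) (m : ℕ) :
    (l7Um hw (m : ℤ)).index ≠ 0 := by
  classical
  obtain ⟨R, hR⟩ := hF q F m
  have hex : ∀ c : l7U q F ⧸ l7Um hw (m : ℤ),
      ∃ r : R, Close q (m : ℤ) (((c.out : l7U q F) : Fˣ) : F) (r : F) := by
    intro c
    obtain ⟨r, hr, hcl⟩ := hR (((c.out : l7U q F) : Fˣ) : F)
      (Or.inr (by rw [(l7_mem_U q F c.out).mp c.out.2]))
    exact ⟨⟨r, hr⟩, hcl⟩
  choose g hg using hex
  have hinj : Function.Injective g := by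
    intro c c' hcc
    have h1 := (l7_ge_iff_close q F _ _ _).mpr (hg c)
    have h2 := (l7_ge_iff_close q F _ _ _).mpr (hg c')
    rw [hcc] at h1
    have h3 : l7Ge (wv q (F := F)) (m : ℤ)
        ((((c'.out : l7U q F) : Fˣ) : F) - (((c.out : l7U q F) : Fˣ) : F)) := by
      have := hw.ge_sub h2 h1
      simpa using this
    have h4 := l7_inv_mul_mem hw (m : ℤ) c.out c'.out h3
    rw [← QuotientGroup.out_eq' c, ← QuotientGroup.out_eq' c']
    exact QuotientGroup.eq.mpr h4
  have : Finite (l7U q F ⧸ l7Um hw (m : ℤ)) := Finite.of_injective g hinj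
  exact Subgroup.index_ne_zero_of_finite

/-- Hensel: `U_{m+e} ⊆ (U_m)ᵖ` for `e = w(n)`, `m ≥ e + 1`, `m ≥ 1`. -/
lemma l7_Um_le_map (hw : L7Val (wv q (F := F))) (hc : L7Complete (wv q (F := F))) (n : ℕ)
    (hn : (n : F) ≠ 0) {e m : ℤ} (he : wv q ((n : F)) = e) (hm : e + 1 ≤ m) (hm1 : 1 ≤ m) :
    l7Um hw (m + e) ≤ (l7Um hw m).map (powMonoidHom n : l7U q F →* l7U q F) := by
  intro u hu
  rw [l7_mem_Um] at hu
  obtain ⟨y, hy, hyu⟩ := l7_exists_root hw hc hn he hm hm1 hu
  obtain ⟨hy0, hyw⟩ := hw.unit_of_ge hm1 hy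
  have hyU : Units.mk0 y hy0 ∈ l7U q F := (l7_mem_U q F _).mpr (by simpa using hyw)
  refine ⟨⟨Units.mk0 y hy0, hyU⟩, ?_, ?_⟩
  · change l7Ge _ m (((Units.mk0 y hy0 : Fˣ) : F) - 1)
    simpa using hy
  · apply Subtype.ext
    apply Units.ext
    simpa using hyu

/-- The `p`-torsion of `U` has at most `p` elements. -/
lemma l7_card_torsion (p : ℕ) [hp : Fact p.Prime] :
    Finite (powMonoidHom p : l7U q F →* l7U q F).ker ∧
      Nat.card (powMonoidHom p : l7U q F →* l7U q F).ker ≤ p := by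
  have : NeZero p := ⟨hp.out.ne_zero⟩
  let g : (powMonoidHom p : l7U q F →* l7U q F).ker → rootsOfUnity p F := fun t =>
    ⟨((t : l7U q F) : Fˣ), by
      rw [mem_rootsOfUnity]
      have h := t.2
      rw [MonoidHom.mem_ker] at h
      have h2 := congrArg (fun z : l7U q F => (z : Fˣ)) h
      simpa using h2⟩
  have hg : Function.Injective g := by
    intro t t' h
    apply Subtype.ext
    apply Subtype.ext
    exact congrArg (fun z : rootsOfUnity p F => (z : Fˣ)) h
  have hfin : Finite (rootsOfUnity p F) := inferInstance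
  refine ⟨Finite.of_injective g hg, ?_⟩
  exact (Nat.card_le_card_of_injective g hg).trans (card_rootsOfUnity F p)

/-- The range of the valuation has finite index in `ℤ`, hence `|range/rangeᵖ| = p`. -/
lemma l7_card_range (p : ℕ) :
    Nat.card ((l7wHom q F).range ⧸ powRange (l7wHom q F).range p) = p := by
  have hfi : (l7wHom q F).range.FiniteIndex := by
    have hn : (Module.finrank ℚ_[q] F : ℤ) ≠ 0 := by
      have : 0 < Module.finrank ℚ_[q] F := Module.finrank_pos
      omega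
    have hq0 : (q : F) ≠ 0 := l7_natCast_ne_zero q F q (Fact.out : q.Prime).ne_zero
    have hmem : Multiplicative.ofAdd (Module.finrank ℚ_[q] F : ℤ) ∈ (l7wHom q F).range := by
      refine ⟨Units.mk0 (q : F) hq0, ?_⟩
      change Multiplicative.ofAdd (wv q ((q : F))) = _
      rw [l7_wv_natCast, padicValNat_self]
      simp
    have h1 : (AddSubgroup.toSubgroup (AddSubgroup.zmultiples (Module.finrank ℚ_[q] F : ℤ))).index
        ≠ 0 := by
      rw [AddSubgroup.index_toSubgroup, Int.index_zmultiples]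
      exact Int.natAbs_ne_zero.mpr hn
    have h2 : AddSubgroup.toSubgroup (AddSubgroup.zmultiples (Module.finrank ℚ_[q] F : ℤ)) ≤
        (l7wHom q F).range := by
      intro x hx
      have hx' : Multiplicative.toAdd x ∈
          AddSubgroup.zmultiples (Module.finrank ℚ_[q] F : ℤ) := hx
      obtain ⟨k, hk⟩ := AddSubgroup.mem_zmultiples_iff.mp hx'
      have : x = (Multiplicative.ofAdd (Module.finrank ℚ_[q] F : ℤ)) ^ k := by
        rw [← ofAdd_zsmul, hk, ofAdd_toAdd]
      rw [this]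
      exact Subgroup.zpow_mem _ hmem k
    have : (AddSubgroup.toSubgroup
        (AddSubgroup.zmultiples (Module.finrank ℚ_[q] F : ℤ))).FiniteIndex := ⟨h1⟩
    exact Subgroup.finiteIndex_of_le h2
  rw [card_powQuot_of_finiteIndex ℤ (l7wHom q F).range p, Module.finrank_self, pow_one]

/-- The additive subgroup `{w ≥ m}`. -/
def l7Lam (hw : L7Val (wv q (F := F))) (m : ℤ) : AddSubgroup F where
  carrier := {x | l7Ge (wv q (F := F)) m x}
  zero_mem' := hw.ge_zero m
  add_mem' := hw.ge_add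
  neg_mem' := hw.ge_neg

/-- `[U_m : U_{m+n}] ≤ q ^ n`, `n = [F : ℚ_q]`. -/
lemma l7_relIndex_le (hAdd : StmtWAdd) (hw : L7Val (wv q (F := F))) (m : ℤ) :
    (l7Um hw (m + (Module.finrank ℚ_[q] F : ℤ))).relIndex (l7Um hw m) ≠ 0 ∧
      (l7Um hw (m + (Module.finrank ℚ_[q] F : ℤ))).relIndex (l7Um hw m) ≤
        q ^ Module.finrank ℚ_[q] F := by
  classical
  obtain ⟨hfin, hcard⟩ := l7_lattice_card (p := q) (l7Lam hw m)
    (fun a ha x hx => l7_ge_smul q F hAdd a ha m x hx)
  set A := l7Um hw m with hA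
  set A' := l7Um hw (m + (Module.finrank ℚ_[q] F : ℤ)) with hA'
  let g : (A ⧸ A'.subgroupOf A) →
      (l7Lam hw m ⧸ (nsmulAddMonoidHom (α := l7Lam hw m) q).range) := fun c =>
    QuotientAddGroup.mk ⟨((((c.out : A) : l7U q F) : Fˣ) : F) - 1, (c.out : A).2⟩
  have hg : Function.Injective g := by
    intro c c' hcc
    have h1 := QuotientAddGroup.eq.mp hcc
    obtain ⟨y, hy⟩ := h1
    have hy' : (q : F) * (y : F) =
        ((((c'.out : A) : l7U q F) : Fˣ) : F) - ((((c.out : A) : l7U q F) : Fˣ) : F) := by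
      have h2 := congrArg (fun z : l7Lam hw m => (z : F)) hy
      simp only [nsmulAddMonoidHom_apply, AddSubgroup.coe_nsmul, nsmul_eq_mul,
        AddSubgroup.coe_add, AddSubgroup.coe_neg] at h2
      rw [h2]
      ring
    have hq : l7Ge (wv q (F := F)) (Module.finrank ℚ_[q] F : ℤ) ((q : F)) := by
      right
      rw [l7_wv_natCast, padicValNat_self]
      simp
    have h3 : l7Ge (wv q (F := F)) (m + (Module.finrank ℚ_[q] F : ℤ))
        (((((c'.out : A) : l7U q F) : Fˣ) : F) - ((((c.out : A) : l7U q F) : Fˣ) : F)) := by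
      rw [← hy', add_comm]
      exact hw.ge_mul hq y.2
    have h4 := l7_inv_mul_mem hw _ ((c.out : A) : l7U q F) ((c'.out : A) : l7U q F) h3
    rw [← QuotientGroup.out_eq' c, ← QuotientGroup.out_eq' c']
    apply QuotientGroup.eq.mpr
    rw [Subgroup.mem_subgroupOf]
    exact h4
  have hfinA : Finite (A ⧸ A'.subgroupOf A) := Finite.of_injective g hg
  refine ⟨Subgroup.index_ne_zero_of_finite, ?_⟩
  exact (Nat.card_le_card_of_injective g hg).trans hcard

variable (q F)

/-- **L7a + L7c**: `[Fˣ : Fˣᵖ]` is finite and at most `p ^ (2 + [F : ℚ_q]·[q = p])`. -/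
theorem l7_pow_index_of (hAdd : StmtWAdd) (hC : StmtWComplete) (hF : StmtWFinite)
    (p : ℕ) [hp : Fact p.Prime] :
    (powMonoidHom p : Fˣ →* Fˣ).range.index ≠ 0 ∧
      (powMonoidHom p : Fˣ →* Fˣ).range.index ≤
        p ^ (2 + if q = p then Module.finrank ℚ_[q] F else 0) := by
  have hw : L7Val (wv q (F := F)) := l7_val q F hAdd
  have hc : L7Complete (wv q (F := F)) := l7_complete q F hC
  have hp0 : (p : F) ≠ 0 := l7_natCast_ne_zero q F p hp.out.ne_zero
  set e' : ℕ := if q = p then Module.finrank ℚ_[q] F else 0 with he'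
  have he : wv q ((p : F)) = (e' : ℤ) := by
    rw [l7_wv_prime q F p, he']
    split_ifs <;> simp
  set A := l7Um hw (((e' + 1 : ℕ) : ℤ)) with hA
  set A' := l7Um hw (((e' + 1 : ℕ) : ℤ) + (e' : ℤ)) with hA'
  have hAidx : A.index ≠ 0 := l7_Um_index_ne_zero hw hF (e' + 1)
  have hle : A' ≤ A.map (powMonoidHom p : l7U q F →* l7U q F) :=
    l7_Um_le_map hw hc p hp0 he (by push_cast; omega) (by push_cast; omega)
  have hrel : A'.relIndex A ≠ 0 ∧ A'.relIndex A ≤ p ^ e' := by
    by_cases hqp : q = p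
    · subst hqp
      have h1 : e' = Module.finrank ℚ_[q] F := by rw [he', if_pos rfl]
      have := l7_relIndex_le hAdd hw (((e' + 1 : ℕ) : ℤ))
      rw [← h1] at this
      exact this
    · have h1 : e' = 0 := by rw [he', if_neg hqp]
      have h2 : A' = A := by
        rw [hA', hA, h1]
        simp
      rw [h2, Subgroup.relIndex_self, h1]
      simp
  have hAn : (A.map (powMonoidHom p : l7U q F →* l7U q F)).relIndex A ≠ 0 := by
    intro h
    have := Subgroup.relIndex_dvd_of_le_left A hle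
    rw [h, zero_dvd_iff] at this
    exact hrel.1 this
  have hAn' : (A.map (powMonoidHom p : l7U q F →* l7U q F)).relIndex A ≤ p ^ e' :=
    (Subgroup.relIndex_le_of_le_left hle hrel.1).trans hrel.2
  obtain ⟨hTfin, hTcard⟩ := l7_card_torsion (q := q) (F := F) p
  obtain ⟨hU0, hUle⟩ := l7_index_powRange_le A p hAidx hAn
  have htf : ∀ c : Multiplicative ℤ, c ^ p = 1 → c = 1 := by
    intro c hc
    have h1 : p • Multiplicative.toAdd c = 0 := by
      have := congrArg Multiplicative.toAdd hc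
      simpa using this
    have h2 : Multiplicative.toAdd c = 0 := by
      rcases smul_eq_zero.mp h1 with h | h
      · exact absurd h hp.out.ne_zero
      · exact h
    rw [← ofAdd_toAdd c, h2, ofAdd_zero]
  have hmain : (powMonoidHom p : Fˣ →* Fˣ).range.index =
      (powRange (l7U q F) p).index * p := by
    have h := card_powQuot_eq_mul_range p (l7wHom q F) htf
    rw [l7_card_range] at h
    exact h
  rw [hmain]
  refine ⟨mul_ne_zero hU0 hp.out.ne_zero, ?_⟩
  calc (powRange (l7U q F) p).index * p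
      ≤ ((A.map (powMonoidHom p : l7U q F →* l7U q F)).relIndex A *
          Nat.card (powMonoidHom p : l7U q F →* l7U q F).ker) * p :=
        Nat.mul_le_mul_right _ hUle
    _ ≤ (p ^ e' * p) * p :=
        Nat.mul_le_mul_right _ (Nat.mul_le_mul hAn' hTcard)
    _ = p ^ (2 + e') := by ring

/-- **L7a + L7c**, unconditional. -/
theorem l7_pow_index (p : ℕ) [Fact p.Prime] :
    (powMonoidHom p : Fˣ →* Fˣ).range.index ≠ 0 ∧
      (powMonoidHom p : Fˣ →* Fˣ).range.index ≤
        p ^ (2 + if q = p then Module.finrank ℚ_[q] F else 0) :=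
  l7_pow_index_of q F stmtWAdd stmtWComplete stmtWFinite p

/-- **L7a**: `StmtPowFinite`. -/
theorem stmtPowFinite : StmtPowFinite := by
  intro q _ p _ F _ _ _
  exact ⟨(l7_pow_index q F p).1⟩

/-- **L7c**: `StmtPowCard` (the hypothesis on the root of unity is not used). -/
theorem stmtPowCard : StmtPowCard := by
  intro q p _ _ F _ _ _ _ _
  exact (l7_pow_index q F p).2

end Fermat.Agent.PT.L
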