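/-
PT-L, shared tools (helper48): the valuation ring `UE.OV q hA X = {w ≥ 0}` of a local field as a
Mathlib `ValuationSubring` (so: local ring, integrally closed, fraction ring, residue field),
the ideals `UE.lvl q hA k = {w ≥ k}`, and HENSEL'S LEMMA `UE.hensel` (Newton iteration +
`StmtWComplete`): a simple root mod the maximal ideal lifts to a root.
Hypotheses: only `StmtWAdd` (and `StmtWComplete` for `hensel`).
-/
import Fermat.Agent.PT.L.Plan

set_option autoImplicit false

open Polynomial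

namespace Fermat.Agent.PT.L

namespace UE

/-! ### Elementary properties of `wv` -/

section Basic

set_option linter.unusedSectionVars false

variable (q : ℕ) [Fact q.Prime] {X : Type} [Field X] [Algebra ℚ_[q] X]
  [FiniteDimensional ℚ_[q] X]

theorem norm_ne_zero {x : X} (hx : x ≠ 0) : Algebra.norm ℚ_[q] x ≠ 0 :=
  Algebra.norm_ne_zero_iff.2 hx

theorem wv_mul {x y : X} (hx : x ≠ 0) (hy : y ≠ 0) : wv q (x * y) = wv q x + wv q y := by
  unfold wv
  rw [map_mul, Padic.valuation_mul (norm_ne_zero q hx) (norm_ne_zero q hy)]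

theorem wv_one : wv q (1 : X) = 0 := by
  unfold wv
  rw [map_one, Padic.valuation_one]

theorem wv_inv {x : X} (hx : x ≠ 0) : wv q x⁻¹ = - wv q x := by
  have h := wv_mul q hx (inv_ne_zero hx)
  rw [mul_inv_cancel₀ hx, wv_one] at h
  omega

theorem wv_neg_one : wv q (-1 : X) = 0 := by
  have h := wv_mul q (neg_ne_zero.2 (one_ne_zero (α := X))) (neg_ne_zero.2 (one_ne_zero (α := X)))
  rw [neg_mul_neg, one_mul, wv_one] at h
  omega

theorem wv_neg (x : X) : wv q (-x) = wv q x := by
  rcases eq_or_ne x 0 with rfl | hx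
  · simp
  · rw [neg_eq_neg_one_mul, wv_mul q (neg_ne_zero.2 one_ne_zero) hx, wv_neg_one, zero_add]

theorem wv_pow {x : X} (hx : x ≠ 0) (n : ℕ) : wv q (x ^ n) = n * wv q x := by
  induction n with
  | zero => simp [wv_one]
  | succ n ih =>
    rw [pow_succ, wv_mul q (pow_ne_zero n hx) hx, ih]
    push_cast; ring

end Basic

/-! ### The valuation ring -/

section Ring

set_option linter.unusedSectionVars false

variable (q : ℕ) [Fact q.Prime] (hA : StmtWAdd) (X : Type) [Field X] [Algebra ℚ_[q] X]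
  [FiniteDimensional ℚ_[q] X]

variable {X} in
include hA in
/-- the elements `x = 0 ∨ k ≤ w x` are closed under addition -/
theorem lvl_add (k : ℤ) {x y : X} (hx : x = 0 ∨ k ≤ wv q x) (hy : y = 0 ∨ k ≤ wv q y) :
    x + y = 0 ∨ k ≤ wv q (x + y) := by
  rcases eq_or_ne x 0 with rfl | hx0
  · simpa using hy
  rcases eq_or_ne y 0 with rfl | hy0
  · simpa using hx
  rcases eq_or_ne (x + y) 0 with h | h
  · exact Or.inl h
  right
  have hx' := hx.resolve_left hx0
  have hy' := hy.resolve_left hy0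
  have := hA q X x y hx0 hy0 h
  exact le_trans (le_min hx' hy') this

variable {X} in
theorem lvl_mul (k l : ℤ) {x y : X} (hx : x = 0 ∨ k ≤ wv q x) (hy : y = 0 ∨ l ≤ wv q y) :
    x * y = 0 ∨ k + l ≤ wv q (x * y) := by
  rcases eq_or_ne x 0 with rfl | hx0
  · simp
  rcases eq_or_ne y 0 with rfl | hy0
  · simp
  right
  rw [wv_mul q hx0 hy0]
  have hx' := hx.resolve_left hx0
  have hy' := hy.resolve_left hy0
  omega

/-- The valuation ring `{w ≥ 0}` of a local field. -/
def OV : ValuationSubring X where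
  carrier := {x | IsInt q x}
  mul_mem' := by
    intro a b ha hb
    have := lvl_mul q 0 0 ha hb
    rw [add_zero] at this
    exact this
  one_mem' := Or.inr (by rw [wv_one])
  add_mem' := by
    intro a b ha hb
    exact lvl_add q hA 0 ha hb
  zero_mem' := Or.inl rfl
  neg_mem' := by
    intro a ha
    rcases ha with rfl | ha
    · exact Or.inl neg_zero
    · exact Or.inr (by rw [wv_neg]; exact ha)
  mem_or_inv_mem' := by
    intro x
    rcases eq_or_ne x 0 with rfl | hx
    · exact Or.inl (Or.inl rfl)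
    · rcases le_or_gt 0 (wv q x) with h | h
      · exact Or.inl (Or.inr h)
      · exact Or.inr (Or.inr (by rw [wv_inv q hx]; omega))

variable {X}

theorem mem_OV {x : X} : x ∈ OV q hA X ↔ x = 0 ∨ 0 ≤ wv q x := Iff.rfl

theorem isUnit_iff (x : OV q hA X) : IsUnit x ↔ (x : X) ≠ 0 ∧ wv q (x : X) = 0 := by
  constructor
  · rintro ⟨u, rfl⟩
    have h1 : ((u : OV q hA X) : X) * ((u⁻¹ : (OV q hA X)ˣ) : OV q hA X) = 1 := by
      have := congrArg (fun z : OV q hA X => (z : X)) u.mul_inv
      exact this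
    have hu0 : ((u : OV q hA X) : X) ≠ 0 := left_ne_zero_of_mul_eq_one h1
    have hv0 : (((u⁻¹ : (OV q hA X)ˣ) : OV q hA X) : X) ≠ 0 := right_ne_zero_of_mul_eq_one h1
    refine ⟨hu0, ?_⟩
    have h2 := wv_mul q hu0 hv0
    rw [h1, wv_one] at h2
    have h3 := ((u : OV q hA X).2).resolve_left hu0
    have h4 := (((u⁻¹ : (OV q hA X)ˣ) : OV q hA X).2).resolve_left hv0
    omega
  · rintro ⟨h0, h1⟩
    have hinv : (x : X)⁻¹ ∈ OV q hA X := Or.inr (by rw [wv_inv q h0, h1]; simp)
    refine ⟨⟨x, ⟨_, hinv⟩, ?_, ?_⟩, rfl⟩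
    · ext; simp [h0]
    · ext; simp [h0]

theorem mem_maximalIdeal_iff (x : OV q hA X) :
    x ∈ IsLocalRing.maximalIdeal (OV q hA X) ↔ (x : X) = 0 ∨ 1 ≤ wv q (x : X) := by
  rw [IsLocalRing.mem_maximalIdeal, mem_nonunits_iff, isUnit_iff]
  constructor
  · intro h
    by_contra hcon
    rw [not_or] at hcon
    have hx := (x.2).resolve_left hcon.1
    exact h ⟨hcon.1, by omega⟩
  · rintro (h | h) ⟨h0, h1⟩
    · exact h0 h
    · omega

end Ring

/-! ### Hensel's lemma (Newton iteration) -/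

section Hensel

set_option linter.unusedSectionVars false

variable (q : ℕ) [Fact q.Prime] (hA : StmtWAdd) {X : Type} [Field X] [Algebra ℚ_[q] X]
  [FiniteDimensional ℚ_[q] X]

/-- the ideal `{w ≥ k}` of the valuation ring -/
def lvl (k : ℕ) : Ideal (OV q hA X) where
  carrier := {x | (x : X) = 0 ∨ (k : ℤ) ≤ wv q (x : X)}
  add_mem' := by
    intro a b ha hb
    exact lvl_add q hA k ha hb
  zero_mem' := Or.inl rfl
  smul_mem' := by
    intro c x hx
    have := lvl_mul q 0 k c.2 hx
    rw [zero_add] at this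
    exact this

theorem mem_lvl {k : ℕ} {x : OV q hA X} :
    x ∈ lvl q hA k ↔ (x : X) = 0 ∨ (k : ℤ) ≤ wv q (x : X) := Iff.rfl

theorem lvl_one : lvl q hA (X := X) 1 = IsLocalRing.maximalIdeal (OV q hA X) := by
  ext x
  rw [mem_lvl, mem_maximalIdeal_iff]
  simp

theorem lvl_mono {k l : ℕ} (h : k ≤ l) : lvl q hA (X := X) l ≤ lvl q hA k := by
  intro x hx
  rcases hx with hx | hx
  · exact Or.inl hx
  · exact Or.inr (le_trans (by exact_mod_cast h) hx)

theorem lvl_mul_mem {k l : ℕ} {x y : OV q hA X} (hx : x ∈ lvl q hA k) (hy : y ∈ lvl q hA l) :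
    x * y ∈ lvl q hA (k + l) := by
  have := lvl_mul q k l hx hy
  rw [mem_lvl]
  push_cast
  exact this

theorem eq_zero_of_forall_lvl {x : OV q hA X} (h : ∀ k, x ∈ lvl q hA k) : x = 0 := by
  by_contra hx
  have hx' : (x : X) ≠ 0 := fun h0 => hx (Subtype.ext h0)
  have h0 := (x.2).resolve_left hx'
  have := (h ((wv q (x : X)).toNat + 1)).resolve_left hx'
  have h1 : ((wv q (x : X)).toNat : ℤ) = wv q (x : X) := Int.toNat_of_nonneg h0
  push_cast at this
  omega

variable (G : Polynomial (OV q hA X))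

/-- one Newton step -/
noncomputable def newtonStep (y : OV q hA X) : OV q hA X :=
  y - G.eval y * Ring.inverse (G.derivative.eval y)

theorem newtonStep_spec {k : ℕ} {y : OV q hA X} (h0 : G.eval y ∈ lvl q hA (k + 1))
    (h1 : IsUnit (G.derivative.eval y)) :
    newtonStep q hA G y - y ∈ lvl q hA (k + 1) ∧
    G.eval (newtonStep q hA G y) ∈ lvl q hA (k + 2) ∧
    IsUnit (G.derivative.eval (newtonStep q hA G y)) := by
  set h : OV q hA X := -(G.eval y * Ring.inverse (G.derivative.eval y)) with hh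
  have hy' : newtonStep q hA G y = y + h := by
    rw [newtonStep, hh]; ring
  have hh1 : h ∈ lvl q hA (k + 1) := by
    rw [hh]
    exact neg_mem ((lvl q hA (k + 1)).mul_mem_right _ h0)
  refine ⟨?_, ?_, ?_⟩
  · rw [hy']
    simpa using hh1
  · rw [hy']
    obtain ⟨c, hc⟩ := G.binomExpansion y h
    rw [hc]
    have e1 : G.eval y + G.derivative.eval y * h = 0 := by
      rw [hh, mul_neg, ← mul_assoc, mul_comm (G.derivative.eval y), mul_assoc,
        Ring.mul_inverse_cancel _ h1, mul_one, add_neg_cancel]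
    rw [e1, zero_add]
    have h2 : h ^ 2 ∈ lvl q hA (k + 1 + (k + 1)) := by
      rw [pow_two]; exact lvl_mul_mem q hA hh1 hh1
    exact (lvl q hA (k + 2)).mul_mem_left _ (lvl_mono q hA (by omega) h2)
  · rw [hy']
    obtain ⟨z, hz⟩ := G.derivative.evalSubFactor (y + h) y
    have h3 : G.derivative.eval (y + h) = G.derivative.eval y + z * h := by
      rw [← sub_eq_iff_eq_add', hz]; ring
    rw [h3]
    have h4 : z * h ∈ IsLocalRing.maximalIdeal (OV q hA X) := by
      rw [← lvl_one q hA]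
      exact (lvl q hA 1).mul_mem_left _ (lvl_mono q hA (by omega) hh1)
    by_contra hcon
    have h5 : G.derivative.eval y + z * h ∈ IsLocalRing.maximalIdeal (OV q hA X) := hcon
    have h6 := (IsLocalRing.maximalIdeal (OV q hA X)).sub_mem h5 h4
    rw [add_sub_cancel_right] at h6
    exact h6 h1

/-- the Newton sequence -/
noncomputable def newtonSeq (y₀ : OV q hA X) : ℕ → OV q hA X
  | 0 => y₀
  | k + 1 => newtonStep q hA G (newtonSeq y₀ k)

theorem newtonSeq_spec {y₀ : OV q hA X} (h0 : G.eval y₀ ∈ IsLocalRing.maximalIdeal (OV q hA X))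
    (h1 : IsUnit (G.derivative.eval y₀)) (k : ℕ) :
    G.eval (newtonSeq q hA G y₀ k) ∈ lvl q hA (k + 1) ∧
    IsUnit (G.derivative.eval (newtonSeq q hA G y₀ k)) ∧
    newtonSeq q hA G y₀ k - y₀ ∈ lvl q hA 1 := by
  induction k with
  | zero =>
    refine ⟨?_, h1, ?_⟩
    · rw [zero_add, lvl_one]; exact h0
    · simp [newtonSeq]
  | succ k ih =>
    obtain ⟨i1, i2, i3⟩ := ih
    obtain ⟨s1, s2, s3⟩ := newtonStep_spec q hA G i1 i2
    refine ⟨s2, s3, ?_⟩
    have : newtonSeq q hA G y₀ (k + 1) - y₀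
        = (newtonStep q hA G (newtonSeq q hA G y₀ k) - newtonSeq q hA G y₀ k)
          + (newtonSeq q hA G y₀ k - y₀) := by
      rw [newtonSeq]; ring
    rw [this]
    exact (lvl q hA 1).add_mem (lvl_mono q hA (by omega) s1) i3

include hA in
/-- **Hensel's lemma** for the valuation ring of a local field. -/
theorem hensel (hC : StmtWComplete) {y₀ : OV q hA X}
    (h0 : G.eval y₀ ∈ IsLocalRing.maximalIdeal (OV q hA X))
    (h1 : IsUnit (G.derivative.eval y₀)) :
    ∃ y : OV q hA X, G.eval y = 0 ∧ y - y₀ ∈ IsLocalRing.maximalIdeal (OV q hA X) := by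
  have spec := newtonSeq_spec q hA G h0 h1
  set s : ℕ → OV q hA X := newtonSeq q hA G y₀ with hs
  have hstep : ∀ k, s (k + 1) - s k ∈ lvl q hA (k + 1) := fun k =>
    (newtonStep_spec q hA G (spec k).1 (spec k).2.1).1
  have hclose : ∀ k : ℕ, Close q (k : ℤ) ((s (k + 1) : OV q hA X) : X) ((s k : OV q hA X) : X) := by
    intro k
    rcases (lvl_mono q hA (Nat.le_succ k) (hstep k)) with h | h
    · left
      have : ((s (k + 1) : OV q hA X) : X) - (s k : OV q hA X) = 0 := by
        simpa using h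
      exact sub_eq_zero.1 this
    · right
      simpa using h
  obtain ⟨y, hy⟩ := hC q X (fun k => ((s k : OV q hA X) : X)) hclose
  have hsub : ∀ k : ℕ, y - (s k : OV q hA X) = 0 ∨ (k : ℤ) ≤ wv q (y - (s k : OV q hA X)) := by
    intro k
    rcases hy k with h | h
    · left; exact sub_eq_zero.2 h
    · right; exact h
  have hyO : y ∈ OV q hA X := by
    have h1 : y - (s 0 : OV q hA X) ∈ OV q hA X := by
      have := hsub 0
      rw [mem_OV]
      exact_mod_cast this
    have := (OV q hA X).add_mem _ _ h1 (s 0).2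
    simpa using this
  set Y : OV q hA X := ⟨y, hyO⟩ with hY
  have hYk : ∀ k, Y - s k ∈ lvl q hA k := by
    intro k
    rw [mem_lvl]
    simpa [hY] using hsub k
  refine ⟨Y, ?_, ?_⟩
  · apply eq_zero_of_forall_lvl q hA
    intro k
    obtain ⟨z, hz⟩ := G.evalSubFactor Y (s k)
    have : G.eval Y = z * (Y - s k) + G.eval (s k) := by
      rw [← hz]; ring
    rw [this]
    exact (lvl q hA k).add_mem ((lvl q hA k).mul_mem_left _ (hYk k))
      (lvl_mono q hA (Nat.le_succ k) (spec k).1)
  · rw [← lvl_one q hA]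
    have : Y - y₀ = (Y - s 1) + (s 1 - y₀) := by ring
    rw [this]
    exact (lvl q hA 1).add_mem (hYk 1) (spec 1).2.2

end Hensel

end UE

end Fermat.Agent.PT.L
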