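/-
PT-L, piece L3a (helper48): the unramified extension of every degree `m ≥ 1` of a local field
exists and is cyclic (`StmtUnramExists`), from `StmtWAdd`, `StmtWComplete`, `StmtWFinite`.

Route: `ḡ` irreducible of degree `m` over the residue field, `g` a monic lift, `E = F[X]/(g)`;
`1, θ, …, θ^{m-1}` is a basis "mod `𝔪`" (so `E/F` is unramified); Hensel (`ValRing.lean`)
gives a root `θ₁ ≡ θ^Q`, hence an automorphism of order `m`.
-/
import Fermat.Agent.PT.L.ValRing

set_option autoImplicit false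

open Polynomial

namespace Fermat.Agent.PT.L

namespace UE

/-! ### Finite fields: an irreducible polynomial of every degree -/

theorem exists_irreducible_natDegree (k : Type) [Field k] [Finite k] {m : ℕ} (hm : 0 < m) :
    ∃ f : k[X], f.Monic ∧ Irreducible f ∧ f.natDegree = m := by
  obtain ⟨p, hp⟩ := CharP.exists k
  have : Fact (Nat.Prime p) := ⟨CharP.char_is_prime k p⟩
  have : NeZero m := ⟨hm.ne'⟩
  obtain ⟨α, hα⟩ := Field.exists_primitive_element_of_finite_bot k (FiniteField.Extension k p m)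
  have hint : IsIntegral k α := Algebra.IsIntegral.isIntegral α
  refine ⟨minpoly k α, minpoly.monic hint, minpoly.irreducible hint, ?_⟩
  rw [← IntermediateField.adjoin.finrank hint, hα, IntermediateField.finrank_top',
    FiniteField.finrank_extension]

/-! ### The residue field is finite; towers -/

section Res

set_option linter.unusedSectionVars false

variable (q : ℕ) [Fact q.Prime] (hA : StmtWAdd) {X : Type} [Field X] [Algebra ℚ_[q] X]
  [FiniteDimensional ℚ_[q] X]

theorem residue_eq_iff (x y : OV q hA X) :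
    IsLocalRing.residue (OV q hA X) x = IsLocalRing.residue (OV q hA X) y ↔
      ((x : X) - y = 0 ∨ 1 ≤ wv q ((x : X) - y)) := by
  rw [← sub_eq_zero, ← map_sub, IsLocalRing.residue_eq_zero_iff, mem_maximalIdeal_iff]
  rfl

include hA in
theorem finite_residueField (hF : StmtWFinite) :
    Finite (IsLocalRing.ResidueField (OV q hA X)) := by
  classical
  obtain ⟨R, hR⟩ := hF q X 1
  let f : {r : X // r ∈ R} → IsLocalRing.ResidueField (OV q hA X) := fun r =>
    if h : (r : X) ∈ OV q hA X then IsLocalRing.residue (OV q hA X) ⟨r, h⟩ else 0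
  refine Finite.of_surjective f ?_
  intro c
  obtain ⟨x, rfl⟩ := IsLocalRing.residue_surjective c
  obtain ⟨r, hrR, hcl⟩ := hR x x.2
  have hsub : (x : X) - r = 0 ∨ ((1 : ℕ) : ℤ) ≤ wv q ((x : X) - r) := by
    rcases hcl with h | h
    · exact Or.inl (sub_eq_zero.2 h)
    · exact Or.inr h
  have hd : (x : X) - r ∈ OV q hA X := by
    rcases hsub with h | h
    · exact Or.inl h
    · exact Or.inr (by push_cast at h; omega)
  have hr : r ∈ OV q hA X := by
    have := sub_mem x.2 hd
    simpa using this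
  refine ⟨⟨r, hrR⟩, ?_⟩
  simp only [f, dif_pos hr]
  rw [residue_eq_iff]
  rcases hsub with h | h
  · left
    have e : ((⟨r, hr⟩ : OV q hA X) : X) - (x : X) = -((x : X) - r) := by simp
    rw [e, h, neg_zero]
  · right
    have e : ((⟨r, hr⟩ : OV q hA X) : X) - (x : X) = -((x : X) - r) := by simp
    rw [e, wv_neg]
    exact_mod_cast h

variable {F E : Type} [Field F] [Field E] [Algebra ℚ_[q] F] [Algebra F E] [Algebra ℚ_[q] E]
  [IsScalarTower ℚ_[q] F E] [FiniteDimensional ℚ_[q] F] [FiniteDimensional F E]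

theorem wv_algebraMap (x : F) : wv q (algebraMap F E x) = Module.finrank F E * wv q x := by
  unfold wv
  rw [← Algebra.norm_norm (S := F), Algebra.norm_algebraMap, map_pow, Padic.valuation_pow]

theorem wv_algEquiv (σ : E ≃ₐ[F] E) (y : E) : wv q (σ y) = wv q y := by
  unfold wv
  exact congrArg _ (Algebra.norm_eq_of_algEquiv (σ.restrictScalars ℚ_[q]) y)

end Res

/-! ### The map on valuation rings and residue fields of an extension -/

section Tower

set_option linter.unusedSectionVars false

variable (q : ℕ) [Fact q.Prime] (hA : StmtWAdd)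
variable {F E : Type} [Field F] [Field E] [Algebra ℚ_[q] F] [Algebra F E] [Algebra ℚ_[q] E]
  [IsScalarTower ℚ_[q] F E] [FiniteDimensional ℚ_[q] F] [FiniteDimensional F E]
  [FiniteDimensional ℚ_[q] E]

theorem algebraMap_mem_OV {x : F} (hx : x ∈ OV q hA F) : algebraMap F E x ∈ OV q hA E := by
  rcases hx with rfl | hx
  · exact Or.inl (map_zero _)
  · right
    rw [wv_algebraMap]
    positivity

/-- `𝒪_F → 𝒪_E` -/
noncomputable def iota : OV q hA F →+* OV q hA E where
  toFun x := ⟨algebraMap F E x, algebraMap_mem_OV q hA x.2⟩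
  map_one' := Subtype.ext (map_one _)
  map_mul' _ _ := Subtype.ext (map_mul _ _ _)
  map_zero' := Subtype.ext (map_zero _)
  map_add' _ _ := Subtype.ext (map_add _ _ _)

@[simp] theorem coe_iota (x : OV q hA F) :
    ((iota q hA (E := E) x : OV q hA E) : E) = algebraMap F E x := rfl

theorem isLocalHom_iota : IsLocalHom (iota q hA (F := F) (E := E)) := by
  constructor
  intro x hx
  rw [isUnit_iff] at hx ⊢
  obtain ⟨h0, h1⟩ := hx
  rw [coe_iota] at h0 h1
  have hx0 : (x : F) ≠ 0 := fun h => h0 (by rw [h, map_zero])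
  refine ⟨hx0, ?_⟩
  rw [wv_algebraMap] at h1
  have hn : (Module.finrank F E : ℤ) ≠ 0 := by
    exact_mod_cast (Module.finrank_pos (R := F) (M := E)).ne'
  rcases mul_eq_zero.1 h1 with h | h
  · exact absurd h hn
  · exact h

/-- `k_F → k_E` -/
noncomputable def phi :
    IsLocalRing.ResidueField (OV q hA F) →+* IsLocalRing.ResidueField (OV q hA E) :=
  haveI := isLocalHom_iota q hA (F := F) (E := E)
  IsLocalRing.ResidueField.map (iota q hA)

theorem phi_residue (x : OV q hA F) :
    phi q hA (E := E) (IsLocalRing.residue _ x) = IsLocalRing.residue _ (iota q hA x) := by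
  have := isLocalHom_iota q hA (F := F) (E := E)
  exact IsLocalRing.ResidueField.map_residue (iota q hA) x

theorem residue_comp_iota :
    (IsLocalRing.residue (OV q hA E)).comp (iota q hA) =
      (phi q hA (E := E)).comp (IsLocalRing.residue (OV q hA F)) := by
  ext x
  exact (phi_residue q hA x).symm

/-- a root of a monic polynomial over `𝒪_F` is integral -/
theorem root_mem_OV {g₀ : Polynomial (OV q hA F)} (hmon : g₀.Monic) {θ : E}
    (hθ : eval₂ ((algebraMap F E).comp (algebraMap (OV q hA F) F)) θ g₀ = 0) :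
    θ ∈ OV q hA E := by
  have hint : IsIntegral (OV q hA E) θ := by
    refine ⟨g₀.map (iota q hA), hmon.map _, ?_⟩
    rw [eval₂_map]
    exact hθ
  obtain ⟨y, hy⟩ := IsIntegrallyClosed.isIntegral_iff.1 hint
  rw [← hy]
  exact y.2

end Tower

/-! ### Evaluation at an integral element, modulo the maximal ideal -/

section Core

set_option linter.unusedSectionVars false

variable (q : ℕ) [Fact q.Prime] (hA : StmtWAdd)
variable {F E : Type} [Field F] [Field E] [Algebra ℚ_[q] F] [Algebra F E] [Algebra ℚ_[q] E]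
  [IsScalarTower ℚ_[q] F E] [FiniteDimensional ℚ_[q] F] [FiniteDimensional F E]
  [FiniteDimensional ℚ_[q] E]

theorem residue_eval₂ (P : Polynomial (OV q hA F)) (t : OV q hA E) :
    IsLocalRing.residue _ (eval₂ (iota q hA) t P) =
      eval₂ (phi q hA) (IsLocalRing.residue _ t) (P.map (IsLocalRing.residue (OV q hA F))) := by
  rw [hom_eval₂, eval₂_map, residue_comp_iota]

theorem coe_eval₂ (P : Polynomial (OV q hA F)) (t : OV q hA E) :
    ((eval₂ (iota q hA) t P : OV q hA E) : E) =
      eval₂ (algebraMap F E) (t : E) (P.map (algebraMap (OV q hA F) F)) := by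
  have := hom_eval₂ P (iota q hA (E := E)) (OV q hA E).subtype t
  rw [eval₂_map]
  exact this

/-- the unit lemma: if `P̄` is prime to `ḡ` and `ḡ(t̄) = 0` then `P(t)` is a unit -/
theorem isUnit_eval₂_of_isCoprime {g₀ P : Polynomial (OV q hA F)} {t : OV q hA E}
    (ht : eval₂ (phi q hA) (IsLocalRing.residue _ t)
      (g₀.map (IsLocalRing.residue (OV q hA F))) = 0)
    (hc : IsCoprime (P.map (IsLocalRing.residue (OV q hA F)))
      (g₀.map (IsLocalRing.residue (OV q hA F)))) :
    IsUnit (eval₂ (iota q hA) t P) := by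
  rw [← IsLocalRing.residue_ne_zero_iff_isUnit, residue_eval₂]
  obtain ⟨a, b, hab⟩ := hc
  have := congrArg (eval₂ (phi q hA (E := E)) (IsLocalRing.residue _ t)) hab
  rw [eval₂_add, eval₂_mul, eval₂_mul, ht, mul_zero, add_zero, eval₂_one] at this
  exact right_ne_zero_of_mul_eq_one this

/-- `E = F(θ)` with `θ` a root of a monic `g₀` over `𝒪_F` of degree `[E : F]` whose reduction is
irreducible: then `E/F` is unramified. -/
theorem isUnram_of_root {g₀ : Polynomial (OV q hA F)} (hmon : g₀.Monic)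
    (hirr : Irreducible (g₀.map (IsLocalRing.residue (OV q hA F)))) {θ : E}
    (hθ : eval₂ (algebraMap F E) θ (g₀.map (algebraMap (OV q hA F) F)) = 0)
    (hspan : ∀ y : E, ∃ P : F[X], eval₂ (algebraMap F E) θ P = y) :
    IsUnram q F E := by
  classical
  intro y hy
  have hθO : θ ∈ OV q hA E := root_mem_OV q hA hmon (by rw [← eval₂_map]; exact hθ)
  set t : OV q hA E := ⟨θ, hθO⟩ with ht
  set g : F[X] := g₀.map (algebraMap (OV q hA F) F) with hg
  have hgmon : g.Monic := hmon.map _
  have hinj : Function.Injective (algebraMap (OV q hA F) F) := Subtype.coe_injective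
  have hgdeg : g.natDegree = g₀.natDegree := natDegree_map_eq_of_injective hinj g₀
  have hbardeg : (g₀.map (IsLocalRing.residue (OV q hA F))).natDegree = g₀.natDegree :=
    hmon.natDegree_map _
  have hm0 : 0 < g₀.natDegree := by
    rw [← hbardeg]; exact hirr.natDegree_pos
  have hg1 : g ≠ 1 := fun h => by
    rw [h, natDegree_one] at hgdeg; omega
  obtain ⟨P, hP⟩ := hspan y
  set P' : F[X] := P %ₘ g with hP'
  have hP'y : eval₂ (algebraMap F E) θ P' = y := by
    have h1 := modByMonic_add_div P g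
    have h2 := congrArg (eval₂ (algebraMap F E) θ) h1
    rw [eval₂_add, eval₂_mul, hθ, zero_mul, add_zero, hP] at h2
    exact h2
  have hP'deg : P'.natDegree < g₀.natDegree := by
    rw [← hgdeg]; exact natDegree_modByMonic_lt P hgmon hg1
  have hP'0 : P' ≠ 0 := fun h => hy (by rw [← hP'y, h, eval₂_zero])
  obtain ⟨i₀, hi₀, hmin⟩ := Finset.exists_min_image P'.support (fun i => wv q (P'.coeff i))
    (nonempty_support_iff.2 hP'0)
  set c : F := P'.coeff i₀ with hc
  have hc0 : c ≠ 0 := mem_support_iff.1 hi₀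
  set P₁ : F[X] := C c⁻¹ * P' with hP₁
  have hcoef : ∀ n, P₁.coeff n ∈ OV q hA F := by
    intro n
    rw [hP₁, coeff_C_mul]
    rcases eq_or_ne (P'.coeff n) 0 with h | h
    · rw [h, mul_zero]; exact Or.inl rfl
    · right
      rw [wv_mul q (inv_ne_zero hc0) h, wv_inv q hc0]
      have := hmin n (mem_support_iff.2 h)
      omega
  have hlift : P₁ ∈ lifts (algebraMap (OV q hA F) F) := by
    rw [lifts_iff_coeff_lifts]
    intro n
    exact ⟨⟨P₁.coeff n, hcoef n⟩, rfl⟩
  obtain ⟨B, hB⟩ := (mem_lifts _).1 hlift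
  have hBcoeff : ∀ n, ((B.coeff n : OV q hA F) : F) = P₁.coeff n := by
    intro n
    rw [← hB, coeff_map]; rfl
  have hB1 : B.coeff i₀ = 1 := by
    apply Subtype.ext
    rw [hBcoeff, hP₁, coeff_C_mul, ← hc, inv_mul_cancel₀ hc0]; rfl
  have hBdeg : B.natDegree < g₀.natDegree := by
    have h1 : B.natDegree = P₁.natDegree := by
      rw [← hB]; exact (natDegree_map_eq_of_injective hinj B).symm
    have h2 : P₁.natDegree ≤ P'.natDegree := by
      rw [hP₁]; exact natDegree_C_mul_le _ _
    omega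
  have hBbar0 : B.map (IsLocalRing.residue (OV q hA F)) ≠ 0 := by
    intro h
    have := congrArg (fun p => coeff p i₀) h
    simp only [coeff_map, hB1, map_one, coeff_zero] at this
    exact one_ne_zero this
  have hndvd : ¬ (g₀.map (IsLocalRing.residue (OV q hA F))) ∣
      B.map (IsLocalRing.residue (OV q hA F)) := by
    intro h
    refine hBbar0 (eq_zero_of_dvd_of_natDegree_lt h ?_)
    rw [hbardeg]
    exact lt_of_le_of_lt (natDegree_map_le) hBdeg
  have hcop : IsCoprime (B.map (IsLocalRing.residue (OV q hA F)))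
      (g₀.map (IsLocalRing.residue (OV q hA F))) :=
    ((hirr.coprime_iff_not_dvd).2 hndvd).symm
  have htbar : eval₂ (phi q hA) (IsLocalRing.residue _ t)
      (g₀.map (IsLocalRing.residue (OV q hA F))) = 0 := by
    rw [← residue_eval₂]
    have : eval₂ (iota q hA) t g₀ = 0 := by
      apply Subtype.ext
      rw [coe_eval₂]
      exact hθ
    rw [this, map_zero]
  have hunit := isUnit_eval₂_of_isCoprime q hA htbar hcop
  rw [isUnit_iff, coe_eval₂, hB] at hunit
  obtain ⟨hne, hw⟩ := hunit
  have hval : eval₂ (algebraMap F E) θ P₁ = algebraMap F E c⁻¹ * y := by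
    rw [hP₁, eval₂_mul, eval₂_C, hP'y]
  change eval₂ (algebraMap F E) θ P₁ ≠ 0 at hne
  change wv q (eval₂ (algebraMap F E) θ P₁) = 0 at hw
  rw [hval] at hw
  have hci : algebraMap F E c⁻¹ ≠ 0 := by
    rw [Ne, map_eq_zero]; exact inv_ne_zero hc0
  have hc' : algebraMap F E c ≠ 0 := by
    rw [Ne, map_eq_zero]; exact hc0
  rw [wv_mul q hci hy, map_inv₀, wv_inv q hc'] at hw
  exact ⟨c, hc0, by omega⟩

/-- Frobenius: `f(x^Q) = f(x)^Q` for `f` over a finite field with `Q` elements -/
theorem eval₂_pow_card {k K : Type} [Field k] [Finite k] [CommRing K] (φ : k →+* K) (x : K)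
    (f : k[X]) : eval₂ φ (x ^ Nat.card k) f = (eval₂ φ x f) ^ Nat.card k := by
  have := Fintype.ofFinite k
  rw [Nat.card_eq_fintype_card, ← eval₂_pow, ← FiniteField.expand_card, expand_eq_comp_X_pow,
    eval₂_comp, eval₂_pow, eval₂_X]

/-- Hensel: a root `t₁ ≡ t^Q` of `g₀`. -/
theorem exists_frob_root (hC : StmtWComplete)
    (hfin : Finite (IsLocalRing.ResidueField (OV q hA F)))
    {g₀ : Polynomial (OV q hA F)}
    (hirr : Irreducible (g₀.map (IsLocalRing.residue (OV q hA F)))) {t : OV q hA E}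
    (ht : eval₂ (iota q hA) t g₀ = 0) :
    ∃ t₁ : OV q hA E, eval₂ (iota q hA) t₁ g₀ = 0 ∧
      IsLocalRing.residue _ t₁ =
        (IsLocalRing.residue _ t) ^ Nat.card (IsLocalRing.ResidueField (OV q hA F)) := by
  set Q := Nat.card (IsLocalRing.ResidueField (OV q hA F)) with hQ
  have htbar : eval₂ (phi q hA) (IsLocalRing.residue _ t)
      (g₀.map (IsLocalRing.residue (OV q hA F))) = 0 := by
    rw [← residue_eval₂, ht, map_zero]
  have hQ0 : Q ≠ 0 := Nat.card_pos.ne'
  have hbar : eval₂ (phi q hA) (IsLocalRing.residue _ (t ^ Q))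
      (g₀.map (IsLocalRing.residue (OV q hA F))) = 0 := by
    rw [map_pow, hQ, eval₂_pow_card, htbar, zero_pow hQ0]
  have h0 : (g₀.map (iota q hA (E := E))).eval (t ^ Q)
      ∈ IsLocalRing.maximalIdeal (OV q hA E) := by
    rw [eval_map, ← IsLocalRing.residue_eq_zero_iff, residue_eval₂]
    exact hbar
  have hsep : (g₀.map (IsLocalRing.residue (OV q hA F))).Separable :=
    PerfectField.separable_of_irreducible hirr
  have h1 : IsUnit ((g₀.map (iota q hA (E := E))).derivative.eval (t ^ Q)) := by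
    rw [derivative_map, eval_map]
    refine isUnit_eval₂_of_isCoprime q hA hbar ?_
    rw [← derivative_map]
    exact hsep.symm
  obtain ⟨y, hy0, hy1⟩ := hensel q hA _ hC h0 h1
  refine ⟨y, ?_, ?_⟩
  · rw [← eval_map]; exact hy0
  · rw [← map_pow, ← sub_eq_zero, ← map_sub, IsLocalRing.residue_eq_zero_iff]
    exact hy1

/-- the automorphism lifting Frobenius has order divisible by the degree -/
theorem exists_aut (hC : StmtWComplete)
    (hfin : Finite (IsLocalRing.ResidueField (OV q hA F)))
    {g₀ : Polynomial (OV q hA F)} (hmon : g₀.Monic)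
    (hirr : Irreducible (g₀.map (IsLocalRing.residue (OV q hA F)))) {θ : E}
    (hθ : eval₂ (algebraMap F E) θ (g₀.map (algebraMap (OV q hA F) F)) = 0)
    (hlift : ∀ θ₁ : E, eval₂ (algebraMap F E) θ₁ (g₀.map (algebraMap (OV q hA F) F)) = 0 →
      ∃ σ : E ≃ₐ[F] E, σ θ = θ₁) :
    ∃ σ : E ≃ₐ[F] E, ∀ i : ℕ, σ ^ i = 1 → g₀.natDegree ∣ i := by
  have hθO : θ ∈ OV q hA E := root_mem_OV q hA hmon (by rw [← eval₂_map]; exact hθ)
  set t : OV q hA E := ⟨θ, hθO⟩ with ht
  have ht0 : eval₂ (iota q hA) t g₀ = 0 := by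
    apply Subtype.ext
    rw [coe_eval₂]
    exact hθ
  set Q := Nat.card (IsLocalRing.ResidueField (OV q hA F)) with hQ
  obtain ⟨t₁, ht₁, hres⟩ := exists_frob_root q hA hC hfin hirr ht0
  have ht₁' : eval₂ (algebraMap F E) (t₁ : E) (g₀.map (algebraMap (OV q hA F) F)) = 0 := by
    rw [← coe_eval₂, ht₁]; rfl
  obtain ⟨σ, hσ⟩ := hlift t₁ ht₁'
  refine ⟨σ, ?_⟩
  have key : ∀ i : ℕ, ∃ s : OV q hA E, (s : E) = (σ ^ i) θ ∧
      IsLocalRing.residue _ s = (IsLocalRing.residue _ t) ^ (Q ^ i) := by
    intro i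
    induction i with
    | zero => exact ⟨t, by simp [ht], by simp⟩
    | succ i ih =>
      obtain ⟨s, hs, hsr⟩ := ih
      have hmem : σ (s : E) ∈ OV q hA E := by
        rcases s.2 with h | h
        · left; rw [h, map_zero]
        · right; rw [wv_algEquiv]; exact h
      refine ⟨⟨σ s, hmem⟩, ?_, ?_⟩
      · rw [pow_succ', AlgEquiv.mul_apply, ← hs]
      · have hu : IsLocalRing.residue _ (t₁ ^ (Q ^ i)) =
            (IsLocalRing.residue _ t) ^ (Q ^ (i + 1)) := by
          rw [map_pow, hres, ← pow_mul, pow_succ']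
        rw [← hu, residue_eq_iff]
        have hd : IsLocalRing.residue _ s = IsLocalRing.residue _ (t ^ (Q ^ i)) := by
          rw [hsr, map_pow]
        rw [residue_eq_iff] at hd
        have e : ((⟨σ s, hmem⟩ : OV q hA E) : E) - ((t₁ ^ (Q ^ i) : OV q hA E) : E)
            = σ ((s : E) - ((t ^ (Q ^ i) : OV q hA E) : E)) := by
          rw [map_sub]
          congr 1
          push_cast
          rw [map_pow, ht, hσ]
        rw [e]
        rcases hd with h | h
        · left; rw [h, map_zero]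
        · right; rw [wv_algEquiv]; exact h
  intro i hi
  obtain ⟨s, hs, hsr⟩ := key i
  rw [hi, AlgEquiv.one_apply] at hs
  have hst : s = t := Subtype.ext hs
  rw [hst] at hsr
  have htbar : eval₂ (phi q hA) (IsLocalRing.residue _ t)
      (g₀.map (IsLocalRing.residue (OV q hA F))) = 0 := by
    rw [← residue_eval₂, ht0, map_zero]
  have hdvd : (g₀.map (IsLocalRing.residue (OV q hA F))) ∣
      (X ^ Q ^ i - X : Polynomial (IsLocalRing.ResidueField (OV q hA F))) := by
    by_contra hnd
    obtain ⟨a, b, hab⟩ := (hirr.coprime_iff_not_dvd).2 hnd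
    have := congrArg (eval₂ (phi q hA (E := E)) (IsLocalRing.residue _ t)) hab
    rw [eval₂_add, eval₂_mul, eval₂_mul, htbar, mul_zero, zero_add, eval₂_sub, eval₂_pow,
      eval₂_X, ← hsr, sub_self, mul_zero, eval₂_one] at this
    exact zero_ne_one this
  have := hirr.natDegree_dvd_of_dvd_X_pow_card_pow_sub_X hdvd
  rwa [hmon.natDegree_map] at this

end Core

/-! ### The theorem -/

theorem stmtUnramExists_of (hA : StmtWAdd) (hC : StmtWComplete) (hF : StmtWFinite) :
    StmtUnramExists := by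
  intro q _ F _ _ _ m hm
  have hfin : Finite (IsLocalRing.ResidueField (OV q hA F)) := finite_residueField q hA hF
  obtain ⟨gbar, hbmon, hbirr, hbdeg⟩ :=
    exists_irreducible_natDegree (IsLocalRing.ResidueField (OV q hA F)) hm
  obtain ⟨g₀, hg₀, hg₀deg, hmon⟩ := lifts_and_natDegree_eq_and_monic
    ((mem_lifts _).2 (map_surjective _ (IsLocalRing.residue_surjective) gbar)) hbmon
  have hirr : Irreducible (g₀.map (IsLocalRing.residue (OV q hA F))) := by rw [hg₀]; exact hbirr
  have hdeg : g₀.natDegree = m := by rw [hg₀deg, hbdeg]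
  have hirr₀ : Irreducible g₀ :=
    Monic.irreducible_of_irreducible_map (IsLocalRing.residue (OV q hA F)) g₀ hmon hirr
  have hgirr : Irreducible (g₀.map (algebraMap (OV q hA F) F)) :=
    (Monic.irreducible_iff_irreducible_map_fraction_map hmon).1 hirr₀
  have hgmon : (g₀.map (algebraMap (OV q hA F) F)).Monic := hmon.map _
  have hinj : Function.Injective (algebraMap (OV q hA F) F) := Subtype.coe_injective
  have hgdeg : (g₀.map (algebraMap (OV q hA F) F)).natDegree = m := by
    rw [natDegree_map_eq_of_injective hinj, hdeg]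
  have : Fact (Irreducible (g₀.map (algebraMap (OV q hA F) F))) := ⟨hgirr⟩
  have hfd : FiniteDimensional F (AdjoinRoot (g₀.map (algebraMap (OV q hA F) F))) :=
    hgmon.finite_adjoinRoot
  have : FiniteDimensional ℚ_[q] (AdjoinRoot (g₀.map (algebraMap (OV q hA F) F))) :=
    FiniteDimensional.trans ℚ_[q] F _
  refine ⟨AdjoinRoot (g₀.map (algebraMap (OV q hA F) F)), inferInstance, inferInstance,
    inferInstance, inferInstance, hfd, ?_⟩
  have hrank : Module.finrank F (AdjoinRoot (g₀.map (algebraMap (OV q hA F) F))) = m := by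
    rw [(AdjoinRoot.powerBasis hgirr.ne_zero).finrank, AdjoinRoot.powerBasis_dim, hgdeg]
  have hθ : eval₂ (algebraMap F (AdjoinRoot (g₀.map (algebraMap (OV q hA F) F))))
      (AdjoinRoot.root _) (g₀.map (algebraMap (OV q hA F) F)) = 0 :=
    AdjoinRoot.eval₂_root _
  have hspan : ∀ y : AdjoinRoot (g₀.map (algebraMap (OV q hA F) F)),
      ∃ P : F[X], eval₂ (algebraMap F _) (AdjoinRoot.root _) P = y := by
    intro y
    obtain ⟨P, rfl⟩ := AdjoinRoot.mk_surjective y
    exact ⟨P, by rw [← AdjoinRoot.aeval_eq, aeval_def]⟩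
  have hlift : ∀ θ₁ : AdjoinRoot (g₀.map (algebraMap (OV q hA F) F)),
      eval₂ (algebraMap F _) θ₁ (g₀.map (algebraMap (OV q hA F) F)) = 0 →
      ∃ σ : AdjoinRoot (g₀.map (algebraMap (OV q hA F) F)) ≃ₐ[F]
        AdjoinRoot (g₀.map (algebraMap (OV q hA F) F)), σ (AdjoinRoot.root _) = θ₁ := by
    intro θ₁ h
    let f := AdjoinRoot.liftAlgHom (g₀.map (algebraMap (OV q hA F) F))
      (Algebra.ofId F (AdjoinRoot (g₀.map (algebraMap (OV q hA F) F)))) θ₁ h
    refine ⟨AlgEquiv.ofBijective f (AlgHom.bijective f), ?_⟩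
    rw [AlgEquiv.coe_ofBijective]
    exact AdjoinRoot.liftAlgHom_root (g₀.map (algebraMap (OV q hA F) F))
      (Algebra.ofId F (AdjoinRoot (g₀.map (algebraMap (OV q hA F) F)))) θ₁ h
  obtain ⟨σ, hσ⟩ := exists_aut q hA hC hfin hmon hirr hθ hlift
  have hcard : Nat.card (AdjoinRoot (g₀.map (algebraMap (OV q hA F) F)) ≃ₐ[F]
      AdjoinRoot (g₀.map (algebraMap (OV q hA F) F))) ≤ m := by
    rw [← hrank, Nat.card_eq_fintype_card]
    exact AlgEquiv.card_le
  have ho1 : m ∣ orderOf σ := by
    have := hσ (orderOf σ) (pow_orderOf_eq_one σ)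
    rwa [hdeg] at this
  have ho2 : orderOf σ ∣ Nat.card (AdjoinRoot (g₀.map (algebraMap (OV q hA F) F)) ≃ₐ[F]
      AdjoinRoot (g₀.map (algebraMap (OV q hA F) F))) := orderOf_dvd_natCard σ
  have ho3 : 0 < orderOf σ := orderOf_pos σ
  have hcpos : 0 < Nat.card (AdjoinRoot (g₀.map (algebraMap (OV q hA F) F)) ≃ₐ[F]
      AdjoinRoot (g₀.map (algebraMap (OV q hA F) F))) := Nat.card_pos
  have h1 := Nat.le_of_dvd ho3 ho1
  have h2 := Nat.le_of_dvd hcpos ho2
  have hcard' : Nat.card (AdjoinRoot (g₀.map (algebraMap (OV q hA F) F)) ≃ₐ[F]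
      AdjoinRoot (g₀.map (algebraMap (OV q hA F) F))) = m := by omega
  have hord : orderOf σ = Nat.card (AdjoinRoot (g₀.map (algebraMap (OV q hA F) F)) ≃ₐ[F]
      AdjoinRoot (g₀.map (algebraMap (OV q hA F) F))) := by omega
  refine ⟨IsGalois.of_card_aut_eq_finrank _ _ (by rw [hcard', hrank]), hrank,
    isCyclic_of_orderOf_eq_card σ hord, ?_⟩
  exact isUnram_of_root q hA hmon hirr hθ hspan

end UE

end Fermat.Agent.PT.L
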