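/-
PT-L, piece L3a (helper48): `stmtUnramExists : StmtUnramExists`, unconditional
(`UnramExists.lean` + the landed L0 pieces `stmtWAdd`, `stmtWComplete`, `stmtWFinite`).
-/
import Fermat.Agent.PT.L.UnramExists
import Fermat.Agent.PT.L.Val
import Fermat.Agent.PT.L.Complete
import Fermat.Agent.PT.L.FiniteQuotFinal

set_option autoImplicit false

namespace Fermat.Agent.PT.L

/-- **L3a**: the unramified extension of every degree `m ≥ 1` exists and is cyclic. -/
theorem stmtUnramExists : StmtUnramExists :=
  UE.stmtUnramExists_of stmtWAdd stmtWComplete stmtWFinite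

end Fermat.Agent.PT.L
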