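/-
PT-L: FINAL WIRING (helper57). Everything of PT-L, conditional only on
`StmtCompositumNorm` (piece U).  The unconditional versions are in `Final.lean`.
-/
import Fermat.Agent.PT.L.CyclicFinal
import Fermat.Agent.PT.L.UnramExistsFinal
import Fermat.Agent.PT.L.InflInj
import Fermat.Agent.PT.L.InfResField
import Fermat.Agent.PT.L.LaGen
import Fermat.Agent.PT.L.H2Le
import Fermat.Agent.PT.L.La
import Fermat.Agent.PT.L.FundClass
import Fermat.Agent.PT.L.PowCard
import Fermat.Agent.PT.L.KummerMax

set_option autoImplicit false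

namespace Fermat.Agent.PT.L

/-- L5, unconditional: `|H²(F'/F, F'ˣ)| ≤ [F' : F]` for `p`-extensions. -/
theorem h2Le : StmtH2Le := stmtH2Le normIndex stmtInfResField

/-- L7b, unconditional. -/
theorem kummerMax : StmtKummerMax := stmtKummerMax_of stmtPowFinite

/-- L6a from U. -/
theorem laGen_of (hC : StmtCompositumNorm) : StmtLaGen :=
  stmtLaGen_of stmtUnramExists hC stmtLd stmtInfResField

/-- **(La)** from U. -/
theorem la_of (hC : StmtCompositumNorm) : StmtLa := stmtLa (laGen_of hC) h2Le

/-- **(CM-loc)** from U. -/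
theorem fundClass_of (hC : StmtCompositumNorm) : StmtFundClass :=
  stmtFundClass_of (laGen_of hC) (la_of hC)

end Fermat.Agent.PT.L
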