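/-
PT-L piece U1 (helper65): `stmtRes : StmtRes` — the residue-field quotient of the Galois group
of a finite Galois extension `L/K` of local fields.

Route: the valuation rings `A = UE.OV K`, `B = UE.OV L` (ValRing.lean) are local principal ideal
domains, `B` is the integral closure of `A` in `L`; Mathlib's
`Ideal.Quotient.stabilizerHom_surjective` gives `Gal(L/K) ↠ Aut(k_L/k_K)` (cyclic: finite
fields), the kernel is the inertia group, and the fundamental identity `e · f = n`
(`Ideal.ramificationIdx_mul_inertiaDeg_of_isLocalRing`) gives `f · a_K = a_L`.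
-/
import Fermat.Agent.PT.L.PlanU
import Fermat.Agent.PT.L.Ge
import Fermat.Agent.PT.L.UnramExists
import Fermat.Agent.PT.L.FiniteQuotFinal

set_option autoImplicit false
set_option linter.unusedSectionVars false
set_option linter.deprecated false
set_option linter.style.haveILetI false

open scoped Pointwise

namespace Fermat.Agent.PT.L
namespace LU

/-! ### Abstract part (Mathlib only) -/

/-- abstract local Galois theory: reduction onto the (cyclic) Galois group of the residue
fields, with kernel the inertia elements, and `|C| · e = n`. -/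
theorem lu_abstract (A K L B : Type) [CommRing A] [CommRing B] [Field K] [Field L]
    [Algebra A K] [Algebra B L] [IsFractionRing A K] [IsFractionRing B L]
    [Algebra A B] [Algebra K L] [Algebra A L] [IsScalarTower A K L] [IsScalarTower A B L]
    [IsDedekindDomain A] [IsDedekindDomain B] [IsLocalRing A] [IsLocalRing B]
    [IsIntegralClosure B A L] [FiniteDimensional K L] [IsGalois K L]
    [Finite (B ⧸ IsLocalRing.maximalIdeal B)] (hA : IsLocalRing.maximalIdeal A ≠ ⊥) :
    ∃ (C : Type) (_ : Group C) (_ : IsCyclic C) (ρ : Gal(L/K) →* C), Function.Surjective ρ ∧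
      (∀ σ : Gal(L/K), ρ σ = 1 ↔ ∀ b : B, ∃ c ∈ IsLocalRing.maximalIdeal B,
          σ (algebraMap B L b) - algebraMap B L b = algebraMap B L c) ∧
      Nat.card C * Ideal.ramificationIdx' (IsLocalRing.maximalIdeal A)
          (IsLocalRing.maximalIdeal B) = Module.finrank K L := by
  classical
  let _ : MulSemiringAction Gal(L/K) B := IsIntegralClosure.MulSemiringAction A K L B
  have : Algebra.IsInvariant A B Gal(L/K) := Algebra.isInvariant_of_isGalois A K L B
  have hsm : ∀ (g : Gal(L/K)) (b : B), algebraMap B L (g • b) = g (algebraMap B L b) := by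
    intro g b
    exact algebraMap_galRestrict_apply A g b
  have : SMulCommClass Gal(L/K) A B := by
    refine ⟨fun g a b => ?_⟩
    apply FaithfulSMul.algebraMap_injective B L
    rw [hsm, Algebra.smul_def, Algebra.smul_def, map_mul, map_mul, map_mul, hsm]
    congr 1
    rw [← IsScalarTower.algebraMap_apply A B L, IsScalarTower.algebraMap_apply A K L]
    exact g.commutes _
  have : Algebra.IsIntegral A B := IsIntegralClosure.isIntegral_algebra A L
  have : Module.Finite A B := IsIntegralClosure.finite A K L B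
  have : FaithfulSMul A B := FaithfulSMul.of_field_isFractionRing A B K L
  set P := IsLocalRing.maximalIdeal A with hP
  set Q := IsLocalRing.maximalIdeal B with hQ
  have : IsLocalHom (algebraMap A B) := inferInstance
  have : Q.LiesOver P := inferInstance
  have hstab : ∀ g : Gal(L/K), g • Q = Q := by
    intro g
    ext x
    rw [Ideal.mem_pointwise_smul_iff_inv_smul_mem, hQ, IsLocalRing.mem_maximalIdeal,
      IsLocalRing.mem_maximalIdeal, mem_nonunits_iff, mem_nonunits_iff, not_iff_not]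
    exact isUnit_map_iff (MulSemiringAction.toRingEquiv Gal(L/K) B g⁻¹) x
  have hsurj := Ideal.Quotient.stabilizerHom_surjective Gal(L/K) P Q
  let _ : Field (A ⧸ P) := Ideal.Quotient.field P
  let _ : Field (B ⧸ Q) := Ideal.Quotient.field Q
  have : Finite (B ⧸ Q) := inferInstance
  have hcyc : IsCyclic ((B ⧸ Q) ≃ₐ[A ⧸ P] (B ⧸ Q)) := inferInstance
  have hgal : IsGalois (A ⧸ P) (B ⧸ Q) := inferInstance
  let toStab : Gal(L/K) →* MulAction.stabilizer Gal(L/K) Q :=
    { toFun := fun g => ⟨g, hstab g⟩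
      map_one' := rfl
      map_mul' := fun _ _ => rfl }
  refine ⟨(B ⧸ Q) ≃ₐ[A ⧸ P] (B ⧸ Q), inferInstance, hcyc,
    (Ideal.Quotient.stabilizerHom Q P Gal(L/K)).comp toStab, ?_, ?_, ?_⟩
  · intro c
    obtain ⟨g, hg⟩ := hsurj c
    exact ⟨g.1, by rw [← hg]; rfl⟩
  · intro σ
    constructor
    · intro h b
      have h1 := congrArg (fun f => f (Ideal.Quotient.mk Q b)) h
      simp only [MonoidHom.comp_apply] at h1
      have h2 : Ideal.Quotient.mk Q (σ • b) = Ideal.Quotient.mk Q b := h1
      rw [Ideal.Quotient.eq] at h2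
      exact ⟨σ • b - b, h2, by rw [map_sub, hsm]⟩
    · intro h
      ext x
      obtain ⟨b, rfl⟩ := Ideal.Quotient.mk_surjective x
      show Ideal.Quotient.mk Q (σ • b) = Ideal.Quotient.mk Q b
      rw [Ideal.Quotient.eq]
      obtain ⟨c, hc, hcb⟩ := h b
      have : σ • b - b = c := by
        apply FaithfulSMul.algebraMap_injective B L
        rw [map_sub, hsm, hcb]
      rw [this]
      exact hc
  · have h1 := Ideal.ramificationIdx_mul_inertiaDeg_of_isLocalRing (R := A) (S := B) K L
      (p := P) hA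
    rw [Ideal.inertiaDeg'_algebraMap] at h1
    rw [IsGalois.card_aut_eq_finrank, mul_comm]
    exact h1

/-! ### The valuation ring of a local field -/

section One

variable (q : ℕ) [Fact q.Prime] {X : Type} [Field X] [Algebra ℚ_[q] X]
  [FiniteDimensional ℚ_[q] X]

/-- division by an element of smaller valuation stays integral -/
theorem lu_div_mem {x y : X} (hy : y ≠ 0) (h : x = 0 ∨ wv q y ≤ wv q x) :
    x / y ∈ UE.OV q stmtWAdd X := by
  rcases eq_or_ne x 0 with rfl | hx
  · exact Or.inl (by simp)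
  · right
    rw [l0b_wv_div q hx hy]
    have := h.resolve_left hx
    omega

/-- the valuation ring is a principal ideal ring -/
theorem lu_pid : IsPrincipalIdealRing (UE.OV q stmtWAdd X) := by
  classical
  refine ⟨fun I => ?_⟩
  by_cases hI : I = ⊥
  · rw [hI]
    exact bot_isPrincipal
  obtain ⟨x, hxI, hx0⟩ := Submodule.exists_mem_ne_zero_of_ne_bot hI
  let S : Set ℕ := {k | ∃ y ∈ I, y ≠ 0 ∧ (wv q (y : X)).toNat = k}
  have hS : S.Nonempty := ⟨_, x, hxI, hx0, rfl⟩
  obtain ⟨y, hyI, hy0, hy⟩ := Nat.sInf_mem hS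
  have hy0' : (y : X) ≠ 0 := fun h => hy0 (Subtype.ext h)
  refine ⟨⟨y, ?_⟩⟩
  apply le_antisymm
  · intro z hz
    rcases eq_or_ne z 0 with rfl | hz0
    · exact Submodule.zero_mem _
    have hz0' : (z : X) ≠ 0 := fun h => hz0 (Subtype.ext h)
    have h1 : sInf S ≤ (wv q (z : X)).toNat := Nat.sInf_le ⟨z, hz, hz0, rfl⟩
    have hyn : 0 ≤ wv q (y : X) := (y.2).resolve_left hy0'
    have hzn : 0 ≤ wv q (z : X) := (z.2).resolve_left hz0'
    have h2 : wv q (y : X) ≤ wv q (z : X) := by
      rw [← hy] at h1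
      omega
    show z ∈ Ideal.span {y}
    rw [Ideal.mem_span_singleton']
    refine ⟨⟨(z : X) / (y : X), lu_div_mem q hy0' (Or.inr h2)⟩, Subtype.ext ?_⟩
    show (z : X) / (y : X) * (y : X) = z
    field_simp
  · show Ideal.span {y} ≤ I
    exact (Ideal.span_singleton_le_iff_mem I).2 hyI

/-- the maximal ideal is generated by a uniformiser -/
theorem lu_maximalIdeal_eq {π : X} (hπ : IsUnif q π) (hπO : π ∈ UE.OV q stmtWAdd X) :
    IsLocalRing.maximalIdeal (UE.OV q stmtWAdd X) = Ideal.span {⟨π, hπO⟩} := by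
  obtain ⟨hπ0, hπpos, hπdvd⟩ := hπ
  apply le_antisymm
  · intro z hz
    rw [UE.mem_maximalIdeal_iff] at hz
    rw [Ideal.mem_span_singleton']
    have h2 : (z : X) = 0 ∨ wv q π ≤ wv q (z : X) := by
      rcases hz with hz | hz
      · exact Or.inl hz
      · right
        by_cases hz0 : (z : X) = 0
        · rw [hz0] at hz
          simp [wv] at hz
        · exact Int.le_of_dvd (by omega) (hπdvd _ hz0)
    refine ⟨⟨(z : X) / π, lu_div_mem q hπ0 h2⟩, Subtype.ext ?_⟩
    show (z : X) / π * π = z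
    field_simp
  · rw [Ideal.span_singleton_le_iff_mem, UE.mem_maximalIdeal_iff]
    right
    show 1 ≤ wv q π
    omega

/-- membership in the ideal generated by a power of a uniformiser -/
theorem lu_mem_span_pow {π : X} (hπ0 : π ≠ 0) (hπO : π ∈ UE.OV q stmtWAdd X) (k : ℕ)
    (z : UE.OV q stmtWAdd X) :
    z ∈ Ideal.span {(⟨π, hπO⟩ : UE.OV q stmtWAdd X) ^ k} ↔
      ((z : X) = 0 ∨ (k : ℤ) * wv q π ≤ wv q (z : X)) := by
  rw [Ideal.mem_span_singleton']
  constructor
  · rintro ⟨a, rfl⟩
    rcases eq_or_ne (a : X) 0 with ha | ha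
    · left
      show (a : X) * (π ^ k) = 0
      rw [ha, zero_mul]
    · right
      show (k : ℤ) * wv q π ≤ wv q ((a : X) * π ^ k)
      rw [l0b_wv_mul q ha (pow_ne_zero k hπ0), l0b_wv_pow]
      have := (a.2).resolve_left ha
      omega
  · intro h
    have h2 : (z : X) = 0 ∨ wv q (π ^ k) ≤ wv q (z : X) := by
      rw [l0b_wv_pow]
      exact h
    refine ⟨⟨(z : X) / π ^ k, lu_div_mem q (pow_ne_zero k hπ0) h2⟩, Subtype.ext ?_⟩
    show (z : X) / π ^ k * π ^ k = z
    have := pow_ne_zero k hπ0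
    field_simp

end One

/-! ### A pair `K ⊂ L` -/

section Pair

variable (q : ℕ) [Fact q.Prime] (K L : Type) [Field K] [Field L] [Algebra ℚ_[q] K]
  [FiniteDimensional ℚ_[q] K] [Algebra K L] [Algebra ℚ_[q] L] [IsScalarTower ℚ_[q] K L]
  [FiniteDimensional K L] [FiniteDimensional ℚ_[q] L]

/-- `𝒪_K → 𝒪_L` as an algebra -/
@[reducible] noncomputable def lu_algOO : Algebra (UE.OV q stmtWAdd K) (UE.OV q stmtWAdd L) :=
  (UE.iota q stmtWAdd).toAlgebra

/-- `𝒪_K → L` as an algebra -/
@[reducible] noncomputable def lu_algOL : Algebra (UE.OV q stmtWAdd K) L :=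
  ((algebraMap K L).comp (algebraMap (UE.OV q stmtWAdd K) K)).toAlgebra

/-- `ℤ_q → 𝒪_K` -/
noncomputable def lu_zq : ℤ_[q] →+* UE.OV q stmtWAdd K where
  toFun z := ⟨algebraMap ℚ_[q] K (z : ℚ_[q]), by
    have h : IsInt q (algebraMap ℚ_[q] K (z : ℚ_[q])) := by
      rw [stmtWInt q K]
      exact RingHom.isIntegralElem_map _
    exact h⟩
  map_one' := Subtype.ext (by simp)
  map_mul' _ _ := Subtype.ext (by simp)
  map_zero' := Subtype.ext (by simp)
  map_add' _ _ := Subtype.ext (by simp)

/-- `𝒪_L` is the integral closure of `𝒪_K` in `L` -/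
theorem lu_isIntegralClosure :
    letI := lu_algOL q K L
    IsIntegralClosure (UE.OV q stmtWAdd L) (UE.OV q stmtWAdd K) L := by
  letI := lu_algOL q K L
  refine ⟨Subtype.val_injective, ?_⟩
  intro x
  constructor
  · rintro ⟨p, hmon, hp⟩
    exact ⟨⟨x, UE.root_mem_OV q stmtWAdd hmon hp⟩, rfl⟩
  · rintro ⟨y, rfl⟩
    have hy : IsInt q (y : L) := y.2
    rw [stmtWInt q L] at hy
    obtain ⟨p, hmon, hp⟩ := hy
    refine ⟨p.map (lu_zq q K), hmon.map _, ?_⟩
    rw [Polynomial.eval₂_map]
    have e : (algebraMap (UE.OV q stmtWAdd K) L).comp (lu_zq q K) =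
        (algebraMap ℚ_[q] L).comp (PadicInt.Coe.ringHom (p := q)) := by
      ext z
      show algebraMap K L (algebraMap ℚ_[q] K (z : ℚ_[q])) = algebraMap ℚ_[q] L (z : ℚ_[q])
      rw [← IsScalarTower.algebraMap_apply]
    rw [e]
    exact hp

/-- the ramification index, computed from the values of `wv` at uniformisers -/
theorem lu_ramificationIdx {πK : K} {πL : L} (hK : IsUnif q πK) (hL : IsUnif q πL) (e : ℕ)
    (he : (e : ℤ) * wv q πL = (Module.finrank K L : ℤ) * wv q πK) :
    letI := lu_algOO q K L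
    Ideal.ramificationIdx' (IsLocalRing.maximalIdeal (UE.OV q stmtWAdd K))
      (IsLocalRing.maximalIdeal (UE.OV q stmtWAdd L)) = e := by
  letI := lu_algOO q K L
  have hKO : πK ∈ UE.OV q stmtWAdd K := Or.inr hK.2.1.le
  have hLO : πL ∈ UE.OV q stmtWAdd L := Or.inr hL.2.1.le
  have hw : wv q (algebraMap K L πK) = (Module.finrank K L : ℤ) * wv q πK :=
    wv_algebraMap_tower q πK
  have h0 : algebraMap K L πK ≠ 0 := by
    intro h
    exact hK.1 ((map_eq_zero (algebraMap K L)).1 h)
  have hmap : Ideal.map (algebraMap (UE.OV q stmtWAdd K) (UE.OV q stmtWAdd L))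
      (IsLocalRing.maximalIdeal (UE.OV q stmtWAdd K)) =
      Ideal.span {UE.iota q stmtWAdd (⟨πK, hKO⟩ : UE.OV q stmtWAdd K)} := by
    rw [lu_maximalIdeal_eq q hK hKO, Ideal.map_span, Set.image_singleton]
    rfl
  have hpow : ∀ k : ℕ, IsLocalRing.maximalIdeal (UE.OV q stmtWAdd L) ^ k =
      Ideal.span {(⟨πL, hLO⟩ : UE.OV q stmtWAdd L) ^ k} := by
    intro k
    rw [lu_maximalIdeal_eq q hL hLO, Ideal.span_singleton_pow]
  have hle : ∀ k : ℕ, (Ideal.map (algebraMap (UE.OV q stmtWAdd K) (UE.OV q stmtWAdd L))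
      (IsLocalRing.maximalIdeal (UE.OV q stmtWAdd K)) ≤
      IsLocalRing.maximalIdeal (UE.OV q stmtWAdd L) ^ k) ↔
      (k : ℤ) * wv q πL ≤ (Module.finrank K L : ℤ) * wv q πK := by
    intro k
    rw [hmap, hpow, Ideal.span_singleton_le_iff_mem, lu_mem_span_pow q hL.1 hLO]
    show (algebraMap K L πK = 0 ∨ (k : ℤ) * wv q πL ≤ wv q (algebraMap K L πK)) ↔ _
    rw [hw]
    constructor
    · intro h
      exact h.resolve_left h0
    · intro h
      exact Or.inr h
  apply Ideal.ramificationIdx'_spec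
  · rw [hle]
    exact he.le
  · rw [hle]
    push_cast
    have := hL.2.1
    linarith

/-- `StmtRes` for a pair -/
theorem lu_res [IsGalois K L] :
    ∃ (C : Type) (_ : Group C) (_ : IsCyclic C) (ρ : (L ≃ₐ[K] L) →* C),
      Function.Surjective ρ ∧
      (∀ σ : L ≃ₐ[K] L, ρ σ = 1 ↔ IsInertial q σ) ∧
      ∀ (πK : K) (πL : L), IsUnif q πK → IsUnif q πL →
        (Nat.card C : ℤ) * wv q πK = wv q πL := by
  letI := lu_algOO q K L
  letI := lu_algOL q K L
  haveI : IsScalarTower (UE.OV q stmtWAdd K) K L := IsScalarTower.of_algebraMap_eq (fun _ => rfl)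
  haveI : IsScalarTower (UE.OV q stmtWAdd K) (UE.OV q stmtWAdd L) L :=
    IsScalarTower.of_algebraMap_eq (fun _ => rfl)
  haveI : IsPrincipalIdealRing (UE.OV q stmtWAdd K) := lu_pid q
  haveI : IsPrincipalIdealRing (UE.OV q stmtWAdd L) := lu_pid q
  haveI : IsIntegralClosure (UE.OV q stmtWAdd L) (UE.OV q stmtWAdd K) L :=
    lu_isIntegralClosure q K L
  haveI : Finite (UE.OV q stmtWAdd L ⧸ IsLocalRing.maximalIdeal (UE.OV q stmtWAdd L)) :=
    UE.finite_residueField q stmtWAdd stmtWFinite
  obtain ⟨π₀, hπ₀⟩ := stmtWUnif q K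
  have hπ₀O : π₀ ∈ UE.OV q stmtWAdd K := Or.inr hπ₀.2.1.le
  have hA : IsLocalRing.maximalIdeal (UE.OV q stmtWAdd K) ≠ ⊥ := by
    intro h
    have h1 : (⟨π₀, hπ₀O⟩ : UE.OV q stmtWAdd K) ∈
        IsLocalRing.maximalIdeal (UE.OV q stmtWAdd K) := by
      rw [UE.mem_maximalIdeal_iff]
      right
      show 1 ≤ wv q π₀
      have := hπ₀.2.1
      omega
    rw [h, Ideal.mem_bot] at h1
    exact hπ₀.1 (congrArg Subtype.val h1)
  obtain ⟨C, hG, hC, ρ, hsurj, hker, hcard⟩ :=
    lu_abstract (UE.OV q stmtWAdd K) K L (UE.OV q stmtWAdd L) hA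
  refine ⟨C, hG, hC, ρ, hsurj, ?_, ?_⟩
  · intro σ
    rw [hker]
    constructor
    · intro h x hx
      obtain ⟨c, hc, hcx⟩ := h ⟨x, hx⟩
      rw [UE.mem_maximalIdeal_iff] at hc
      have hcx' : σ x - x = (c : L) := hcx
      rcases hc with hc | hc
      · left
        rw [hc] at hcx'
        exact sub_eq_zero.1 hcx'
      · right
        rw [hcx']
        exact hc
    · intro h b
      have hb : IsInt q (b : L) := b.2
      have hσb : σ (b : L) ∈ UE.OV q stmtWAdd L := by
        rcases hb with hb | hb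
        · exact Or.inl (by rw [hb, map_zero])
        · exact Or.inr (by rw [wv_algEquiv]; exact hb)
      refine ⟨⟨σ (b : L) - (b : L), sub_mem hσb b.2⟩, ?_, rfl⟩
      rw [UE.mem_maximalIdeal_iff]
      rcases h (b : L) hb with h1 | h1
      · exact Or.inl (sub_eq_zero.2 h1)
      · exact Or.inr h1
  · intro πK πL hK hL
    have hw : wv q (algebraMap K L πK) = (Module.finrank K L : ℤ) * wv q πK :=
      wv_algebraMap_tower q πK
    have h0 : algebraMap K L πK ≠ 0 := by
      intro h
      exact hK.1 ((map_eq_zero (algebraMap K L)).1 h)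
    obtain ⟨e', he'⟩ := hL.2.2 _ h0
    rw [hw] at he'
    have hn : (0 : ℤ) < (Module.finrank K L : ℤ) := by
      exact_mod_cast (Module.finrank_pos (R := K) (M := L))
    have hpos : (0 : ℤ) < (Module.finrank K L : ℤ) * wv q πK := mul_pos hn hK.2.1
    have he'pos : 0 < e' := by
      by_contra hcon
      have : wv q πL * e' ≤ 0 := mul_nonpos_of_nonneg_of_nonpos hL.2.1.le (not_lt.1 hcon)
      omega
    obtain ⟨e, rfl⟩ : ∃ e : ℕ, (e : ℤ) = e' := ⟨e'.toNat, Int.toNat_of_nonneg he'pos.le⟩
    have he : (e : ℤ) * wv q πL = (Module.finrank K L : ℤ) * wv q πK := by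
      rw [he']; ring
    have hram := lu_ramificationIdx q K L hK hL e he
    rw [hram] at hcard
    have hcard' : (Nat.card C : ℤ) * (e : ℤ) = (Module.finrank K L : ℤ) := by
      exact_mod_cast hcard
    have h1 : (e : ℤ) * ((Nat.card C : ℤ) * wv q πK) = (e : ℤ) * wv q πL := by
      rw [he, ← hcard']; ring
    exact mul_left_cancel₀ (by exact_mod_cast he'pos.ne') h1

end Pair

end LU

/-- **U1**: the residue-field quotient of the Galois group of a Galois extension of local
fields. -/
theorem stmtRes : StmtRes := by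
  intro q _ K L _ _ _ _ _ _ _ _ _
  haveI : FiniteDimensional ℚ_[q] L := tower_finiteDimensional q K
  exact LU.lu_res q K L

end Fermat.Agent.PT.L
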