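/-
PT-L: FINAL RESULTS, all UNCONDITIONAL (helper57, wiring of the pieces of
helper30/48/60/61/65/67/72/74/75/57; see NOTES/PT-L-plan.md).

  `la         : StmtLa`          (La)  H²(Gal(F'/F), F'ˣ) cyclic of order [F':F] = p^k
  `laGen      : StmtLaGen`             a class of order [F':F] in H²(F'/F), any degree
  `fundClass  : StmtFundClass`   (CM-loc) F'ˣ has a p-fundamental class
  `stmtLd     : StmtLd`          (Ld)  inflation is injective           (InflInj.lean)
  `normIndex  : StmtNormIndex`   (Lc)  [Fˣ : N F'ˣ] = [F':F], cyclic    (CyclicFinal.lean)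
  `unitNorm   : StmtUnitNorm`    (Lc)  units are norms, unramified      (CyclicFinal.lean)
  `h2Le`, `kummerMax`, `stmtPowFinite`, `stmtPowCard`, `stmtUnramExists`, `stmtInfResField`.
-/
import Fermat.Agent.PT.L.FinalOf
import Fermat.Agent.PT.L.Res
import Fermat.Agent.PT.L.CompositumNorm

set_option autoImplicit false

namespace Fermat.Agent.PT.L

/-- U, unconditional. -/
theorem compositumNorm : StmtCompositumNorm := stmtCompositumNorm_of_res stmtRes

/-- L6a, unconditional: a class of order `[F' : F]` in `H²(F'/F, F'ˣ)`. -/
theorem laGen : StmtLaGen := laGen_of compositumNorm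

/-- **(La)**, unconditional: for a Galois extension `F'/F` of local fields of degree `p ^ k`,
`H²(Gal(F'/F), F'ˣ)` is cyclic of order `[F' : F]`. -/
theorem la : StmtLa := la_of compositumNorm

/-- **(CM-loc)**, unconditional: `F'ˣ` has a `p`-fundamental class for every finite Galois
extension `F'/F` of local fields. -/
theorem fundClass : StmtFundClass := fundClass_of compositumNorm

end Fermat.Agent.PT.L
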