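import Fermat.Agent.PT.L.Plan

/-!
# PT-L, piece L0d: the valuation ring modulo `{w ≥ k}` is finite

`stmtWFinite_of : StmtWInt → StmtWFinite`.

The valuation ring is the integral closure `C` of `ℤ_q` in `F` (`StmtWInt`), a finitely generated
`ℤ_q`-module; `C / q^k C` is finite and `q^k C ⊆ {w ≥ k}`.
-/

set_option autoImplicit false
set_option linter.style.haveILetI false

open scoped Pointwise

namespace Fermat.Agent.PT.L

/-- `ℤ_q / q^j` is finite. -/
theorem l0d_finite_quot (q : ℕ) [Fact q.Prime] (j : ℕ) :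
    Finite (ℤ_[q] ⧸ Ideal.span {(q : ℤ_[q]) ^ j}) := by
  rw [← PadicInt.ker_toZModPow]
  haveI : NeZero (q ^ j) := ⟨pow_ne_zero j (Fact.out : q.Prime).ne_zero⟩
  exact Finite.of_injective _ (RingHom.kerLift_injective (PadicInt.toZModPow (p := q) j))

/-- The value of `w` on `q^k y`. -/
theorem l0d_wv_pow_mul (q : ℕ) [Fact q.Prime] (F : Type) [Field F] [Algebra ℚ_[q] F]
    [FiniteDimensional ℚ_[q] F] (k : ℕ) (y : F) (hy : y ≠ 0) :
    wv q (algebraMap ℚ_[q] F ((q : ℚ_[q]) ^ k) * y) =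
      (k : ℤ) * (Module.finrank ℚ_[q] F : ℤ) + wv q y := by
  have hq0 : (q : ℚ_[q]) ≠ 0 := by
    exact_mod_cast (Fact.out : q.Prime).ne_zero
  have hN : Algebra.norm ℚ_[q] y ≠ 0 := Algebra.norm_ne_zero_iff.mpr hy
  unfold wv
  rw [map_mul, Algebra.norm_algebraMap,
    Padic.valuation_mul (pow_ne_zero _ (pow_ne_zero _ hq0)) hN, Padic.valuation_pow,
    Padic.valuation_pow, Padic.valuation_p]
  ring

/-- **L0d**. -/
theorem stmtWFinite_of (hInt : StmtWInt) : StmtWFinite := by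
  classical
  intro q _ F _ _ _ k
  letI : Algebra ℤ_[q] F :=
    ((algebraMap ℚ_[q] F).comp (PadicInt.Coe.ringHom (p := q))).toAlgebra
  haveI : IsScalarTower ℤ_[q] ℚ_[q] F := IsScalarTower.of_algebraMap_eq (fun x => rfl)
  have hmemC : ∀ x : F, IsInt q x ↔ x ∈ integralClosure ℤ_[q] F := fun x => hInt q F x
  haveI : Module.Finite ℤ_[q] (integralClosure ℤ_[q] F) :=
    IsIntegralClosure.finite ℤ_[q] ℚ_[q] F (integralClosure ℤ_[q] F)
  set I : Ideal ℤ_[q] := Ideal.span {(q : ℤ_[q]) ^ k} with hI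
  set N : Submodule ℤ_[q] (integralClosure ℤ_[q] F) := I • ⊤ with hN
  haveI : Finite (ℤ_[q] ⧸ I) := l0d_finite_quot q k
  haveI : Module.Finite (ℤ_[q] ⧸ I) ((integralClosure ℤ_[q] F) ⧸ N) := inferInstance
  haveI : Finite ((integralClosure ℤ_[q] F) ⧸ N) := Module.finite_of_finite (ℤ_[q] ⧸ I)
  letI : Fintype ((integralClosure ℤ_[q] F) ⧸ N) := Fintype.ofFinite _
  have hsec : ∀ z : (integralClosure ℤ_[q] F) ⧸ N,
      ∃ c : integralClosure ℤ_[q] F, Submodule.Quotient.mk c = z :=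
    fun z => Submodule.Quotient.mk_surjective N z
  choose rep hrep using hsec
  refine ⟨Finset.univ.image (fun z => ((rep z : integralClosure ℤ_[q] F) : F)), fun x hx => ?_⟩
  have hxC : x ∈ integralClosure ℤ_[q] F := (hmemC x).mp hx
  set c : integralClosure ℤ_[q] F := ⟨x, hxC⟩ with hc
  refine ⟨((rep (Submodule.Quotient.mk c) : integralClosure ℤ_[q] F) : F),
    Finset.mem_image.mpr ⟨_, Finset.mem_univ _, rfl⟩, ?_⟩
  have hmem : c - rep (Submodule.Quotient.mk c) ∈ N := by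
    rw [← Submodule.Quotient.eq]
    exact (hrep _).symm
  have hN' : N = ((q : ℤ_[q]) ^ k) • (⊤ : Submodule ℤ_[q] (integralClosure ℤ_[q] F)) := by
    rw [hN, hI, Submodule.ideal_span_singleton_smul]
  set d : integralClosure ℤ_[q] F := c - rep (Submodule.Quotient.mk c) with hd
  have hmem' : d ∈ ((q : ℤ_[q]) ^ k) • (⊤ : Submodule ℤ_[q] (integralClosure ℤ_[q] F)) :=
    hN' ▸ hmem
  obtain ⟨y, -, hy⟩ := (Submodule.mem_smul_pointwise_iff_exists _ _ _).mp hmem'
  have hyF : x - ((rep (Submodule.Quotient.mk c) : integralClosure ℤ_[q] F) : F) =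
      algebraMap ℚ_[q] F ((q : ℚ_[q]) ^ k) * (y : F) := by
    have h1 : ((((q : ℤ_[q]) ^ k • y : integralClosure ℤ_[q] F)) : F) =
        x - ((rep (Submodule.Quotient.mk c) : integralClosure ℤ_[q] F) : F) :=
      congrArg (fun z : integralClosure ℤ_[q] F => (z : F)) hy
    rw [← h1]
    show (((q : ℤ_[q]) ^ k • y : integralClosure ℤ_[q] F) : F) = _
    rw [Subalgebra.coe_smul, Algebra.smul_def]
    congr 1
  by_cases hy0 : (y : F) = 0
  · left
    rw [hy0, mul_zero, sub_eq_zero] at hyF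
    exact hyF
  · right
    rw [hyF, l0d_wv_pow_mul q F k (y : F) hy0]
    have hyInt : IsInt q (y : F) := (hmemC (y : F)).mpr y.2
    have hwy : 0 ≤ wv q (y : F) := by
      rcases hyInt with h | h
      · exact absurd h hy0
      · exact h
    have hn : (1 : ℤ) ≤ (Module.finrank ℚ_[q] F : ℤ) := by
      exact_mod_cast Module.finrank_pos
    nlinarith [Nat.cast_nonneg (α := ℤ) k]

end Fermat.Agent.PT.L
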