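import Fermat.Agent.PT.L.NormIndexAux
import Fermat.Agent.PT.L.Unif

/-!
# PT-L, piece L2: the norm index of a cyclic extension of local fields (`StmtNormIndex`)

`[Fˣ : N F'ˣ] = [F' : F]` for `F'/F` cyclic, from Herbrand's lemma, the cohomological triviality
of a subgroup of finite index of the units (`StmtUnitsTrivial`) and Hilbert 90.
-/

set_option autoImplicit false
set_option linter.unusedSectionVars false
set_option linter.style.haveILetI false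

namespace Fermat.Agent.PT.L

open Additive

section Field

variable {F F' : Type} [Field F] [Field F'] [Algebra F F'] [FiniteDimensional F F'] [IsGalois F F']

/-- `σ` acting on `Additive F'ˣ`. -/
noncomputable def l2σ (σ : F' ≃ₐ[F] F') : AddMonoid.End (Additive F'ˣ) :=
  MonoidHom.toAdditive (Units.map (σ : F' →* F'))

lemma l2σ_apply (σ : F' ≃ₐ[F] F') (x : Additive F'ˣ) :
    (((l2σ σ x).toMul : F'ˣ) : F') = σ ((x.toMul : F'ˣ) : F') := rfl

lemma l2σ_pow_apply (σ : F' ≃ₐ[F] F') (k : ℕ) (x : Additive F'ˣ) :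
    ((((l2σ σ ^ k) x).toMul : F'ˣ) : F') = (σ ^ k) ((x.toMul : F'ˣ) : F') := by
  induction k generalizing x with
  | zero => rfl
  | succ k ih =>
    rw [pow_succ, pow_succ]
    show ((((l2σ σ ^ k) (l2σ σ x)).toMul : F'ˣ) : F') = (σ ^ k) (σ ((x.toMul : F'ˣ) : F'))
    rw [ih, l2σ_apply]

lemma l2σ_pow_eq_one (σ : F' ≃ₐ[F] F') (n : ℕ) (h : σ ^ n = 1) : l2σ σ ^ n = 1 := by
  ext x
  show ((((l2σ σ ^ n) x).toMul : F'ˣ) : F') = ((x.toMul : F'ˣ) : F')
  rw [l2σ_pow_apply, h]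
  rfl

lemma l2_prod_pow_eq (σ : F' ≃ₐ[F] F') (hσ : ∀ τ, τ ∈ Subgroup.zpowers σ)
    (f : (F' ≃ₐ[F] F') → F') :
    ∏ i ∈ Finset.range (orderOf σ), f (σ ^ i) = ∏ τ : F' ≃ₐ[F] F', f τ := by
  have hfin : IsOfFinOrder σ := isOfFinOrder_of_finite σ
  let e : Fin (orderOf σ) ≃ (F' ≃ₐ[F] F') :=
    (finEquivZPowers hfin).trans (Equiv.subtypeUnivEquiv hσ)
  rw [Finset.prod_range]
  refine Fintype.prod_equiv e _ _ fun i => ?_
  simp [e, finEquivZPowers_apply]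

lemma l2_orderOf (σ : F' ≃ₐ[F] F') (hσ : ∀ τ, τ ∈ Subgroup.zpowers σ) :
    orderOf σ = Module.finrank F F' := by
  rw [orderOf_eq_card_of_forall_mem_zpowers hσ, IsGalois.card_aut_eq_finrank]

lemma l2_toMul_sum (s : Finset ℕ) (g : ℕ → Additive F'ˣ) :
    (((∑ i ∈ s, g i).toMul : F'ˣ) : F') = ∏ i ∈ s, (((g i).toMul : F'ˣ) : F') := by
  rw [toMul_sum, Units.coe_prod]

/-- `hqNorm` is the field norm. -/
lemma l2_hqNorm_eq (σ : F' ≃ₐ[F] F') (hσ : ∀ τ, τ ∈ Subgroup.zpowers σ) (x : Additive F'ˣ) :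
    (((hqNorm (l2σ σ) (Module.finrank F F') x).toMul : F'ˣ) : F') =
      algebraMap F F' (Algebra.norm F ((x.toMul : F'ˣ) : F')) := by
  rw [l2_hqNorm_apply, l2_toMul_sum, Algebra.norm_eq_prod_automorphisms, ← l2_orderOf σ hσ,
    ← l2_prod_pow_eq σ hσ (fun τ => τ ((x.toMul : F'ˣ) : F'))]
  exact Finset.prod_congr rfl fun i _ => l2σ_pow_apply σ i x

/-- Hilbert 90: `hq1 (F'ˣ) = 1`. -/
lemma l2_hq1_units [IsCyclic (F' ≃ₐ[F] F')] (σ : F' ≃ₐ[F] F')
    (hσ : ∀ τ, τ ∈ Subgroup.zpowers σ) :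
    hq1 (l2σ σ) (Module.finrank F F') = 1 := by
  apply l2_hq1_eq_one
  intro x hx
  have h1 : algebraMap F F' (Algebra.norm F ((x.toMul : F'ˣ) : F')) = 1 := by
    rw [← l2_hqNorm_eq σ hσ x, hx]
    rfl
  have h2 : Algebra.norm F ((x.toMul : F'ˣ) : F') = 1 := by
    apply (algebraMap F F').injective
    rw [h1, map_one]
  obtain ⟨y, hy⟩ := groupCohomology.exists_div_of_norm_eq_one hσ h2
  refine ⟨ofMul y⁻¹, ?_⟩
  apply toMul.injective
  apply Units.ext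
  rw [toMul_sub, Units.val_div_eq_div_val]
  show σ ((y⁻¹ : F'ˣ) : F') / ((y⁻¹ : F'ˣ) : F') = ((x.toMul : F'ˣ) : F')
  rw [← hy, Units.val_inv_eq_inv_val, map_inv₀]
  have hy0 : (y : F') ≠ 0 := y.ne_zero
  have hσy0 : σ (y : F') ≠ 0 := by
    rw [Ne, map_eq_zero]; exact hy0
  field_simp

lemma l2_fixed_of_zpowers (σ : F' ≃ₐ[F] F') (hσ : ∀ τ, τ ∈ Subgroup.zpowers σ) {y : F'}
    (hy : σ y = y) (τ : F' ≃ₐ[F] F') : τ y = y := by
  have hstab : σ ∈ MulAction.stabilizer (F' ≃ₐ[F] F') y := by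
    rw [MulAction.mem_stabilizer_iff]
    exact hy
  have hle : Subgroup.zpowers σ ≤ MulAction.stabilizer (F' ≃ₐ[F] F') y :=
    (Subgroup.zpowers_le).mpr hstab
  have := hle (hσ τ)
  rw [MulAction.mem_stabilizer_iff] at this
  exact this

/-- `hq0 (F'ˣ)` is the norm index. -/
lemma l2_hq0_units (σ : F' ≃ₐ[F] F') (hσ : ∀ τ, τ ∈ Subgroup.zpowers σ) :
    hq0 (l2σ σ) (Module.finrank F F') = (normSubgroup F F').index := by
  let j : Fˣ →* F'ˣ := Units.map (algebraMap F F' : F →* F')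
  have hj : Function.Injective j := Units.map_injective (algebraMap F F').injective
  have hker : (hqDelta (l2σ σ)).ker = Subgroup.toAddSubgroup j.range := by
    ext x
    rw [AddMonoidHom.mem_ker, l2_hqDelta_apply, sub_eq_zero, Additive.mem_toAddSubgroup,
      MonoidHom.mem_range]
    constructor
    · intro hx
      have hx' : σ ((x.toMul : F'ˣ) : F') = ((x.toMul : F'ˣ) : F') := by
        rw [← l2σ_apply, hx]
      obtain ⟨a, ha⟩ := (IsGalois.mem_range_algebraMap_iff_fixed ((x.toMul : F'ˣ) : F')).mpr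
        (l2_fixed_of_zpowers σ hσ hx')
      have ha0 : a ≠ 0 := by
        rintro rfl
        rw [map_zero] at ha
        exact (x.toMul : F'ˣ).ne_zero ha.symm
      refine ⟨Units.mk0 a ha0, ?_⟩
      apply Units.ext
      exact ha
    · rintro ⟨a, ha⟩
      apply toMul.injective
      apply Units.ext
      rw [l2σ_apply, ← ha]
      show σ (algebraMap F F' (a : F)) = algebraMap F F' (a : F)
      exact σ.commutes _
  have hrange : (hqNorm (l2σ σ) (Module.finrank F F')).range =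
      Subgroup.toAddSubgroup ((normSubgroup F F').map j) := by
    ext x
    rw [AddMonoidHom.mem_range, Additive.mem_toAddSubgroup, Subgroup.mem_map]
    constructor
    · rintro ⟨y, rfl⟩
      refine ⟨Units.map (Algebra.norm F : F' →* F) y.toMul, ⟨y.toMul, rfl⟩, ?_⟩
      apply Units.ext
      rw [l2_hqNorm_eq σ hσ y]
      rfl
    · rintro ⟨a, ⟨y, rfl⟩, ha⟩
      refine ⟨ofMul y, ?_⟩
      apply toMul.injective
      apply Units.ext
      rw [l2_hqNorm_eq σ hσ, ← ha]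
      rfl
  unfold hq0
  rw [hker, hrange, Subgroup.relIndex_toAddSubgroup, MonoidHom.range_eq_map,
    ← Subgroup.relIndex_comap, Subgroup.comap_map_eq_self_of_injective hj,
    Subgroup.relIndex_top_right]

end Field

section Main

variable (q : ℕ) [Fact q.Prime] {F F' : Type} [Field F] [Field F'] [Algebra ℚ_[q] F]
  [FiniteDimensional ℚ_[q] F] [Algebra F F'] [Algebra ℚ_[q] F'] [IsScalarTower ℚ_[q] F F']
  [FiniteDimensional F F'] [IsGalois F F'] [FiniteDimensional ℚ_[q] F']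

lemma l2_wv_aut (σ : F' ≃ₐ[F] F') (y : F') : wv q (σ y) = wv q y := by
  unfold wv
  exact congrArg _ (Algebra.norm_eq_of_algEquiv (σ.restrictScalars ℚ_[q]) y)

/-- The normalised valuation `ord = wv / d` on `Additive F'ˣ`. -/
noncomputable def l2Ord (d : ℤ) (hd : ∀ x : F', x ≠ 0 → d ∣ wv q x) : Additive F'ˣ →+ ℤ where
  toFun x := wv q ((x.toMul : F'ˣ) : F') / d
  map_zero' := by
    show wv q ((1 : F'ˣ) : F') / d = 0
    rw [Units.val_one, l0b_wv_one]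
    simp
  map_add' x y := by
    show wv q (((x.toMul * y.toMul : F'ˣ)) : F') / d = _
    rw [Units.val_mul, l0b_wv_mul q (x.toMul : F'ˣ).ne_zero (y.toMul : F'ˣ).ne_zero,
      Int.add_ediv_of_dvd_left (hd _ (x.toMul : F'ˣ).ne_zero)]

lemma l2Ord_apply (d : ℤ) (hd : ∀ x : F', x ≠ 0 → d ∣ wv q x) (x : Additive F'ˣ) :
    l2Ord q d hd x = wv q ((x.toMul : F'ˣ) : F') / d := rfl

lemma l2Ord_aut (d : ℤ) (hd : ∀ x : F', x ≠ 0 → d ∣ wv q x) (σ : F' ≃ₐ[F] F')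
    (x : Additive F'ˣ) : l2Ord q d hd (l2σ σ x) = l2Ord q d hd x := by
  rw [l2Ord_apply, l2Ord_apply, l2σ_apply, l2_wv_aut]

lemma l2Ord_surjective (d : ℤ) (hd : ∀ x : F', x ≠ 0 → d ∣ wv q x) (hd0 : 0 < d)
    (π : F') (hπ0 : π ≠ 0) (hπ : wv q π = d) : Function.Surjective (l2Ord q d hd) := by
  intro k
  refine ⟨ofMul ((Units.mk0 π hπ0) ^ k), ?_⟩
  rw [l2Ord_apply]
  show wv q (((Units.mk0 π hπ0 ^ k : F'ˣ)) : F') / d = k
  rw [Units.val_zpow_eq_zpow_val, Units.val_mk0, l0b_wv_zpow, hπ]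
  exact Int.mul_ediv_cancel k hd0.ne'

lemma l2Ord_eq_zero_iff (d : ℤ) (hd : ∀ x : F', x ≠ 0 → d ∣ wv q x) (hd0 : 0 < d)
    (x : Additive F'ˣ) : l2Ord q d hd x = 0 ↔ wv q ((x.toMul : F'ˣ) : F') = 0 := by
  rw [l2Ord_apply]
  constructor
  · intro h
    obtain ⟨c, hc⟩ := hd _ (x.toMul : F'ˣ).ne_zero
    rw [hc, Int.mul_ediv_cancel_left c hd0.ne'] at h
    rw [hc, h, mul_zero]
  · intro h
    rw [h]
    simp

lemma l2_hq0_V (σ : F' ≃ₐ[F] F') (hσ : ∀ τ, τ ∈ Subgroup.zpowers σ) (V : Subgroup F'ˣ)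
    (hstab : ∀ x ∈ Subgroup.toAddSubgroup V, l2σ σ x ∈ Subgroup.toAddSubgroup V)
    (hV4 : ∀ u ∈ V, σ (u : F') = u →
      ∃ y ∈ V, algebraMap F F' (Algebra.norm F (y : F')) = u) :
    hq0 (l2Restrict (l2σ σ) (Subgroup.toAddSubgroup V) hstab) (Module.finrank F F') = 1 := by
  apply l2_hq0_eq_one
  intro s hs
  have hs' : σ (((s : Additive F'ˣ).toMul : F'ˣ) : F') =
      (((s : Additive F'ˣ).toMul : F'ˣ) : F') := by
    rw [← l2σ_apply, ← l2Restrict_coe (l2σ σ) _ hstab s, hs]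
  obtain ⟨y, hyV, hy⟩ := hV4 _ s.2 hs'
  refine ⟨⟨ofMul y, hyV⟩, ?_⟩
  apply Subtype.ext
  rw [l2_hqNorm_coe (l2σ σ) _ _ (l2Restrict_coe (l2σ σ) _ hstab)]
  apply toMul.injective
  apply Units.ext
  rw [l2_hqNorm_eq σ hσ]
  exact hy

lemma l2_hq1_V (σ : F' ≃ₐ[F] F') (hσ : ∀ τ, τ ∈ Subgroup.zpowers σ) (V : Subgroup F'ˣ)
    (hstab : ∀ x ∈ Subgroup.toAddSubgroup V, l2σ σ x ∈ Subgroup.toAddSubgroup V)
    (hV5 : ∀ u ∈ V, Algebra.norm F (u : F') = 1 → ∃ y ∈ V, (u : F') = σ (y : F') / y) :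
    hq1 (l2Restrict (l2σ σ) (Subgroup.toAddSubgroup V) hstab) (Module.finrank F F') = 1 := by
  apply l2_hq1_eq_one
  intro s hs
  have hs1 : algebraMap F F' (Algebra.norm F (((s : Additive F'ˣ).toMul : F'ˣ) : F')) = 1 := by
    rw [← l2_hqNorm_eq σ hσ, ← l2_hqNorm_coe (l2σ σ) _ _ (l2Restrict_coe (l2σ σ) _ hstab), hs]
    rfl
  have hs2 : Algebra.norm F (((s : Additive F'ˣ).toMul : F'ˣ) : F') = 1 := by
    apply (algebraMap F F').injective
    rw [hs1, map_one]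
  obtain ⟨y, hyV, hy⟩ := hV5 _ s.2 hs2
  refine ⟨⟨ofMul y, hyV⟩, ?_⟩
  apply Subtype.ext
  rw [AddSubgroup.coe_sub, l2Restrict_coe]
  apply toMul.injective
  apply Units.ext
  rw [toMul_sub, Units.val_div_eq_div_val]
  exact hy.symm

theorem l2_main (hH : StmtHerbrand) (hHf : StmtHerbrandFinite) (σ : F' ≃ₐ[F] F')
    (hσ : ∀ τ, τ ∈ Subgroup.zpowers σ)
    (V : Subgroup F'ˣ)
    (hV1 : ∀ u ∈ V, wv q (u : F') = 0)
    (hV2 : ∀ u ∈ V, Units.map (σ : F' →* F') u ∈ V)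
    (hV3 : ∃ R : Finset F'ˣ, ∀ u : F'ˣ, wv q (u : F') = 0 → ∃ r ∈ R, u / r ∈ V)
    (hV4 : ∀ u ∈ V, σ (u : F') = u →
      ∃ y ∈ V, algebraMap F F' (Algebra.norm F (y : F')) = u)
    (hV5 : ∀ u ∈ V, Algebra.norm F (u : F') = 1 → ∃ y ∈ V, (u : F') = σ (y : F') / y) :
    (normSubgroup F F').index = Module.finrank F F' := by
  classical
  have : IsCyclic (F' ≃ₐ[F] F') := ⟨σ, hσ⟩
  have hn : 0 < Module.finrank F F' := Module.finrank_pos
  have hσn : σ ^ Module.finrank F F' = 1 := by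
    rw [← l2_orderOf σ hσ]
    exact pow_orderOf_eq_one σ
  have hσM : l2σ σ ^ Module.finrank F F' = 1 := l2σ_pow_eq_one σ _ hσn
  have hstab : ∀ x ∈ Subgroup.toAddSubgroup V, l2σ σ x ∈ Subgroup.toAddSubgroup V :=
    fun x hx => hV2 x.toMul hx
  obtain ⟨π, hπ0, hπpos, hπdvd⟩ := stmtWUnif q F'
  obtain ⟨R, hR⟩ := hV3
  have hle : Subgroup.toAddSubgroup V ≤ (l2Ord q (wv q π) hπdvd).ker := by
    intro x hx
    rw [AddMonoidHom.mem_ker]
    exact (l2Ord_eq_zero_iff q _ hπdvd hπpos x).mpr (hV1 _ hx)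
  have hR' : ∀ m, l2Ord q (wv q π) hπdvd m = 0 →
      ∃ r ∈ R.image (fun r => (ofMul r : Additive F'ˣ)), m - r ∈ Subgroup.toAddSubgroup V := by
    intro m hm
    have hwv := (l2Ord_eq_zero_iff q _ hπdvd hπpos m).mp hm
    obtain ⟨r, hrR, hr⟩ := hR m.toMul hwv
    exact ⟨ofMul r, Finset.mem_image_of_mem _ hrR, hr⟩
  have key := l2_abstract hH hHf (l2σ σ) (Module.finrank F F') hn hσM
    (Subgroup.toAddSubgroup V) hstab (l2_hq0_V σ hσ V hstab hV4) (l2_hq1_V σ hσ V hstab hV5)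
    (l2Ord q (wv q π) hπdvd) (l2Ord_surjective q _ hπdvd hπpos π hπ0 rfl)
    (l2Ord_aut q _ hπdvd σ) hle _ hR'
  rw [l2_hq1_units σ hσ, l2_hq0_units σ hσ, one_mul] at key
  exact key

end Main

/-- **L2**: the norm index of a cyclic extension of local fields is the degree. -/
theorem stmtNormIndex (hU : StmtUnitsTrivial) (hH : StmtHerbrand) (hHf : StmtHerbrandFinite) :
    StmtNormIndex := by
  intro q _ F F' _ _ _ _ _ _ _ hcyc
  letI : Algebra ℚ_[q] F' := ((algebraMap F F').comp (algebraMap ℚ_[q] F)).toAlgebra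
  haveI : IsScalarTower ℚ_[q] F F' := IsScalarTower.of_algebraMap_eq (fun x => rfl)
  haveI : FiniteDimensional ℚ_[q] F' := FiniteDimensional.trans ℚ_[q] F F'
  obtain ⟨σ, hσ⟩ := hcyc.exists_generator
  obtain ⟨V, hV1, hV2, hV3, hV4, hV5⟩ := hU q F F' σ hσ
  exact l2_main q hH hHf σ hσ V hV1 hV2 hV3 hV4 hV5

end Fermat.Agent.PT.L
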