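import Fermat.Agent.PT.L.Plan

/-!
# PT-L, piece L2 (part 1): abstract Herbrand bookkeeping
-/

set_option autoImplicit false

namespace Fermat.Agent.PT.L

section Generic

variable {M C : Type} [AddCommGroup M] [AddCommGroup C]

lemma l2_pow_coe (σM : AddMonoid.End M) (S : AddSubgroup M) (σS : AddMonoid.End S)
    (hσS : ∀ s : S, ((σS s : S) : M) = σM (s : M)) (k : ℕ) (s : S) :
    (((σS ^ k) s : S) : M) = (σM ^ k) (s : M) := by
  induction k generalizing s with
  | zero => simp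
  | succ k ih =>
    rw [pow_succ, pow_succ]
    show (((σS ^ k) (σS s) : S) : M) = (σM ^ k) (σM (s : M))
    rw [ih, hσS]

lemma l2_pow_eq_one (σM : AddMonoid.End M) (S : AddSubgroup M) (σS : AddMonoid.End S)
    (hσS : ∀ s : S, ((σS s : S) : M) = σM (s : M)) (n : ℕ) (hσM : σM ^ n = 1) : σS ^ n = 1 := by
  ext s
  rw [l2_pow_coe σM S σS hσS, hσM]
  rfl

lemma l2_hqNorm_apply (σ : AddMonoid.End M) (n : ℕ) (x : M) :
    hqNorm σ n x = ∑ i ∈ Finset.range n, (σ ^ i) x := by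
  unfold hqNorm
  induction n with
  | zero =>
    simp only [Finset.range_zero, Finset.sum_empty]
    rfl
  | succ k ih =>
    rw [Finset.sum_range_succ, Finset.sum_range_succ, ← ih]
    rfl

lemma l2_hqDelta_apply (σ : AddMonoid.End M) (x : M) : hqDelta σ x = σ x - x := by
  unfold hqDelta
  rfl

lemma l2_hqNorm_coe (σM : AddMonoid.End M) (S : AddSubgroup M) (σS : AddMonoid.End S)
    (hσS : ∀ s : S, ((σS s : S) : M) = σM (s : M)) (n : ℕ) (s : S) :
    ((hqNorm σS n s : S) : M) = hqNorm σM n (s : M) := by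
  rw [l2_hqNorm_apply, l2_hqNorm_apply, AddSubgroup.val_finsetSum]
  exact Finset.sum_congr rfl fun i _ => l2_pow_coe σM S σS hσS i s

lemma l2_hqDelta_coe (σM : AddMonoid.End M) (S : AddSubgroup M) (σS : AddMonoid.End S)
    (hσS : ∀ s : S, ((σS s : S) : M) = σM (s : M)) (s : S) :
    ((hqDelta σS s : S) : M) = hqDelta σM (s : M) := by
  rw [l2_hqDelta_apply, l2_hqDelta_apply, AddSubgroup.coe_sub, hσS]

/-- Herbrand's lemma in kernel form. -/
theorem l2_herbrand_ker (hH : StmtHerbrand) (σM : AddMonoid.End M) (σC : AddMonoid.End C) (n : ℕ)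
    (hn : 0 < n) (hσM : σM ^ n = 1) (hσC : σC ^ n = 1) (π : M →+ C)
    (hπ : Function.Surjective π) (hπσ : ∀ m, π (σM m) = σC (π m)) (S : AddSubgroup M)
    (hS : ∀ x, x ∈ S ↔ π x = 0) (σS : AddMonoid.End S)
    (hσS : ∀ s : S, ((σS s : S) : M) = σM (s : M))
    (h0S : hq0 σS n ≠ 0) (h1S : hq1 σS n ≠ 0) (h0C : hq0 σC n ≠ 0) (h1C : hq1 σC n ≠ 0) :
    hq0 σM n ≠ 0 ∧ hq1 σM n ≠ 0 ∧
      hq0 σM n * hq1 σS n * hq1 σC n = hq1 σM n * hq0 σS n * hq0 σC n := by
  have hσSn : σS ^ n = 1 := l2_pow_eq_one σM S σS hσS n hσM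
  have hrange : S.subtype.range = π.ker := by
    ext x
    rw [AddSubgroup.range_subtype, AddMonoidHom.mem_ker]
    exact hS x
  exact hH S M C σS σM σC n S.subtype π hn hσSn hσM hσC S.subtype_injective hπ hrange
    (fun a => hσS a) hπσ h0S h1S h0C h1C

lemma l2_hq0_eq_one (σ : AddMonoid.End M) (n : ℕ)
    (h : ∀ x, σ x = x → ∃ y, hqNorm σ n y = x) : hq0 σ n = 1 := by
  unfold hq0
  rw [AddSubgroup.relIndex_eq_one]
  intro x hx
  rw [AddMonoidHom.mem_ker, l2_hqDelta_apply, sub_eq_zero] at hx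
  exact AddMonoidHom.mem_range.mpr (h x hx)

lemma l2_hq1_eq_one (σ : AddMonoid.End M) (n : ℕ)
    (h : ∀ x, hqNorm σ n x = 0 → ∃ y, σ y - y = x) : hq1 σ n = 1 := by
  unfold hq1
  rw [AddSubgroup.relIndex_eq_one]
  intro x hx
  rw [AddMonoidHom.mem_ker] at hx
  obtain ⟨y, hy⟩ := h x hx
  exact AddMonoidHom.mem_range.mpr ⟨y, by rw [l2_hqDelta_apply, hy]⟩

lemma l2_pow_comm (σM : AddMonoid.End M) (σC : AddMonoid.End C) (π : M →+ C)
    (hπσ : ∀ m, π (σM m) = σC (π m)) (k : ℕ) (m : M) : π ((σM ^ k) m) = (σC ^ k) (π m) := by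
  induction k generalizing m with
  | zero => rfl
  | succ k ih =>
    rw [pow_succ, pow_succ]
    show π ((σM ^ k) (σM m)) = (σC ^ k) (σC (π m))
    rw [ih, hπσ]

lemma l2_pow_eq_one_of_surj (σM : AddMonoid.End M) (σC : AddMonoid.End C) (π : M →+ C)
    (hπ : Function.Surjective π) (hπσ : ∀ m, π (σM m) = σC (π m)) (n : ℕ) (hσM : σM ^ n = 1) :
    σC ^ n = 1 := by
  ext c
  obtain ⟨m, rfl⟩ := hπ c
  rw [← l2_pow_comm σM σC π hπσ, hσM]
  rfl

/-- Restriction of an endomorphism to a stable subgroup. -/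
def l2Restrict (σM : AddMonoid.End M) (S : AddSubgroup M) (hS : ∀ x ∈ S, σM x ∈ S) :
    AddMonoid.End S :=
  (σM.comp S.subtype).codRestrict S fun s => hS s s.2

lemma l2Restrict_coe (σM : AddMonoid.End M) (S : AddSubgroup M) (hS : ∀ x ∈ S, σM x ∈ S)
    (s : S) : ((l2Restrict σM S hS s : S) : M) = σM (s : M) := rfl

end Generic

/-! ### The integers with trivial action -/

lemma l2_hq0_int (n : ℕ) : hq0 (1 : AddMonoid.End ℤ) n = n := by
  unfold hq0
  have hker : (hqDelta (1 : AddMonoid.End ℤ)).ker = ⊤ := by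
    ext x
    simp [l2_hqDelta_apply]
  have hrange : (hqNorm (1 : AddMonoid.End ℤ) n).range = AddSubgroup.zmultiples (n : ℤ) := by
    ext x
    rw [AddMonoidHom.mem_range, AddSubgroup.mem_zmultiples_iff]
    constructor
    · rintro ⟨y, rfl⟩
      refine ⟨y, ?_⟩
      rw [l2_hqNorm_apply]
      simp [mul_comm]
    · rintro ⟨k, rfl⟩
      refine ⟨k, ?_⟩
      rw [l2_hqNorm_apply]
      simp [mul_comm]
  rw [hker, hrange, AddSubgroup.relIndex_top_right, Int.index_zmultiples]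
  simp

lemma l2_hq1_int (n : ℕ) (hn : 0 < n) : hq1 (1 : AddMonoid.End ℤ) n = 1 := by
  apply l2_hq1_eq_one
  intro x hx
  rw [l2_hqNorm_apply] at hx
  simp only [one_pow, AddMonoid.End.coe_one, id_eq, Finset.sum_const, Finset.card_range,
    nsmul_eq_mul] at hx
  have hx0 : x = 0 := by
    have hn' : (n : ℤ) ≠ 0 := by exact_mod_cast hn.ne'
    rcases mul_eq_zero.mp hx with h | h
    · exact absurd h hn'
    · exact h
  exact ⟨0, by simp [hx0]⟩

/-! ### The abstract computation -/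

section Abstract

/-- The endomorphism induced on the quotient by a stable subgroup. -/
def l2Quot {M : Type} [AddCommGroup M] (σM : AddMonoid.End M) (S : AddSubgroup M)
    (hS : ∀ x ∈ S, σM x ∈ S) : AddMonoid.End (M ⧸ S) :=
  QuotientAddGroup.map S S σM (fun x hx => hS x hx)

/-- Step A: a `σ`-module `Q` with an invariant surjection `ord : Q → ℤ` with finite kernel has
Herbrand quotient `n`. -/
theorem l2_stepA (hH : StmtHerbrand) (hHf : StmtHerbrandFinite) {Q : Type} [AddCommGroup Q]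
    (σQ : AddMonoid.End Q) (n : ℕ) (hn : 0 < n) (hσQ : σQ ^ n = 1) (ordQ : Q →+ ℤ)
    (hsurj : Function.Surjective ordQ) (hinv : ∀ c, ordQ (σQ c) = ordQ c)
    (hfin : Finite ordQ.ker) :
    hq0 σQ n ≠ 0 ∧ hq1 σQ n ≠ 0 ∧ hq0 σQ n = hq1 σQ n * n := by
  have hKstab : ∀ c ∈ ordQ.ker, σQ c ∈ ordQ.ker := by
    intro c hc
    rw [AddMonoidHom.mem_ker] at hc ⊢
    rw [hinv, hc]
  have hσK : ∀ s : ordQ.ker, ((l2Restrict σQ ordQ.ker hKstab s : ordQ.ker) : Q) = σQ s :=
    fun s => rfl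
  have hσKn : l2Restrict σQ ordQ.ker hKstab ^ n = 1 :=
    l2_pow_eq_one σQ ordQ.ker _ hσK n hσQ
  obtain ⟨hK0, hK01⟩ := hHf ordQ.ker (l2Restrict σQ ordQ.ker hKstab) n hn hσKn
  obtain ⟨hQ0, hQ1, hQeq⟩ := l2_herbrand_ker hH σQ 1 n hn hσQ (one_pow n) ordQ hsurj
    (fun c => hinv c) ordQ.ker (fun x => AddMonoidHom.mem_ker) _ hσK hK0 (hK01 ▸ hK0)
    (by rw [l2_hq0_int]; exact hn.ne') (by rw [l2_hq1_int n hn]; exact one_ne_zero)
  rw [l2_hq0_int, l2_hq1_int n hn, ← hK01] at hQeq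
  refine ⟨hQ0, hQ1, ?_⟩
  exact Nat.eq_of_mul_eq_mul_right (Nat.pos_of_ne_zero hK0) (by linarith [hQeq])

/-- Step B: if `S ⊂ M` is cohomologically trivial and `M ⧸ S` has Herbrand quotient `n`, so has
`M`. -/
theorem l2_stepB (hH : StmtHerbrand) {M : Type} [AddCommGroup M]
    (σM : AddMonoid.End M) (n : ℕ) (hn : 0 < n) (hσM : σM ^ n = 1) (S : AddSubgroup M)
    (hS : ∀ x ∈ S, σM x ∈ S) (h0S : hq0 (l2Restrict σM S hS) n = 1)
    (h1S : hq1 (l2Restrict σM S hS) n = 1)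
    (hQ : hq0 (l2Quot σM S hS) n ≠ 0 ∧
      hq1 (l2Quot σM S hS) n ≠ 0 ∧
      hq0 (l2Quot σM S hS) n =
        hq1 (l2Quot σM S hS) n * n) :
    hq0 σM n = hq1 σM n * n := by
  obtain ⟨hQ0, hQ1, hQeq⟩ := hQ
  have hπσ : ∀ m, QuotientAddGroup.mk' S (σM m) =
      (l2Quot σM S hS)
        (QuotientAddGroup.mk' S m) := fun m => rfl
  have hσQ : (l2Quot σM S hS) ^ n
      = 1 :=
    l2_pow_eq_one_of_surj σM _ (QuotientAddGroup.mk' S) (QuotientAddGroup.mk'_surjective S)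
      hπσ n hσM
  obtain ⟨hM0, hM1, hMeq⟩ := l2_herbrand_ker hH σM
    (l2Quot σM S hS) n hn hσM hσQ
    (QuotientAddGroup.mk' S) (QuotientAddGroup.mk'_surjective S) hπσ S
    (fun x => (QuotientAddGroup.eq_zero_iff x).symm) (l2Restrict σM S hS) (fun s => rfl)
    (h0S ▸ one_ne_zero) (h1S ▸ one_ne_zero) hQ0 hQ1
  rw [h0S, h1S, hQeq] at hMeq
  exact Nat.eq_of_mul_eq_mul_right (Nat.pos_of_ne_zero hQ1) (by linarith [hMeq])

/-- The abstract norm-index computation. -/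
theorem l2_abstract (hH : StmtHerbrand) (hHf : StmtHerbrandFinite) {M : Type} [AddCommGroup M]
    (σM : AddMonoid.End M) (n : ℕ) (hn : 0 < n) (hσM : σM ^ n = 1) (S : AddSubgroup M)
    (hS : ∀ x ∈ S, σM x ∈ S) (h0S : hq0 (l2Restrict σM S hS) n = 1)
    (h1S : hq1 (l2Restrict σM S hS) n = 1)
    (ord : M →+ ℤ) (hsurj : Function.Surjective ord) (hinv : ∀ m, ord (σM m) = ord m)
    (hle : S ≤ ord.ker)
    (R : Finset M) (hR : ∀ m, ord m = 0 → ∃ r ∈ R, m - r ∈ S) :
    hq0 σM n = hq1 σM n * n := by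
  classical
  apply l2_stepB hH σM n hn hσM S hS h0S h1S
  have hπσ : ∀ m, QuotientAddGroup.mk' S (σM m) =
      (l2Quot σM S hS)
        (QuotientAddGroup.mk' S m) := fun m => rfl
  have hσQ : (l2Quot σM S hS) ^ n
      = 1 :=
    l2_pow_eq_one_of_surj σM _ (QuotientAddGroup.mk' S) (QuotientAddGroup.mk'_surjective S)
      hπσ n hσM
  have hordQsurj : Function.Surjective (QuotientAddGroup.lift S ord hle) := by
    intro k
    obtain ⟨x, hx⟩ := hsurj k
    exact ⟨QuotientAddGroup.mk' S x, hx⟩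
  have hordQσ : ∀ c, QuotientAddGroup.lift S ord hle
      ((l2Quot σM S hS) c) =
      QuotientAddGroup.lift S ord hle c := by
    intro c
    obtain ⟨m, rfl⟩ := QuotientAddGroup.mk'_surjective S c
    exact hinv m
  have hKfin : Finite (QuotientAddGroup.lift S ord hle).ker := by
    have hsub : ((QuotientAddGroup.lift S ord hle).ker : Set (M ⧸ S)) ⊆
        ↑(R.image fun r => QuotientAddGroup.mk' S r) := by
      intro c hc
      obtain ⟨m, rfl⟩ := QuotientAddGroup.mk'_surjective S c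
      have hm : ord m = 0 := hc
      obtain ⟨r, hrR, hr⟩ := hR m hm
      rw [Finset.coe_image]
      refine ⟨r, hrR, ?_⟩
      show ((r : M) : M ⧸ S) = (m : M ⧸ S)
      rw [QuotientAddGroup.eq]
      have : -r + m = m - r := by abel
      rw [this]
      exact hr
    exact (Set.Finite.subset (Finset.finite_toSet _) hsub).to_subtype
  exact l2_stepA hH hHf _ n hn hσQ (QuotientAddGroup.lift S ord hle) hordQsurj hordQσ hKfin

end Abstract

end Fermat.Agent.PT.L
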